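import Fermat.Agent.LT.RS.Conductor
import Fermat.Agent.LT.Red.Iwasawa
import Fermat.Agent.LT.Asai.Local

/-!
The Hecke recursion for the Fourier coefficients along `diag(α, 1) g₀`, `g₀` trivial at the place.
-/

set_option autoImplicit false

noncomputable section

namespace FLTAgent.LT.RS

open NumberField IsDedekindDomain Complex
open scoped Real

variable {F : Type*} [Field F] [NumberField F]

/-! ### Linearity -/

theorem exists_isDual (ξ : F) : ∃ n : ℕ, 0 < n ∧ IsDual n ξ := by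
  classical
  set q : Idx F → ℚ := fun i ↦ Algebra.trace ℚ F (ξ * (RingOfIntegers.basis F i : F))
  refine ⟨∏ i, (q i).den, Finset.prod_pos fun i _ ↦ (q i).den_pos,
    fun i ↦ ⟨(q i).num * ∏ j ∈ Finset.univ.erase i, ((q j).den : ℤ), ?_⟩⟩
  show ((∏ j, (q j).den : ℕ) : ℚ) * q i = _
  rw [← Finset.mul_prod_erase Finset.univ (fun j ↦ (q j).den) (Finset.mem_univ i)]
  push_cast
  rw [← Rat.mul_den_eq_num]
  ring

theorem wh_finsetSum {ι : Type*} (s : Finset ι) {φ : Form F} {h : GF F} {ψ : ι → Form F}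
    {g : ι → GF F} {c : ι → ℂ} (e : ∀ x, φ x h = ∑ i ∈ s, c i * ψ i x (g i))
    (hc : ∀ i ∈ s, Continuous fun x ↦ ψ i x (g i)) (hp : ∀ i ∈ s, ∃ m, HasPeriod (ψ i) (g i) m)
    (ξ : F) (t : Tinf F) : wh φ h ξ t = ∑ i ∈ s, c i * wh (ψ i) (g i) ξ t := by
  classical
  choose m hm using hp
  obtain ⟨n, hn, hd⟩ := exists_isDual ξ
  set M := (∏ i ∈ s.attach, m i.1 i.2) * n
  have hM : ∀ i ∈ s, HasPeriod (ψ i) (g i) M := fun i hi ↦ by
    simp only [M, ← Finset.mul_prod_erase s.attach (fun j : {x // x ∈ s} ↦ m j.1 j.2)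
      (Finset.mem_attach s ⟨i, hi⟩)]
    exact ((hm i hi).mul (Finset.prod_pos fun j _ ↦ (hm j.1 j.2).pos)).mul hn
  have hM0 : 0 < M := Nat.mul_pos (Finset.prod_pos fun i _ ↦ (hm i.1 i.2).pos) hn
  have hdM : IsDual M ξ := by
    simp only [M]; rw [mul_comm]; exact isDual_mul hd _
  have hcφ : Continuous fun x ↦ φ x h := by
    simp only [e]; exact continuous_finsetSum s fun i hi ↦ continuous_const.mul (hc i hi)
  have hφ : HasPeriod φ h M := ⟨hM0, fun β x ↦ by
    simp only [e]; exact Finset.sum_congr rfl fun i hi ↦ by rw [(hM i hi).inv]⟩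
  rw [← xiOf_kvec hM0 hdM, ← fc_periodFun_eq_wh hcφ hφ, fc,
    Finset.sum_congr rfl fun i hi ↦ by rw [← fc_periodFun_eq_wh (hc i hi) (hM i hi)]]
  simp only [fc, periodFun, e, Finset.mul_sum]
  rw [MeasureTheory.integral_finsetSum s fun i hi ↦ ?_]
  · refine Finset.sum_congr rfl fun i hi ↦ ?_
    rw [← MeasureTheory.integral_const_mul]
    exact MeasureTheory.integral_congr_ae (Filter.Eventually.of_forall fun y ↦ by ring)
  · refine ((((continuous_echar _).mul (continuous_const.mul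
      (continuous_periodFun (hc i hi) M t))).continuousOn).integrableOn_compact
        (isCompact_univ_pi fun _ ↦ isCompact_Icc (a := (0 : ℝ)) (b := 1))).mono_set ?_
    exact Set.pi_mono fun _ _ ↦ Set.Ico_subset_Icc_self

/-! ### Translation at a good place -/

/-- The matrix is trivial at `v`. -/
def TrivAt (v : HeightOneSpectrum (𝓞 F)) (g : GF F) : Prop :=
  Red.loc v (g : Matrix (Fin 2) (Fin 2) (Af F)) = 1

theorem loc_upperGF_eq_one {w : HeightOneSpectrum (𝓞 F)} {a : (Af F)ˣ} {b : Af F}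
    (ha : (a : Af F) w = 1) (hb : b w = 0) :
    Red.loc w (upperGF a b : Matrix (Fin 2) (Fin 2) (Af F)) = 1 := by
  refine Matrix.ext fun i j ↦ ?_
  fin_cases i <;> fin_cases j
  · exact ha
  · exact hb
  · rfl
  · rfl

theorem commute_of_trivAt {v : HeightOneSpectrum (𝓞 F)} {g0 : GF F} (h0 : TrivAt v g0)
    {a : (Af F)ˣ} {b : Af F} (ha : ∀ w, w ≠ v → (a : Af F) w = 1)
    (hb : ∀ w, w ≠ v → b w = 0) : g0 * upperGF a b = upperGF a b * g0 := by
  refine Units.ext (Red.loc_ext fun w ↦ ?_)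
  rw [Units.val_mul, Units.val_mul, Red.loc_mul, Red.loc_mul]
  rcases eq_or_ne w v with rfl | hw
  · rw [h0, one_mul, mul_one]
  · rw [loc_upperGF_eq_one (ha w hw) (hb w hw), one_mul, mul_one]

theorem inLevel_conj_single {v : HeightOneSpectrum (𝓞 F)} {N : ℕ} (hv : (N : 𝓞 F) ∉ v.asIdeal)
    (α : (Af F)ˣ) {g0 : GF F} (h0 : TrivAt v g0) {b : Af F} (hbw : ∀ w, w ≠ v → b w = 0)
    (hbv : Valued.v (b v) ≤ Valued.v ((α : Af F) v)) :
    InLevel N ((upperGF α 0 * g0)⁻¹ * upperGF 1 b * (upperGF α 0 * g0)) := by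
  have hc : ∀ w, ((((α⁻¹ : (Af F)ˣ) : Af F) * b) w) = ((α⁻¹ : (Af F)ˣ) : Af F) w * b w :=
    fun w ↦ rfl
  have e : (upperGF α 0 * g0)⁻¹ * upperGF 1 b * (upperGF α 0 * g0) =
      upperGF 1 (((α⁻¹ : (Af F)ˣ) : Af F) * b) := by
    rw [mul_assoc, inv_mul_eq_iff_eq_mul, mul_assoc (upperGF α 0),
      commute_of_trivAt h0 (fun w _ ↦ rfl) fun w hw ↦ by rw [hc, hbw w hw, mul_zero],
      ← mul_assoc, ← mul_assoc, Red.upperGF_mul, Red.upperGF_mul]
    simp [← mul_assoc]
  rw [e]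
  refine Red.inLevel_upperGF (fun w ↦ ⟨?_, ?_, ?_⟩) fun w ↦ ?_
  · show Valued.v (1 : w.adicCompletion F) = 1
    exact map_one _
  · rw [Units.val_one, sub_self, show (0 : Af F) w = 0 from rfl, map_zero]; exact zero_le
  · rw [inv_one, Units.val_one, sub_self, show (0 : Af F) w = 0 from rfl, map_zero]; exact zero_le
  · rw [hc, map_mul, Red.valued_inv]
    rcases eq_or_ne w v with rfl | hw
    · rw [Red.valued_natCast_eq_one hv, inv_mul_le_iff₀
        (zero_lt_iff.2 ((map_ne_zero _).2 (Red.unit_apply_ne_zero α w))), mul_one]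
      exact hbv
    · rw [hbw w hw, map_zero, mul_zero]; exact zero_le

variable [IsTotallyComplex F]

/-- Above the conductor the coefficient vanishes. -/
theorem wh_vanish {φ : Form F} {N : ℕ} (hN : 0 < N) (ha : Automorphic N φ)
    (hc : ∀ g, Continuous fun x ↦ φ x g) {v : HeightOneSpectrum (𝓞 F)}
    (hv : (N : 𝓞 F) ∉ v.asIdeal) (α : (Af F)ˣ) {g0 : GF F} (h0 : TrivAt v g0) {ξ : F}
    (h : dualSup F v < v.valuation F ξ * Valued.v ((α : Af F) v)) (t : Tinf F) :
    wh φ (upperGF α 0 * g0) ξ t = 0 := by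
  obtain ⟨D, hD, hsmall⟩ := exists_conj_bound (upperGF α 0 * g0)
  obtain ⟨η, hηv, hηw, hne⟩ := exists_trChar_ne_one v α h (Nat.mul_pos hD hN)
  set g := upperGF α 0 * g0
  set b : Af F := adeleSingle v (algebraMap F (Af F) η v)
  have hsub : InLevel N (g⁻¹ * upperGF 1 (b - algebraMap F (Af F) η) * g) := hsmall N _ fun w ↦ by
    rw [show (b - algebraMap F (Af F) η) w = b w - algebraMap F (Af F) η w from rfl]
    rcases eq_or_ne w v with rfl | hw
    · rw [show b w = algebraMap F (Af F) η w from adeleSingle_self _ _, sub_self, map_zero]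
      exact zero_le
    · rw [show b w = 0 from adeleSingle_ne _ hw, zero_sub, Valuation.map_neg,
        Red.valued_algebraMap]
      exact hηw w hw
  have hb : InLevel N (g⁻¹ * upperGF 1 b * g) :=
    inLevel_conj_single hv α h0 (fun w hw ↦ adeleSingle_ne _ hw)
      (by rw [adeleSingle_self, Red.valued_algebraMap]; exact hηv)
  have h1 := wh_upperGF_mul hN ha (hc g) (η := 0) (b := b) (by rwa [map_zero, sub_zero]) ξ t
  rw [show -embF (0 : F) = 0 by funext w; simp [embF], trChar_zero, one_mul] at h1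
  have h2 := wh_upperGF_mul hN ha (hc g) hsub ξ t
  rw [h1] at h2
  by_contra hne0
  exact hne ((mul_eq_right₀ hne0).1 h2.symm)

/-- Below the conductor the unipotent translates have the same coefficient. -/
theorem wh_translate_eq {φ : Form F} {N : ℕ} (hN : 0 < N) (ha : Automorphic N φ)
    (hc : ∀ g, Continuous fun x ↦ φ x g) {v : HeightOneSpectrum (𝓞 F)} (g : GF F) {ξ : F}
    (hξ : ξ ≠ 0) {γ : WithZero (Multiplicative ℤ)} (h : v.valuation F ξ * γ ≤ dualSup F v)
    {b : Af F} (hbv : Valued.v (b v) ≤ γ) (hbw : ∀ w, w ≠ v → b w = 0) (t : Tinf F) :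
    wh φ (upperGF 1 b * g) ξ t = wh φ g ξ t := by
  obtain ⟨D, hD, hsmall⟩ := exists_conj_bound g
  obtain ⟨η, hη, he⟩ := exists_trChar_eq_one v hξ h hbv hbw (Nat.mul_pos hD hN)
  rw [wh_upperGF_mul hN ha (hc g) (hsmall N _ hη), he, one_mul]

omit [IsTotallyComplex F] in
theorem valued_unifIdele (v : HeightOneSpectrum (𝓞 F)) :
    Valued.v ((unifIdele v : Af F) v) = WithZero.exp (-1 : ℤ) := by
  show Valued.v (adeleMulSingle v ((unif v : F) : v.adicCompletion F) v) = _
  rw [adeleMulSingle_self, HeightOneSpectrum.adicCompletion.valued_coe]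
  exact (HeightOneSpectrum.valuation_exists_uniformizer F v).choose_spec

omit [IsTotallyComplex F] in
theorem unifIdele_apply_ne {v w : HeightOneSpectrum (𝓞 F)} (h : w ≠ v) :
    (unifIdele v : Af F) w = 1 := adeleMulSingle_ne _ h

omit [IsTotallyComplex F] in
theorem lowerDiag_eq (a : (Af F)ˣ) : lowerDiag a = upperGF a⁻¹ 0 * scalarGF a := by
  refine Units.ext ?_
  ext i j
  fin_cases i <;> fin_cases j <;>
    simp [lowerDiag, upperGF, scalarGF, Matrix.mul_apply, Fin.sum_univ_two]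

/-- The Hecke recursion. -/
theorem wh_rec {φ : Form F} {N : ℕ} (hN : 0 < N) (ha : Automorphic N φ)
    (hc : ∀ g, Continuous fun x ↦ φ x g) {v : HeightOneSpectrum (𝓞 F)}
    {c : ℂ} (he : ∀ x g, hecke v φ x g = c * φ x g) (α : (Af F)ˣ) {g0 : GF F} (h0 : TrivAt v g0)
    {ξ : F} (hξ : ξ ≠ 0) (h : v.valuation F ξ * Valued.v ((α : Af F) v) ≤ dualSup F v)
    (t : Tinf F) :
    c * wh φ (upperGF α 0 * g0) ξ t =
      (Nat.card (𝓞 F ⧸ v.asIdeal) : ℂ) * wh φ (upperGF (α * unifIdele v) 0 * g0) ξ t +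
        wh φ (upperGF (α * (unifIdele v)⁻¹) 0 * g0) ξ t := by
  classical
  haveI : Fintype (𝓞 F ⧸ v.asIdeal) := Fintype.ofFinite _
  set ϖ := unifIdele v
  set e : 𝓞 F ⧸ v.asIdeal → Af F := fun u ↦
    adeleSingle v (((Quotient.out u : 𝓞 F) : F) : v.adicCompletion F)
  set b : 𝓞 F ⧸ v.asIdeal → Af F := fun u ↦ (α : Af F) * e u
  have hϖ : ∀ w, w ≠ v → (ϖ : Af F) w = 1 := fun w hw ↦ unifIdele_apply_ne hw
  have hϖi : ∀ w, w ≠ v → ((ϖ⁻¹ : (Af F)ˣ) : Af F) w = 1 := fun w hw ↦ adeleMulSingle_ne _ hw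
  have hew : ∀ u w, w ≠ v → e u w = 0 := fun u w hw ↦ adeleSingle_ne _ hw
  have hb : ∀ u, Valued.v (b u v) ≤ Valued.v ((α : Af F) v) := fun u ↦ by
    simp only [b, e, af_mul_apply, adeleSingle_self, map_mul]
    refine mul_le_of_le_one_right' ?_
    rw [HeightOneSpectrum.adicCompletion.valued_coe]
    exact v.valuation_le_one _
  have hu : ∀ u, upperGF α 0 * g0 * upperGF ϖ (e u) =
      upperGF 1 (b u) * (upperGF (α * ϖ) 0 * g0) := fun u ↦ by
    rw [mul_assoc, commute_of_trivAt h0 hϖ (hew u), ← mul_assoc, ← mul_assoc, Red.upperGF_mul,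
      Red.upperGF_mul]
    simp [b]
  have hl : upperGF α 0 * g0 * lowerDiag ϖ = upperGF (α * ϖ⁻¹) 0 * g0 * scalarGF ϖ := by
    rw [lowerDiag_eq, ← mul_assoc, mul_assoc (upperGF α 0),
      commute_of_trivAt h0 hϖi fun w _ ↦ rfl, ← mul_assoc, Red.upperGF_mul]
    simp
  have hsum : ∀ x, c * φ x (upperGF α 0 * g0) =
      ∑ i : (𝓞 F ⧸ v.asIdeal) ⊕ Unit, (1 : ℂ) * φ x (Sum.elim
        (fun u ↦ upperGF 1 (b u) * (upperGF (α * ϖ) 0 * g0))
        (fun _ ↦ upperGF (α * ϖ⁻¹) 0 * g0) i) := fun x ↦ by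
    rw [← he, hecke, finsum_eq_sum_of_fintype]
    simp only [one_mul, Fintype.sum_sum_type, Sum.elim_inl, Sum.elim_inr, Finset.univ_unique,
      Finset.sum_singleton]
    congr 1
    · exact Finset.sum_congr rfl fun u _ ↦ congrArg (φ x) (hu u)
    · rw [hl, ha.central]
  have key := wh_finsetSum (φ := fun x g ↦ c * φ x g) (h := upperGF α 0 * g0)
    (ψ := fun _ ↦ φ) Finset.univ hsum (fun i _ ↦ hc _)
    (fun i _ ↦ exists_hasPeriod hN ha _) ξ t
  have key0 := wh_finsetSum (φ := fun x g ↦ c * φ x g) (h := upperGF α 0 * g0)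
    (ψ := fun _ : Unit ↦ φ) (g := fun _ ↦ upperGF α 0 * g0) (c := fun _ ↦ c) Finset.univ
    (fun x ↦ by simp) (fun i _ ↦ hc _) (fun i _ ↦ exists_hasPeriod hN ha _) ξ t
  simp only [Finset.univ_unique, Finset.sum_singleton] at key0
  rw [← key0, key]
  simp only [one_mul, Fintype.sum_sum_type, Sum.elim_inl, Sum.elim_inr, Finset.univ_unique,
    Finset.sum_singleton]
  rw [Finset.sum_congr rfl fun u _ ↦ wh_translate_eq hN ha hc (upperGF (α * ϖ) 0 * g0) hξ h (hb u)
    (fun w hw ↦ by simp only [b, af_mul_apply, hew u w hw, mul_zero]) t,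
    Finset.sum_const, Finset.card_univ, Nat.card_eq_fintype_card, nsmul_eq_mul]

omit [IsTotallyComplex F] in
theorem one_lt_card (v : HeightOneSpectrum (𝓞 F)) : 1 < Nat.card (𝓞 F ⧸ v.asIdeal) := by
  haveI : Nontrivial (𝓞 F ⧸ v.asIdeal) := Ideal.Quotient.nontrivial_iff.2 v.isPrime.ne_top
  exact Finite.one_lt_card

/-- The normalised Hecke factor `q^(-k/2) U_k(c / √q)`. -/
def lamLoc (v : HeightOneSpectrum (𝓞 F)) (c : ℝ) (k : ℕ) : ℝ :=
  (Real.sqrt (Nat.card (𝓞 F ⧸ v.asIdeal)))⁻¹ ^ k *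
    Asai.cheb (c / Real.sqrt (Nat.card (𝓞 F ⧸ v.asIdeal))) k

/-- Solving the recursion. -/
theorem rec_solve {W : ℕ → ℂ} {S c : ℝ} (hS : S ≠ 0) (h1 : (c : ℂ) * W 0 = (S : ℂ) * S * W 1)
    (h2 : ∀ j, (c : ℂ) * W (j + 1) = (S : ℂ) * S * W (j + 2) + W j) (k : ℕ) :
    W k = ((S⁻¹ ^ k * Asai.cheb (c / S) k : ℝ) : ℂ) * W 0 := by
  have hS' : (S : ℂ) ≠ 0 := Complex.ofReal_ne_zero.2 hS
  have key : ∀ k, (S : ℂ) ^ k * W k = ((Asai.cheb (c / S) k : ℝ) : ℂ) * W 0 := by
    intro k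
    induction k using Nat.twoStepInduction with
    | zero => simp [Asai.cheb]
    | one =>
      simp only [Asai.cheb, Complex.ofReal_div, pow_one]
      field_simp
      linear_combination -h1
    | more j e0 e1 =>
      simp only [Asai.cheb, Complex.ofReal_sub, Complex.ofReal_mul, Complex.ofReal_div, sub_mul,
        mul_assoc, ← e0, ← e1]
      field_simp
      linear_combination -(S : ℂ) ^ j * (S : ℂ) * h2 j
  refine mul_left_cancel₀ (pow_ne_zero k hS') ?_
  rw [key k]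
  push_cast
  rw [inv_pow, ← mul_assoc, ← mul_assoc, mul_inv_cancel₀ (pow_ne_zero k hS'), one_mul]

/-- The coefficients at the powers of a good place. -/
theorem wh_pow {φ : Form F} {N : ℕ} (hN : 0 < N) (ha : Automorphic N φ)
    (hc : ∀ g, Continuous fun x ↦ φ x g) {v : HeightOneSpectrum (𝓞 F)}
    (hv : (N : 𝓞 F) ∉ v.asIdeal) {c : ℝ} (he : ∀ x g, hecke v φ x g = (c : ℂ) * φ x g)
    (α : (Af F)ˣ) {g0 : GF F} (h0 : TrivAt v g0) {ξ : F} (hξ : ξ ≠ 0)
    (h : v.valuation F ξ * Valued.v ((α : Af F) v) = dualSup F v) (t : Tinf F) (k : ℕ) :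
    wh φ (upperGF (α * unifIdele v ^ k) 0 * g0) ξ t =
      (lamLoc v c k : ℂ) * wh φ (upperGF α 0 * g0) ξ t := by
  have hval : ∀ k : ℕ, v.valuation F ξ * Valued.v (((α * unifIdele v ^ k : (Af F)ˣ) : Af F) v) =
      dualSup F v * WithZero.exp (-1 : ℤ) ^ k := by
    intro k
    induction k with
    | zero => simp [h]
    | succ k ih =>
      rw [pow_succ, ← mul_assoc, Units.val_mul, af_mul_apply, map_mul, ← mul_assoc, ih,
        valued_unifIdele, pow_succ, mul_assoc]
  have hle : ∀ k : ℕ, v.valuation F ξ * Valued.v (((α * unifIdele v ^ k : (Af F)ˣ) : Af F) v) ≤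
      dualSup F v := fun k ↦ by
    rw [hval]
    refine mul_le_of_le_one_right' (pow_le_one₀ zero_le ?_)
    rw [← WithZero.exp_zero]; exact WithZero.exp_le_exp.2 (by norm_num)
  have hlast : wh φ (upperGF (α * (unifIdele v)⁻¹) 0 * g0) ξ t = 0 := by
    refine wh_vanish hN ha hc hv _ h0 ?_ t
    rw [Units.val_mul, af_mul_apply, map_mul, Red.valued_inv, valued_unifIdele, ← mul_assoc, h,
      ← WithZero.exp_neg, neg_neg]
    conv_lhs => rw [← mul_one (dualSup F v)]
    refine mul_lt_mul_of_pos_left ?_ (zero_lt_iff.2 (dualSup_ne_zero v))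
    rw [← WithZero.exp_zero]; exact WithZero.exp_lt_exp.2 (by norm_num)
  set q : ℕ := Nat.card (𝓞 F ⧸ v.asIdeal)
  have hq : (0 : ℝ) < q := by exact_mod_cast (zero_lt_one.trans (one_lt_card v))
  set S := Real.sqrt (q : ℝ)
  have hS : (S : ℂ) * S = (q : ℂ) := by
    rw [← Complex.ofReal_mul, Real.mul_self_sqrt hq.le]; simp
  have hrec := fun j : ℕ ↦ wh_rec hN ha hc he (α * unifIdele v ^ j) h0 hξ (hle j) t
  have hfin := rec_solve (W := fun j ↦ wh φ (upperGF (α * unifIdele v ^ j) 0 * g0) ξ t) (c := c)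
    (Real.sqrt_pos.2 hq).ne' ?_ (fun j ↦ ?_) k
  · simp only [pow_zero, mul_one] at hfin
    exact hfin
  · have h1 := hrec 0
    simp only [pow_zero, mul_one, hlast, add_zero] at h1
    show (c : ℂ) * _ = _
    simp only [pow_zero, mul_one, pow_one]
    rw [h1, ← hS]
  · have h1 := hrec (j + 1)
    rw [show α * unifIdele v ^ (j + 1) * (unifIdele v)⁻¹ = α * unifIdele v ^ j by
        rw [pow_succ, ← mul_assoc, mul_inv_cancel_right],
      show α * unifIdele v ^ (j + 1) * unifIdele v = α * unifIdele v ^ (j + 2) by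
        rw [mul_assoc, ← pow_succ]] at h1
    show (c : ℂ) * _ = _
    rw [h1, ← hS]

/-- A product of powers of uniformiser ideles. -/
def idelePow (n : HeightOneSpectrum (𝓞 F) →₀ ℕ) : (Af F)ˣ :=
  n.prod fun v k ↦ unifIdele v ^ k

omit [IsTotallyComplex F] in
theorem idelePow_apply_of_notMem {n : HeightOneSpectrum (𝓞 F) →₀ ℕ}
    {v : HeightOneSpectrum (𝓞 F)} (hv : v ∉ n.support) : (idelePow n : Af F) v = 1 := by
  classical
  unfold idelePow
  rw [Finsupp.prod]
  have h : ∀ s : Finset (HeightOneSpectrum (𝓞 F)), v ∉ s →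
      ((∏ w ∈ s, unifIdele w ^ n w : (Af F)ˣ) : Af F) v = 1 := by
    intro s
    induction s using Finset.induction_on with
    | empty => intro _; rfl
    | insert w s hw ih =>
      intro hvs
      rw [Finset.mem_insert, not_or] at hvs
      have hk : ∀ k : ℕ, ((unifIdele w ^ k : (Af F)ˣ) : Af F) v = 1 := by
        intro k
        induction k with
        | zero => rfl
        | succ k ihk => rw [pow_succ, Units.val_mul, af_mul_apply, ihk, one_mul,
            unifIdele_apply_ne hvs.1]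
      rw [Finset.prod_insert hw, Units.val_mul, af_mul_apply, hk, ih hvs.2, one_mul]
  exact h _ hv

/-- **Multiplicativity of the coefficients at good places.** -/
theorem wh_idelePow {φ : Form F} {N : ℕ} (hN : 0 < N) (ha : Automorphic N φ)
    (hc : ∀ g, Continuous fun x ↦ φ x g) {c : HeightOneSpectrum (𝓞 F) → ℝ} (α : (Af F)ˣ)
    {g0 : GF F} {ξ : F} (hξ : ξ ≠ 0) (t : Tinf F) (n : HeightOneSpectrum (𝓞 F) →₀ ℕ)
    (hgood : ∀ v ∈ n.support, (N : 𝓞 F) ∉ v.asIdeal ∧ TrivAt v g0 ∧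
      (∀ x g, hecke v φ x g = (c v : ℂ) * φ x g) ∧
      v.valuation F ξ * Valued.v ((α : Af F) v) = dualSup F v) :
    wh φ (upperGF (α * idelePow n) 0 * g0) ξ t =
      (n.prod fun v k ↦ (lamLoc v (c v) k : ℂ)) * wh φ (upperGF α 0 * g0) ξ t := by
  classical
  induction n using Finsupp.induction with
  | zero => simp [idelePow]
  | single_add v k m hv hk ih =>
    have hd : Disjoint (Finsupp.single v k).support m.support := by
      rw [Finsupp.support_single_ne_zero _ hk]; simpa using hv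
    have hsupp := Finsupp.support_add_eq hd
    obtain ⟨hvN, htriv, he, hval⟩ := hgood v (by
      rw [hsupp, Finsupp.support_single_ne_zero _ hk]; simp)
    have hm := fun w hw ↦ hgood w (by rw [hsupp]; exact Finset.mem_union_right _ hw)
    have e : idelePow (Finsupp.single v k + m) = idelePow m * unifIdele v ^ k := by
      simp only [idelePow]
      rw [Finsupp.prod_add_index_of_disjoint hd, Finsupp.prod_single_index (by simp), mul_comm]
    have hval' : v.valuation F ξ * Valued.v (((α * idelePow m : (Af F)ˣ) : Af F) v) =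
        dualSup F v := by
      rw [Units.val_mul, af_mul_apply, idelePow_apply_of_notMem hv, mul_one, hval]
    rw [e, ← mul_assoc, wh_pow hN ha hc hvN he _ htriv hξ hval' t k, ih hm,
      Finsupp.prod_add_index_of_disjoint hd, Finsupp.prod_single_index (by simp [lamLoc, Asai.cheb]),
      mul_assoc]

end FLTAgent.LT.RS
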