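import Mathlib.Analysis.Calculus.ParametricIntegral
import Mathlib.Analysis.Calculus.BumpFunction.InnerProduct
import Mathlib.Analysis.InnerProductSpace.Calculus
import Mathlib.Analysis.Complex.Basic
import Fermat.Agent.LT.Hyp.Measure

/-!
Fourier modes of functions with the mean value property of spectral parameter zero: the radial
part satisfies `u'' = u' / t + (A - 1 / t²) u`; a bounded solution decays exponentially and is
unique up to a scalar. No special function is used.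
-/

set_option autoImplicit false

noncomputable section

namespace FLTAgent.LT.RS

open MeasureTheory Set
open scoped Topology RealInnerProductSpace

/-- A character of the horizontal coordinate. -/
def waveChar (α β : ℝ) (z : ℂ) : ℂ := Complex.exp (((α * z.re + β * z.im : ℝ) : ℂ) * Complex.I)

/-- The spherical integral. -/
def sphInt (H : ℝ → ℂ) : ℂ :=
  ∫ r in Ioi (0 : ℝ), H (Real.cosh r) * ((4 * Real.pi * r * Real.sinh r : ℝ) : ℂ)

/-- `waveChar · u` has the mean value property of spectral parameter zero and is bounded. -/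
structure MVMode (α β : ℝ) (u : ℝ → ℂ) : Prop where
  cont : ContinuousOn u (Ioi 0)
  bdd : ∃ C, ∀ t, 0 < t → ‖u t‖ ≤ C
  mean : ∀ (p : H3) (H : ℝ → ℂ), Continuous H → HasCompactSupport H →
    ∫ q, H (coshDist p q) * (waveChar α β q.1 * u q.2) ∂hypMeasure =
      sphInt H * (waveChar α β p.1 * u p.2)

theorem norm_waveChar (α β : ℝ) (z : ℂ) : ‖waveChar α β z‖ = 1 :=
  Complex.norm_exp_ofReal_mul_I _

theorem waveChar_zero (α β : ℝ) : waveChar α β 0 = 1 := by simp [waveChar]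

theorem continuous_waveChar (α β : ℝ) : Continuous (waveChar α β) := by
  unfold waveChar; fun_prop

/-! ### Differentiating under the integral sign -/

instance : IsFiniteMeasureOnCompacts hypMeasure where
  lt_top_of_isCompact K hK := by
    have hm : MeasurableSet K := hK.measurableSet
    have hc : Continuous fun p : H3 ↦ ENNReal.ofReal (((p.2 : ℝ) ^ 3)⁻¹) :=
      ENNReal.continuous_ofReal.comp (((continuous_subtype_val.comp continuous_snd).pow 3).inv₀
        fun p ↦ pow_ne_zero 3 (ne_of_gt p.2.2))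
    obtain ⟨M, hM⟩ : ∃ M : ℝ, ∀ p ∈ K, (((p.2 : ℝ) ^ 3)⁻¹) ≤ M := by
      have : ContinuousOn (fun p : H3 ↦ ((p.2 : ℝ) ^ 3)⁻¹) K :=
        (((continuous_subtype_val.comp continuous_snd).pow 3).inv₀
          fun p ↦ pow_ne_zero 3 (ne_of_gt p.2.2)).continuousOn
      obtain ⟨M, hM⟩ := hK.bddAbove_image this
      exact ⟨M, fun p hp ↦ hM ⟨p, hp, rfl⟩⟩
    rw [Hyp.hypMeasure_eq, withDensity_apply _ hm]
    refine lt_of_le_of_lt (setLIntegral_mono measurable_const fun p hp ↦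
      ENNReal.ofReal_le_ofReal (hM p hp)) ?_
    rw [setLIntegral_const]
    refine ENNReal.mul_lt_top ENNReal.ofReal_lt_top ?_
    rw [Hyp.measurableEmbedding_emb.comap_apply]
    exact (hK.image (continuous_fst.prodMk
      (continuous_subtype_val.comp continuous_snd) : Continuous Hyp.emb)).measure_lt_top

theorem integrable_of_vanish {K : Set H3} (hK : IsCompact K) {f : H3 → ℂ} (hf : Continuous f)
    (h0 : ∀ q ∉ K, f q = 0) : Integrable f hypMeasure :=
  hf.integrable_of_hasCompactSupport (HasCompactSupport.intro hK h0)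

theorem hasDerivAt_kernel {F F' : ℝ → H3 → ℂ} {Φ : H3 → ℂ} {s : Set ℝ} {s0 : ℝ} {K : Set H3}
    (hs : IsCompact s) (hs0 : s ∈ 𝓝 s0) (hK : IsCompact K) (hΦ : Continuous Φ)
    (hF : ContinuousOn (Function.uncurry F) (s ×ˢ univ))
    (hF' : ContinuousOn (Function.uncurry F') (s ×ˢ univ))
    (hF0 : ∀ x ∈ s, ∀ q ∉ K, F x q = 0) (hF'0 : ∀ x ∈ s, ∀ q ∉ K, F' x q = 0)
    (hd : ∀ x ∈ s, ∀ q, HasDerivAt (fun y ↦ F y q) (F' x q) x) :
    HasDerivAt (fun x ↦ ∫ q, F x q * Φ q ∂hypMeasure)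
      (∫ q, F' s0 q * Φ q ∂hypMeasure) s0 := by
  have hslice : ∀ {G : ℝ → H3 → ℂ}, ContinuousOn (Function.uncurry G) (s ×ˢ univ) →
      ∀ x ∈ s, Continuous fun q ↦ G x q * Φ q := fun {G} hG x hx ↦
    (hG.comp_continuous (continuous_const.prodMk continuous_id)
      fun q ↦ ⟨hx, mem_univ _⟩).mul hΦ
  have hint : ∀ {G : ℝ → H3 → ℂ}, ContinuousOn (Function.uncurry G) (s ×ˢ univ) →
      (∀ x ∈ s, ∀ q ∉ K, G x q = 0) →
      ∀ x ∈ s, Integrable (fun q ↦ G x q * Φ q) hypMeasure := fun hG h0 x hx ↦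
    integrable_of_vanish hK (hslice hG x hx) fun q hq ↦ by rw [h0 x hx q hq, zero_mul]
  obtain ⟨M, hM⟩ := ((hs.prod hK).image_of_continuousOn
    ((hF'.mul ((hΦ.comp continuous_snd).continuousOn)).mono
      (prod_mono_right (subset_univ K)))).isBounded.exists_norm_le
  refine (hasDerivAt_integral_of_dominated_loc_of_deriv_le (μ := hypMeasure)
    (F := fun x q ↦ F x q * Φ q) (F' := fun x q ↦ F' x q * Φ q)
    (bound := K.indicator fun _ ↦ |M|) hs0 ?_ (hint hF hF0 s0 (mem_of_mem_nhds hs0))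
    (hint hF' hF'0 s0 (mem_of_mem_nhds hs0)).aestronglyMeasurable ?_ ?_ ?_).2
  · filter_upwards [hs0] with x hx using (hint hF hF0 x hx).aestronglyMeasurable
  · refine Filter.Eventually.of_forall fun q x hx ↦ ?_
    by_cases hq : q ∈ K
    · rw [indicator_of_mem hq]
      exact (hM _ ⟨(x, q), ⟨hx, hq⟩, rfl⟩).trans (le_abs_self _)
    · rw [indicator_of_notMem hq, hF'0 x hx q hq, zero_mul, norm_zero]
  · exact (integrable_indicator_iff hK.measurableSet).2
      (integrableOn_const hK.measure_lt_top.ne)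
  · exact Filter.Eventually.of_forall fun q x hx ↦ (hd x hx q).mul_const _

/-- The radial profile and its derivatives along a path. -/
theorem hasDerivAt_radial {H H1 H2 : ℝ → ℝ} (hH : Continuous H) (hH1 : Continuous H1)
    (hH2 : Continuous H2) (d1 : ∀ c, HasDerivAt H (H1 c) c) (d2 : ∀ c, HasDerivAt H1 (H2 c) c)
    {R : ℝ} (hR : ∀ c, R < c → H c = 0 ∧ H1 c = 0 ∧ H2 c = 0)
    {c c1 c2 : ℝ → H3 → ℝ} {s : Set ℝ} {K : Set H3} (hs : IsCompact s) (hK : IsCompact K)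
    (hc : ContinuousOn (Function.uncurry c) (s ×ˢ univ))
    (hc1 : ContinuousOn (Function.uncurry c1) (s ×ˢ univ))
    (hc2 : ContinuousOn (Function.uncurry c2) (s ×ˢ univ))
    (e1 : ∀ x ∈ s, ∀ q, HasDerivAt (fun y ↦ c y q) (c1 x q) x)
    (e2 : ∀ x ∈ s, ∀ q, HasDerivAt (fun y ↦ c1 y q) (c2 x q) x)
    (hout : ∀ x ∈ s, ∀ q ∉ K, R < c x q) {Φ : H3 → ℂ} (hΦ : Continuous Φ)
    {s0 : ℝ} (hs0 : s ∈ 𝓝 s0) :
    HasDerivAt (fun x ↦ ∫ q, (H (c x q) : ℂ) * Φ q ∂hypMeasure)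
      (∫ q, ((H1 (c s0 q) * c1 s0 q : ℝ) : ℂ) * Φ q ∂hypMeasure) s0 ∧
    HasDerivAt (fun x ↦ ∫ q, ((H1 (c x q) * c1 x q : ℝ) : ℂ) * Φ q ∂hypMeasure)
      (∫ q, ((H2 (c s0 q) * c1 s0 q ^ 2 + H1 (c s0 q) * c2 s0 q : ℝ) : ℂ) * Φ q ∂hypMeasure)
      s0 := by
  refine ⟨hasDerivAt_kernel (F := fun x q ↦ (H (c x q) : ℂ))
      (F' := fun x q ↦ ((H1 (c x q) * c1 x q : ℝ) : ℂ)) hs hs0 hK hΦ ?_ ?_ ?_ ?_ ?_,
    hasDerivAt_kernel (F := fun x q ↦ ((H1 (c x q) * c1 x q : ℝ) : ℂ))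
      (F' := fun x q ↦ ((H2 (c x q) * c1 x q ^ 2 + H1 (c x q) * c2 x q : ℝ) : ℂ))
      hs hs0 hK hΦ ?_ ?_ ?_ ?_ ?_⟩
  · exact (Complex.continuous_ofReal.comp hH).comp_continuousOn hc
  · exact Complex.continuous_ofReal.comp_continuousOn ((hH1.comp_continuousOn hc).mul hc1)
  · intro x hx q hq; rw [(hR _ (hout x hx q hq)).1]; simp
  · intro x hx q hq; rw [(hR _ (hout x hx q hq)).2.1]; simp
  · exact fun x hx q ↦ ((d1 _).comp x (e1 x hx q)).ofReal_comp
  · exact Complex.continuous_ofReal.comp_continuousOn ((hH1.comp_continuousOn hc).mul hc1)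
  · exact Complex.continuous_ofReal.comp_continuousOn
      (((hH2.comp_continuousOn hc).mul (hc1.pow 2)).add ((hH1.comp_continuousOn hc).mul hc2))
  · intro x hx q hq; rw [(hR _ (hout x hx q hq)).2.1]; simp
  · intro x hx q hq
    rw [(hR _ (hout x hx q hq)).2.1, (hR _ (hout x hx q hq)).2.2]; simp
  · intro x hx q
    refine ((((d2 _).comp x (e1 x hx q)).mul (e2 x hx q)).congr_deriv ?_).ofReal_comp
    simp only [Function.comp_apply]
    ring

/-- `cosh` of the distance in coordinates. -/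
def cd (x y t : ℝ) (q : H3) : ℝ :=
  1 + ((x - q.1.re) ^ 2 + (y - q.1.im) ^ 2 + (t - q.2) ^ 2) / (2 * t * q.2)

theorem coshDist_eq_cd (p q : H3) : coshDist p q = cd p.1.re p.1.im p.2 q := by
  simp [coshDist, cd, Complex.normSq_apply, sq]

theorem lt_cd_of_notMem {x y t T X : ℝ} {q : H3} (ht : 0 < t) (hT : T / 2 ≤ t) (hT' : t ≤ 2 * T)
    (hx : |x| ≤ X) (hy : |y| ≤ X)
    (hq : q ∉ Hyp.emb ⁻¹'
      ((Metric.closedBall (0 : ℂ) (2 * X + 24 * T)) ×ˢ Icc (T / 12) (12 * T))) :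
    3 < cd x y t q := by
  by_contra h
  rw [not_lt, cd] at h
  have hq2 : (0 : ℝ) < q.2 := q.2.2
  have h' : (x - q.1.re) ^ 2 + (y - q.1.im) ^ 2 + (t - q.2) ^ 2 ≤ 4 * t * q.2 := by
    have h2 := (div_le_iff₀ (by positivity : (0 : ℝ) < 2 * t * q.2)).1 (by linarith :
      ((x - q.1.re) ^ 2 + (y - q.1.im) ^ 2 + (t - q.2) ^ 2) / (2 * t * q.2) ≤ 2)
    linarith
  have hlo : t / 6 ≤ (q.2 : ℝ) := by
    nlinarith [sq_nonneg (x - q.1.re), sq_nonneg (y - q.1.im)]
  have hhi : (q.2 : ℝ) ≤ 6 * t := by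
    nlinarith [sq_nonneg (x - q.1.re), sq_nonneg (y - q.1.im)]
  have hre : |x - q.1.re| ≤ 5 * t := abs_le_of_sq_le_sq
    (by nlinarith [sq_nonneg (y - q.1.im), sq_nonneg (t - q.2)]) (by linarith)
  have him : |y - q.1.im| ≤ 5 * t := abs_le_of_sq_le_sq
    (by nlinarith [sq_nonneg (x - q.1.re), sq_nonneg (t - q.2)]) (by linarith)
  refine hq ⟨?_, by dsimp [Hyp.emb]; constructor <;> linarith⟩
  simp only [Hyp.emb, Metric.mem_closedBall, dist_zero_right]
  have hn := Complex.norm_le_abs_re_add_abs_im q.1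
  have h1 : |q.1.re| ≤ X + 5 * t := by
    have := abs_sub_abs_le_abs_sub q.1.re x
    rw [abs_sub_comm] at this; linarith
  have h2 : |q.1.im| ≤ X + 5 * t := by
    have := abs_sub_abs_le_abs_sub q.1.im y
    rw [abs_sub_comm] at this; linarith
  linarith

theorem isCompact_box {T X : ℝ} (hT : 0 < T) : IsCompact (Hyp.emb ⁻¹'
    ((Metric.closedBall (0 : ℂ) (2 * X + 24 * T)) ×ˢ Icc (T / 12) (12 * T))) := by
  refine (Topology.IsEmbedding.id.prodMap
    Topology.IsEmbedding.subtypeVal).isInducing.isCompact_preimage'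
    ((isCompact_closedBall _ _).prod isCompact_Icc) ?_
  rintro ⟨z, t⟩ ⟨-, ht⟩
  exact ⟨(z, ⟨t, lt_of_lt_of_le (by linarith) ht.1⟩), rfl⟩

/-- A test profile. -/
def bumpH : ContDiffBump (1 : ℝ) where
  rIn := 1
  rOut := 2
  rIn_pos := one_pos
  rIn_lt_rOut := one_lt_two

theorem bumpH_derivs : ∃ H1 H2 : ℝ → ℝ, Continuous H1 ∧ Continuous H2 ∧
    (∀ c, HasDerivAt bumpH (H1 c) c) ∧ (∀ c, HasDerivAt H1 (H2 c) c) ∧
    ∀ c, 3 < c → bumpH c = 0 ∧ H1 c = 0 ∧ H2 c = 0 := by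
  have h2 : ContDiff ℝ 2 (bumpH : ℝ → ℝ) := bumpH.contDiff
  have h1 : ContDiff ℝ 1 (deriv (bumpH : ℝ → ℝ)) := h2.deriv'
  refine ⟨deriv bumpH, deriv (deriv bumpH), h1.continuous, h1.continuous_deriv le_rfl,
    fun c ↦ (h2.differentiable (by norm_num)).differentiableAt.hasDerivAt,
    fun c ↦ (h1.differentiable (by norm_num)).differentiableAt.hasDerivAt, fun c hc ↦ ?_⟩
  have hz : (bumpH : ℝ → ℝ) =ᶠ[𝓝 c] 0 := by
    filter_upwards [Ioi_mem_nhds hc] with d (hd : 3 < d)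
    refine bumpH.zero_of_le_dist ?_
    show (2 : ℝ) ≤ |d - 1|
    rw [abs_of_pos (by linarith)]; linarith
  have hz1 : deriv (bumpH : ℝ → ℝ) =ᶠ[𝓝 c] 0 := by
    refine hz.eventually_nhds.mono fun d hd ↦ ?_
    simpa using Filter.EventuallyEq.deriv_eq (hd : (bumpH : ℝ → ℝ) =ᶠ[𝓝 d] 0)
  exact ⟨hz.eq_of_nhds, hz1.eq_of_nhds, by simpa using hz1.deriv_eq⟩

/-- A cutoff equal to one on `[1, 3]`. -/
def cutH : ContDiffBump (1 : ℝ) where
  rIn := 2
  rOut := 4
  rIn_pos := two_pos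
  rIn_lt_rOut := by norm_num

theorem arcosh_le {r : ℝ} (hr : 4 ≤ r) : 3 < Real.cosh r := by
  have h := Real.quadratic_le_exp_of_nonneg (by linarith : (0 : ℝ) ≤ r)
  have := Real.exp_pos (-r)
  rw [Real.cosh_eq]; nlinarith

theorem sphInt_ofReal {H : ℝ → ℝ} :
    sphInt (fun c ↦ (H c : ℂ)) =
      ((∫ r in Ioi (0 : ℝ), H (Real.cosh r) * (4 * Real.pi * r * Real.sinh r) : ℝ) : ℂ) := by
  simp only [sphInt, ← Complex.ofReal_mul]
  exact integral_ofReal

theorem sphReal_pos : 0 < ∫ r in Ioi (0 : ℝ),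
    bumpH (Real.cosh r) * (4 * Real.pi * r * Real.sinh r) := by
  set f := fun r : ℝ ↦ bumpH (Real.cosh r) * (4 * Real.pi * r * Real.sinh r)
  have hcont : Continuous f := by
    have := (bumpH.contDiff (n := 0)).continuous
    fun_prop
  have hsupp : HasCompactSupport f := HasCompactSupport.intro (isCompact_Icc (a := -4) (b := 4))
    fun r hr ↦ by
      simp only [f]
      have hc : 3 < Real.cosh r := by
        rw [← Real.cosh_abs]
        exact arcosh_le (not_lt.1 fun h ↦ hr ⟨(abs_lt.1 h).1.le, (abs_lt.1 h).2.le⟩)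
      rw [bumpH.zero_of_le_dist (by
        show (2 : ℝ) ≤ |Real.cosh r - 1|
        rw [abs_of_pos (by linarith)]; linarith), zero_mul]
  have h0 : ∀ r ∈ Ioi (0 : ℝ), 0 ≤ f r := fun r (hr : 0 < r) ↦
    mul_nonneg bumpH.nonneg (by have := Real.sinh_pos_iff.2 hr; positivity)
  refine (setIntegral_pos_iff_support_of_nonneg_ae
    (Filter.eventually_of_mem (self_mem_ae_restrict measurableSet_Ioi) h0)
    (hcont.integrable_of_hasCompactSupport hsupp).integrableOn).2 ?_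
  have hnz : f (1 / 4) ≠ 0 := by
    refine mul_ne_zero (ne_of_gt (bumpH.pos_of_mem_ball ?_))
      (by have := Real.sinh_pos_iff.2 (by norm_num : (0 : ℝ) < 1 / 4); positivity)
    show |Real.cosh (1 / 4) - 1| < 2
    have h1 := Real.one_le_cosh (1 / 4)
    have h2 : Real.exp (1 / 4) < 3 :=
      lt_of_le_of_lt (Real.exp_le_exp.2 (by norm_num)) Real.exp_one_lt_three
    have h3 : Real.exp (-(1 / 4 : ℝ)) ≤ 1 := Real.exp_le_one_iff.2 (by norm_num)
    rw [abs_of_nonneg (by linarith), Real.cosh_eq]; linarith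
  exact ((isOpen_ne.preimage hcont).inter isOpen_Ioi).measure_pos volume
    ⟨1 / 4, hnz, by norm_num⟩

/-- The radial Laplacian is symmetric against `r sinh r`, with eigenvalue `-1`. -/
theorem sphInt_laplace {H H1 H2 : ℝ → ℝ} (hH : Continuous H) (hH1 : Continuous H1)
    (hH2 : Continuous H2) (d1 : ∀ c, HasDerivAt H (H1 c) c) (d2 : ∀ c, HasDerivAt H1 (H2 c) c)
    (hR : ∀ c, 3 < c → H c = 0 ∧ H1 c = 0 ∧ H2 c = 0) :
    sphInt (fun c ↦ (((c ^ 2 - 1) * H2 c + 3 * c * H1 c : ℝ) : ℂ)) =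
      -sphInt (fun c ↦ (H c : ℂ)) := by
  rw [sphInt_ofReal, sphInt_ofReal, ← Complex.ofReal_neg, Complex.ofReal_inj, ← integral_neg]
  set g1 : ℝ → ℝ := fun r ↦ H1 (Real.cosh r) * Real.sinh r * Real.sinh r +
    H (Real.cosh r) * Real.cosh r
  set g2 : ℝ → ℝ := fun r ↦ Real.sinh r * ((Real.cosh r ^ 2 - 1) * H2 (Real.cosh r) +
    3 * Real.cosh r * H1 (Real.cosh r) + H (Real.cosh r))
  set P : ℝ → ℝ := fun r ↦ r * g1 r - H (Real.cosh r) * Real.sinh r
  have hP : ∀ r, HasDerivAt P (r * g2 r) r := by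
    intro r
    have hc : HasDerivAt Real.cosh (Real.sinh r) r := Real.hasDerivAt_cosh r
    have hs : HasDerivAt Real.sinh (Real.cosh r) r := Real.hasDerivAt_sinh r
    have hg1 := ((((d2 _).comp r hc).mul hs).mul hs).add (((d1 _).comp r hc).mul hc)
    have h := ((hasDerivAt_id r).mul hg1).sub (((d1 _).comp r hc).mul hs)
    refine h.congr_deriv ?_
    simp only [g2, Function.comp_apply, Pi.mul_apply, Pi.add_apply, id_eq]
    rw [Real.cosh_sq r]
    ring
  have hcont : Continuous fun r ↦ r * g2 r := by simp only [g2]; fun_prop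
  have hzero : ∀ r, 4 ≤ r → g2 r = 0 := fun r hr ↦ by
    obtain ⟨a, b, c⟩ := hR _ (arcosh_le hr)
    simp [g2, a, b, c]
  have h0 : ∫ r in Ioi (0 : ℝ), r * g2 r = 0 := by
    rw [setIntegral_eq_of_subset_of_forall_sdiff_eq_zero measurableSet_Ioi
      (Ioc_subset_Ioi_self : Ioc (0 : ℝ) 4 ⊆ Ioi 0) fun r hr ↦ ?_,
      ← intervalIntegral.integral_of_le (by norm_num : (0 : ℝ) ≤ 4),
      intervalIntegral.integral_eq_sub_of_hasDerivAt (fun r _ ↦ hP r)
        (hcont.intervalIntegrable _ _)]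
    · obtain ⟨a, b, -⟩ := hR _ (arcosh_le (le_refl (4 : ℝ)))
      simp [P, g1, a, b]
    · have : 4 < r := not_le.1 fun h ↦ hr.2 ⟨hr.1, h⟩
      rw [hzero r this.le, mul_zero]
  have hi : ∀ {G : ℝ → ℝ}, Continuous G → (∀ c, 3 < c → G c = 0) →
      IntegrableOn (fun r ↦ G (Real.cosh r) * (4 * Real.pi * r * Real.sinh r)) (Ioi 0) := by
    intro G hG hG0
    refine (IntegrableOn.of_forall_sdiff_eq_zero
      (((by fun_prop : Continuous fun r ↦ G (Real.cosh r) * (4 * Real.pi * r * Real.sinh r))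
        |>.continuousOn).integrableOn_compact (isCompact_Icc (a := 0) (b := 4)))
      measurableSet_Ioi fun r hr ↦ ?_)
    have : 4 < r := not_le.1 fun h ↦ hr.2 ⟨hr.1.le, h⟩
    simp [hG0 _ (arcosh_le this.le)]
  have i1 := hi (G := fun c ↦ (c ^ 2 - 1) * H2 c + 3 * c * H1 c) (by fun_prop) fun c hc ↦ by
    obtain ⟨-, b, e⟩ := hR c hc; simp [b, e]
  have i2 : IntegrableOn (fun r ↦ -(H (Real.cosh r) * (4 * Real.pi * r * Real.sinh r))) (Ioi 0) :=
    (hi hH fun c hc ↦ (hR c hc).1).neg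
  rw [← sub_eq_zero, ← integral_sub i1 i2]
  refine Eq.trans ?_
    (show (4 * Real.pi) * ∫ r in Ioi (0 : ℝ), r * g2 r = 0 by rw [h0, mul_zero])
  rw [← integral_const_mul]
  refine setIntegral_congr_fun measurableSet_Ioi fun r _ ↦ ?_
  simp only [g2, Pi.neg_apply]
  ring

/-! ### The differential equation -/

/-- A solution of the radial equation. -/
def RadialSol (A : ℝ) (u u' : ℝ → ℂ) : Prop :=
  ∀ t, 0 < t → HasDerivAt u (u' t) t ∧
    HasDerivAt u' ((t⁻¹ : ℝ) • u' t + (A - (t ^ 2)⁻¹) • u t) t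

theorem MVMode.exists_radialSol {α β : ℝ} {u : ℝ → ℂ} (h : MVMode α β u) :
    ∃ u', RadialSol (α ^ 2 + β ^ 2) u u' := by
  obtain ⟨H1, H2, c1, c2, d1, d2, hR⟩ := bumpH_derivs
  set H : ℝ → ℝ := ⇑bumpH
  have c0 : Continuous H := (bumpH.contDiff (n := 0)).continuous
  set J : ℂ := sphInt fun c ↦ (H c : ℂ) with hJdef
  have hJ : J ≠ 0 := by
    rw [hJdef, sphInt_ofReal]
    exact Complex.ofReal_ne_zero.2 sphReal_pos.ne'
  have hLap := sphInt_laplace c0 c1 c2 d1 d2 hR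
  set Φ : H3 → ℂ := fun q ↦ waveChar α β q.1 * u q.2
  have hΦ : Continuous Φ := ((continuous_waveChar α β).comp continuous_fst).mul
    (h.cont.comp_continuous (continuous_subtype_val.comp continuous_snd) fun q ↦ q.2.2)
  have hmean : ∀ {G : ℝ → ℝ}, Continuous G → (∀ c, 3 < c → G c = 0) → ∀ (x y t : ℝ), 0 < t →
      ∫ q, (G (cd x y t q) : ℂ) * Φ q ∂hypMeasure =
        sphInt (fun c ↦ (G c : ℂ)) * (waveChar α β ⟨x, y⟩ * u t) := by
    intro G hG hG0 x y t ht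
    classical
    set G' : ℝ → ℝ := fun c ↦ G c * cutH c with hG'
    have key : ∀ c, 1 ≤ c → G' c = G c := fun c hc ↦ by
      rcases lt_or_ge 3 c with h3 | h3
      · simp [hG', hG0 c h3]
      · rw [hG']
        simp [cutH.one_of_mem_closedBall (show c ∈ Metric.closedBall (1 : ℝ) cutH.rIn by
          show |c - 1| ≤ 2
          rw [abs_le]; constructor <;> linarith)]
    have hG'c : Continuous fun c ↦ (G' c : ℂ) := by
      simp only [hG']; exact Complex.continuous_ofReal.comp (hG.mul (cutH.contDiff (n := 0)).continuous)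
    have hs : HasCompactSupport fun c ↦ (G' c : ℂ) :=
      HasCompactSupport.intro (isCompact_closedBall (1 : ℝ) 4) fun c hc ↦ by
        simp [hG', cutH.zero_of_le_dist (le_of_lt (not_le.1 hc) : cutH.rOut ≤ dist c 1)]
    have e := h.mean (⟨x, y⟩, ⟨t, ht⟩) (fun c ↦ (G' c : ℂ)) hG'c hs
    simp only [coshDist_eq_cd] at e
    have hone : ∀ q : H3, 1 ≤ cd x y t q := fun q ↦ by
      simpa [coshDist_eq_cd] using Hyp.one_le_coshDist ((⟨x, y⟩, ⟨t, ht⟩) : H3) q
    rw [show sphInt (fun c ↦ (G c : ℂ)) = sphInt fun c ↦ (G' c : ℂ) from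
      setIntegral_congr_fun measurableSet_Ioi fun r _ ↦ by
        simp only [key _ (Real.one_le_cosh r)]]
    refine Eq.trans ?_ e
    exact integral_congr_ae (Filter.Eventually.of_forall fun q ↦ by
      simp only [key _ (hone q)]; rfl)
  -- the first derivative
  set N1 : ℝ → H3 → ℝ := fun t q ↦ (t - q.2) / (t * q.2) -
    (q.1.re ^ 2 + q.1.im ^ 2 + (t - q.2) ^ 2) / (2 * t ^ 2 * q.2) with hN1
  set N2 : ℝ → H3 → ℝ := fun t q ↦ 1 / (t * q.2) - 2 * (t - q.2) / (t ^ 2 * q.2) +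
    (q.1.re ^ 2 + q.1.im ^ 2 + (t - q.2) ^ 2) / (t ^ 3 * q.2) with hN2
  set D1 : ℝ → ℂ := fun t ↦ J⁻¹ *
    ∫ q, ((H1 (cd 0 0 t q) * N1 t q : ℝ) : ℂ) * Φ q ∂hypMeasure
  refine ⟨D1, fun t0 ht0 ↦ ?_⟩
  set K := Hyp.emb ⁻¹'
    ((Metric.closedBall (0 : ℂ) (2 * 1 + 24 * t0)) ×ˢ Icc (t0 / 12) (12 * t0))
  have hK : IsCompact K := isCompact_box ht0
  -- vertical path
  set sV := Icc (t0 / 2) (2 * t0)
  have hsV : ∀ t ∈ sV, 0 < t := fun t ht ↦ lt_of_lt_of_le (by linarith) ht.1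
  have hq : ∀ q : H3, (q.2 : ℝ) ≠ 0 := fun q ↦ ne_of_gt q.2.2
  have hpairc : ∀ {f : ℝ × H3 → ℝ}, (∀ p : ℝ × H3, 0 < p.1 → ContinuousAt f p) →
      ContinuousOn f (sV ×ˢ univ) := fun hf p hp ↦ (hf p (hsV _ hp.1)).continuousWithinAt
  have contV : ContinuousOn (Function.uncurry fun t q ↦ cd 0 0 t q) (sV ×ˢ univ) :=
    hpairc fun p hp ↦ by
      unfold Function.uncurry cd
      fun_prop (disch := exact mul_ne_zero (mul_ne_zero two_ne_zero hp.ne') (hq _))
  have cont1 : ContinuousOn (Function.uncurry N1) (sV ×ˢ univ) := hpairc fun p hp ↦ by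
    unfold Function.uncurry
    simp only [hN1]
    have := hq p.2
    fun_prop (disch := positivity)
  have cont2 : ContinuousOn (Function.uncurry N2) (sV ×ˢ univ) := hpairc fun p hp ↦ by
    unfold Function.uncurry
    simp only [hN2]
    have := hq p.2
    fun_prop (disch := positivity)
  have e1 : ∀ t ∈ sV, ∀ q, HasDerivAt (fun y ↦ cd 0 0 y q) (N1 t q) t := by
    intro t ht q
    have ht' := (hsV t ht).ne'
    have hd := ((((hasDerivAt_id t).sub_const (q.2 : ℝ)).pow 2).const_add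
      ((0 - q.1.re) ^ 2 + (0 - q.1.im) ^ 2)).div
      (((hasDerivAt_id t).const_mul 2).mul_const (q.2 : ℝ))
      (mul_ne_zero (mul_ne_zero two_ne_zero ht') (hq q))
    refine (hd.const_add 1).congr_deriv ?_
    simp only [hN1, id_eq, Pi.pow_apply]
    field_simp [hq q]
    ring
  have e2 : ∀ t ∈ sV, ∀ q, HasDerivAt (fun y ↦ N1 y q) (N2 t q) t := by
    intro t ht q
    have ht' := (hsV t ht).ne'
    have ha := ((hasDerivAt_id t).sub_const (q.2 : ℝ)).div
      ((hasDerivAt_id t).mul_const (q.2 : ℝ)) (mul_ne_zero ht' (hq q))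
    have hb := ((((hasDerivAt_id t).sub_const (q.2 : ℝ)).pow 2).const_add
      (q.1.re ^ 2 + q.1.im ^ 2)).div
      ((((hasDerivAt_id t).pow 2).const_mul 2).mul_const (q.2 : ℝ))
      (mul_ne_zero (mul_ne_zero two_ne_zero (pow_ne_zero 2 ht')) (hq q))
    refine (ha.sub hb).congr_deriv ?_
    simp only [hN2, id_eq, Pi.pow_apply]
    field_simp [hq q]
    ring
  have outV : ∀ t ∈ sV, ∀ q ∉ K, 3 < cd 0 0 t q := fun t ht q hq' ↦
    lt_cd_of_notMem (hsV t ht) ht.1 ht.2 (by simp) (by simp) hq'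
  have radV := fun {s0 : ℝ} (hs : sV ∈ 𝓝 s0) ↦
    hasDerivAt_radial c0 c1 c2 d1 d2 hR isCompact_Icc hK contV cont1 cont2 e1 e2 outV hΦ hs
  have hnb : sV ∈ 𝓝 t0 := Icc_mem_nhds (by linarith) (by linarith)
  have hI : ∀ t, 0 < t → ∫ q, (H (cd 0 0 t q) : ℂ) * Φ q ∂hypMeasure = J * u t := fun t ht ↦ by
    rw [hmean c0 (fun c hc ↦ (hR c hc).1) 0 0 t ht, ← hJdef]
    show J * (waveChar α β 0 * u t) = _
    rw [waveChar_zero, one_mul]
  have hu1 : HasDerivAt u (D1 t0) t0 := by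
    refine ((radV hnb).1.const_mul J⁻¹).congr_of_eventuallyEq ?_
    filter_upwards [Ioi_mem_nhds ht0] with t ht
    rw [hI t ht, inv_mul_cancel_left₀ hJ]
  set G2 := ∫ q, ((H2 (cd 0 0 t0 q) * N1 t0 q ^ 2 + H1 (cd 0 0 t0 q) * N2 t0 q : ℝ) : ℂ) * Φ q
    ∂hypMeasure
  have hu2 : HasDerivAt D1 (J⁻¹ * G2) t0 := (radV hnb).2.const_mul J⁻¹
  -- horizontal paths
  have horiz : ∀ (ex ey : ℝ), ex ^ 2 + ey ^ 2 = 1 →
      ∫ q, ((H2 (cd 0 0 t0 q) * (-(ex * q.1.re + ey * q.1.im) / (t0 * q.2)) ^ 2 +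
        H1 (cd 0 0 t0 q) * (1 / (t0 * q.2)) : ℝ) : ℂ) * Φ q ∂hypMeasure =
      -((α * ex + β * ey) ^ 2 : ℝ) * (J * u t0) := by
    intro ex ey he
    set sH := Icc (-1 : ℝ) 1
    have hex : |ex| ≤ 1 := abs_le_one_iff_mul_self_le_one.2 (by nlinarith)
    have hey : |ey| ≤ 1 := abs_le_one_iff_mul_self_le_one.2 (by nlinarith)
    have hden : ∀ q : H3, t0 * (q.2 : ℝ) ≠ 0 := fun q ↦ mul_ne_zero ht0.ne' (hq q)
    have rad := fun {s0 : ℝ} (hs : sH ∈ 𝓝 s0) ↦ hasDerivAt_radial c0 c1 c2 d1 d2 hR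
      (c := fun x q ↦ cd (x * ex) (x * ey) t0 q)
      (c1 := fun x q ↦ (x - (ex * q.1.re + ey * q.1.im)) / (t0 * q.2))
      (c2 := fun _ q ↦ 1 / (t0 * q.2)) (s := sH) (K := K) isCompact_Icc hK
      (by
        refine Continuous.continuousOn ?_
        unfold Function.uncurry cd
        fun_prop (disch := (intro p; exact mul_ne_zero (mul_ne_zero two_ne_zero ht0.ne') (hq _))))
      (by
        refine Continuous.continuousOn ?_
        unfold Function.uncurry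
        fun_prop (disch := (intro p; exact hden _)))
      (by
        refine Continuous.continuousOn ?_
        unfold Function.uncurry
        fun_prop (disch := (intro p; exact hden _)))
      (fun x _ q ↦ by
        have hd := ((((((hasDerivAt_id x).mul_const ex).sub_const q.1.re).pow 2).add
          ((((hasDerivAt_id x).mul_const ey).sub_const q.1.im).pow 2)).add_const
          ((t0 - q.2) ^ 2)).div_const (2 * t0 * q.2)
        refine (hd.const_add 1).congr_deriv ?_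
        simp only [id_eq]
        field_simp [hq q]
        linear_combination 2 * x * he)
      (fun x _ q ↦ (((hasDerivAt_id x).sub_const _).div_const _))
      (fun x hx q hq' ↦ lt_cd_of_notMem ht0 (by linarith) (by linarith)
        (by rw [abs_mul]; exact mul_le_one₀ (abs_le.2 hx) (abs_nonneg _) hex)
        (by rw [abs_mul]; exact mul_le_one₀ (abs_le.2 hx) (abs_nonneg _) hey) hq') hΦ hs
    set k : ℂ := ((α * ex + β * ey : ℝ) : ℂ) * Complex.I
    have hG : ∀ x : ℝ, ∫ q, (H (cd (x * ex) (x * ey) t0 q) : ℂ) * Φ q ∂hypMeasure =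
        Complex.exp (k * x) * (J * u t0) := fun x ↦ by
      rw [hmean c0 (fun c hc ↦ (hR c hc).1) _ _ t0 ht0, ← hJdef]
      have : waveChar α β ⟨x * ex, x * ey⟩ = Complex.exp (k * x) := by
        simp only [waveChar, k]; congr 1; push_cast; ring
      rw [this]; ring
    have hmem : ∀ x ∈ Ioo (-1 : ℝ) 1, sH ∈ 𝓝 x := fun x hx ↦ Icc_mem_nhds hx.1 hx.2
    have hexp : ∀ x : ℝ, HasDerivAt (fun y : ℝ ↦ Complex.exp (k * y))
        (Complex.exp (k * x) * k) x := fun x ↦ by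
      have h1 : HasDerivAt (fun y : ℝ ↦ k * (y : ℂ)) k x := by
        simpa using (hasDerivAt_id x).ofReal_comp.const_mul k
      exact h1.cexp
    have hfirst : ∀ x ∈ Ioo (-1 : ℝ) 1,
        ∫ q, ((H1 (cd (x * ex) (x * ey) t0 q) * ((x - (ex * q.1.re + ey * q.1.im)) / (t0 * q.2)) :
          ℝ) : ℂ) * Φ q ∂hypMeasure = Complex.exp (k * x) * k * (J * u t0) := fun x hx ↦
      (rad (hmem x hx)).1.unique
        (((hexp x).mul_const _).congr_of_eventuallyEq (Filter.Eventually.of_forall hG))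
    have hsecond := ((rad (hmem 0 (by simp))).2).unique
      ((((hexp 0).mul_const k).mul_const (J * u t0)).congr_of_eventuallyEq
        (Filter.eventually_of_mem (Ioo_mem_nhds (by norm_num) (by norm_num)) hfirst))
    simp only [zero_mul, zero_sub, Complex.ofReal_zero, mul_zero, Complex.exp_zero,
      one_mul] at hsecond
    rw [hsecond]
    simp only [k]
    push_cast
    linear_combination (((α : ℂ) * ex + β * ey) ^ 2 * (J * u t0)) * Complex.I_sq
  have hx := horiz 1 0 (by norm_num)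
  have hy := horiz 0 1 (by norm_num)
  -- combine
  have hcomb : ((t0 : ℂ) ^ 2) * (G2 + -((α * 1 + β * 0) ^ 2 : ℝ) * (J * u t0) +
      -((α * 0 + β * 1) ^ 2 : ℝ) * (J * u t0)) - (t0 : ℂ) * (J * D1 t0) = -(J * u t0) := by
    have hL := hmean (G := fun c ↦ (c ^ 2 - 1) * H2 c + 3 * c * H1 c) (by fun_prop)
      (fun c hc ↦ by simp [(hR c hc).2.1, (hR c hc).2.2]) 0 0 t0 ht0
    rw [hLap, show waveChar α β ⟨0, 0⟩ = 1 from waveChar_zero α β, one_mul, neg_mul,
      ← hJdef] at hL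
    rw [← hx, ← hy, ← hL]
    have hb : ∀ {f : H3 → ℝ}, Continuous f → (∀ q ∉ K, f q = 0) →
        Integrable (fun q ↦ ((f q : ℝ) : ℂ) * Φ q) hypMeasure := fun hf h0 ↦
      integrable_of_vanish hK ((Complex.continuous_ofReal.comp hf).mul hΦ)
        fun q hq' ↦ by rw [h0 q hq']; simp
    have hcdc : Continuous fun q ↦ cd 0 0 t0 q := by
      unfold cd
      fun_prop (disch := (intro p; exact mul_ne_zero (mul_ne_zero two_ne_zero ht0.ne') (hq _)))
    have hout0 : ∀ q ∉ K, 3 < cd 0 0 t0 q := outV t0 ⟨by linarith, by linarith⟩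
    have hd0 : ∀ q : H3, t0 * (q.2 : ℝ) ≠ 0 := fun q ↦ mul_ne_zero ht0.ne' (hq q)
    have hmem0 : ∀ q : H3, (t0, q) ∈ sV ×ˢ (univ : Set H3) := fun q ↦
      ⟨⟨by linarith, by linarith⟩, mem_univ q⟩
    have hn1 : Continuous fun q ↦ N1 t0 q :=
      cont1.comp_continuous (continuous_const.prodMk continuous_id) hmem0
    have hn2 : Continuous fun q ↦ N2 t0 q :=
      cont2.comp_continuous (continuous_const.prodMk continuous_id) hmem0
    have hJD : J * D1 t0 = ∫ q, ((H1 (cd 0 0 t0 q) * N1 t0 q : ℝ) : ℂ) * Φ q ∂hypMeasure := by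
      simp only [D1]; rw [← mul_assoc, mul_inv_cancel₀ hJ, one_mul]
    rw [hJD]
    have i1 := hb (f := fun q ↦ H2 (cd 0 0 t0 q) * N1 t0 q ^ 2 + H1 (cd 0 0 t0 q) * N2 t0 q)
      (by fun_prop) fun q hq' ↦ by simp [(hR _ (hout0 q hq')).2.1, (hR _ (hout0 q hq')).2.2]
    have i2 : ∀ ex ey : ℝ, Integrable (fun q : H3 ↦ ((H2 (cd 0 0 t0 q) *
        (-(ex * q.1.re + ey * q.1.im) / (t0 * q.2)) ^ 2 +
        H1 (cd 0 0 t0 q) * (1 / (t0 * q.2)) : ℝ) : ℂ) * Φ q) hypMeasure := fun ex ey ↦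
      hb (by fun_prop (disch := (intro p; exact hd0 _)))
        fun q hq' ↦ by simp [(hR _ (hout0 q hq')).2.1, (hR _ (hout0 q hq')).2.2]
    have i4 := hb (f := fun q ↦ H1 (cd 0 0 t0 q) * N1 t0 q) (by fun_prop)
      fun q hq' ↦ by simp [(hR _ (hout0 q hq')).2.1]
    have i12 : Integrable (fun q : H3 ↦
        ((H2 (cd 0 0 t0 q) * N1 t0 q ^ 2 + H1 (cd 0 0 t0 q) * N2 t0 q : ℝ) : ℂ) * Φ q +
        ((H2 (cd 0 0 t0 q) * (-(1 * q.1.re + 0 * q.1.im) / (t0 * q.2)) ^ 2 +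
          H1 (cd 0 0 t0 q) * (1 / (t0 * q.2)) : ℝ) : ℂ) * Φ q) hypMeasure := i1.add (i2 1 0)
    rw [← integral_add i1 (i2 1 0), ← integral_add i12 (i2 0 1),
      ← integral_const_mul, ← integral_const_mul,
      ← integral_sub (by exact (i12.add (i2 0 1)).const_mul _) (i4.const_mul _)]
    refine integral_congr_ae (Filter.Eventually.of_forall fun q ↦ ?_)
    have key : t0 ^ 2 * ((H2 (cd 0 0 t0 q) * N1 t0 q ^ 2 + H1 (cd 0 0 t0 q) * N2 t0 q) +
        (H2 (cd 0 0 t0 q) * (-(1 * q.1.re + 0 * q.1.im) / (t0 * q.2)) ^ 2 +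
          H1 (cd 0 0 t0 q) * (1 / (t0 * q.2))) +
        (H2 (cd 0 0 t0 q) * (-(0 * q.1.re + 1 * q.1.im) / (t0 * q.2)) ^ 2 +
          H1 (cd 0 0 t0 q) * (1 / (t0 * q.2)))) - t0 * (H1 (cd 0 0 t0 q) * N1 t0 q) =
        (cd 0 0 t0 q ^ 2 - 1) * H2 (cd 0 0 t0 q) + 3 * cd 0 0 t0 q * H1 (cd 0 0 t0 q) := by
      have h2 := hq q
      simp only [hN1, hN2, cd]
      field_simp
      ring
    simp only [Pi.add_apply]
    rw [← key]
    push_cast
    ring
  refine ⟨hu1, hu2.congr_deriv ?_⟩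
  simp only [Complex.real_smul]
  push_cast at hcomb ⊢
  have ht : (t0 : ℂ) ≠ 0 := Complex.ofReal_ne_zero.2 ht0.ne'
  field_simp
  linear_combination hcomb

end FLTAgent.LT.RS
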