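import Mathlib.Analysis.Calculus.Deriv.MeanValue
import Fermat.Agent.LT.RS.Bessel

/-!
Bounded solutions of `u'' = u' / t + (A - 1 / t²) u` on `(0, ∞)` with `A > 0`: exponential decay
and uniqueness up to a scalar.
-/

set_option autoImplicit false

noncomputable section

namespace FLTAgent.LT.RS

open Set
open scoped Topology RealInnerProductSpace

variable {A : ℝ} {u u' : ℝ → ℂ}

/-- The normalised solution `u / √t`. -/
def nsol (u : ℝ → ℂ) (t : ℝ) : ℂ := (Real.sqrt t)⁻¹ • u t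

/-- Its derivative. -/
def nsolD (u u' : ℝ → ℂ) (t : ℝ) : ℂ := (Real.sqrt t)⁻¹ • (u' t - (2 * t)⁻¹ • u t)

theorem hasDerivAt_inv_sqrt {t : ℝ} (ht : 0 < t) :
    HasDerivAt (fun y ↦ (Real.sqrt y)⁻¹) (-((Real.sqrt t)⁻¹ * (2 * t)⁻¹)) t := by
  have hs : 0 < Real.sqrt t := Real.sqrt_pos.2 ht
  refine ((Real.hasDerivAt_sqrt ht.ne').inv hs.ne').congr_deriv ?_
  have h2 : Real.sqrt t ^ 2 = t := Real.sq_sqrt ht.le
  rw [h2]
  field_simp

theorem RadialSol.hasDerivAt_nsol (h : RadialSol A u u') {t : ℝ} (ht : 0 < t) :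
    HasDerivAt (nsol u) (nsolD u u' t) t := by
  refine ((hasDerivAt_inv_sqrt ht).smul (h t ht).1).congr_deriv ?_
  simp only [nsolD, smul_sub, smul_smul, neg_smul]
  abel

theorem RadialSol.hasDerivAt_nsolD (h : RadialSol A u u') {t : ℝ} (ht : 0 < t) :
    HasDerivAt (nsolD u u') ((A - (4 * t ^ 2)⁻¹) • nsol u t) t := by
  have hinv : HasDerivAt (fun y : ℝ ↦ (2 * y)⁻¹) (-(2 * ((2 * t) ^ 2)⁻¹)) t := by
    refine (((hasDerivAt_id t).const_mul 2).inv (by simpa using ht.ne')).congr_deriv ?_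
    simp only [id_eq, mul_one]
    rw [neg_div, div_eq_mul_inv]
  refine ((hasDerivAt_inv_sqrt ht).smul ((h t ht).2.sub (hinv.smul (h t ht).1))).congr_deriv ?_
  simp only [nsol, Complex.real_smul, Pi.sub_apply, Pi.smul_apply']
  push_cast
  have h0 : (t : ℂ) ≠ 0 := Complex.ofReal_ne_zero.2 ht.ne'
  field_simp
  ring

theorem norm_nsol {t : ℝ} (ht : 0 < t) (u : ℝ → ℂ) :
    ‖nsol u t‖ = (Real.sqrt t)⁻¹ * ‖u t‖ := by
  rw [nsol, norm_smul, Real.norm_eq_abs, abs_of_pos (inv_pos.2 (Real.sqrt_pos.2 ht))]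

theorem le_of_hasDerivAt_nonneg {f f' : ℝ → ℝ} {T : ℝ} (hf : ∀ t, T ≤ t → HasDerivAt f (f' t) t)
    (h0 : ∀ t, T ≤ t → 0 ≤ f' t) {x y : ℝ} (hx : T ≤ x) (hxy : x ≤ y) : f x ≤ f y :=
  monotoneOn_of_deriv_nonneg (convex_Ici T) (fun t ht ↦ (hf t ht).continuousAt.continuousWithinAt)
    (fun t ht ↦ (hf t (interior_subset ht)).differentiableAt.differentiableWithinAt)
    (fun t ht ↦ by rw [(hf t (interior_subset ht)).deriv]; exact h0 t (interior_subset ht))
    hx (hx.trans hxy) hxy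

/-- Bounded nonnegative convex functions decrease. -/
theorem deriv_nonpos_of_convex {f f1 f2 : ℝ → ℝ} {T M : ℝ}
    (d1 : ∀ t, T ≤ t → HasDerivAt f (f1 t) t) (d2 : ∀ t, T ≤ t → HasDerivAt f1 (f2 t) t)
    (h2 : ∀ t, T ≤ t → 0 ≤ f2 t) (hM : ∀ t, T ≤ t → f t ≤ M) {t : ℝ} (ht : T ≤ t) :
    f1 t ≤ 0 := by
  by_contra hpos
  rw [not_le] at hpos
  have hmono : ∀ y, t ≤ y → f t + f1 t * (y - t) ≤ f y := fun y hy ↦ by
    have := le_of_hasDerivAt_nonneg (f := fun z ↦ f z - f1 t * (z - t))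
      (f' := fun z ↦ f1 z - f1 t * 1) (T := t)
      (fun z hz ↦ (d1 z (ht.trans hz)).sub (((hasDerivAt_id z).sub_const t).const_mul (f1 t)))
      (fun z hz ↦ by
        rw [mul_one, sub_nonneg]; exact le_of_hasDerivAt_nonneg d2 h2 ht hz) le_rfl hy
    simp only [sub_self, mul_zero, sub_zero] at this
    linarith
  set y := t + ((|M - f t| + 1) / f1 t)
  have hy : t ≤ y := le_add_of_nonneg_right (by positivity)
  have h1 := hmono y hy
  have h3 := hM y (ht.trans hy)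
  have : f1 t * (y - t) = |M - f t| + 1 := by simp only [y]; field_simp; ring
  linarith [le_abs_self (M - f t)]

/-- The basic properties of `|u|² / t` for large `t`. -/
theorem RadialSol.normSq_props (h : RadialSol A u u') {C : ℝ} (hC : ∀ t, 0 < t → ‖u t‖ ≤ C)
    (hA : 0 < A) :
    (∀ t, 0 < t → HasDerivAt (fun y ↦ ‖nsol u y‖ ^ 2) (2 * ⟪nsol u t, nsolD u u' t⟫) t) ∧
    (∀ t, 0 < t → HasDerivAt (fun y ↦ 2 * ⟪nsol u y, nsolD u u' y⟫)
      (2 * (‖nsolD u u' t‖ ^ 2 + (A - (4 * t ^ 2)⁻¹) * ‖nsol u t‖ ^ 2)) t) ∧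
    (∀ t, (Real.sqrt A)⁻¹ ≤ t →
      A * ‖nsol u t‖ ^ 2 + 2 * ‖nsolD u u' t‖ ^ 2 ≤
        2 * (‖nsolD u u' t‖ ^ 2 + (A - (4 * t ^ 2)⁻¹) * ‖nsol u t‖ ^ 2)) ∧
    (∀ t, (Real.sqrt A)⁻¹ ≤ t → ‖nsol u t‖ ^ 2 ≤ Real.sqrt A * C ^ 2) := by
  refine ⟨fun t ht ↦ ?_, fun t ht ↦ ?_, fun t ht ↦ ?_, fun t ht ↦ ?_⟩
  · exact (h.hasDerivAt_nsol ht).norm_sq
  · refine (((h.hasDerivAt_nsol ht).inner ℝ (h.hasDerivAt_nsolD ht)).const_mul 2).congr_deriv ?_
    rw [real_inner_smul_right, real_inner_self_eq_norm_sq, real_inner_self_eq_norm_sq]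
    ring
  · have hs : 0 < Real.sqrt A := Real.sqrt_pos.2 hA
    have ht0 : 0 < t := lt_of_lt_of_le (inv_pos.2 hs) ht
    have h1 : (4 * t ^ 2)⁻¹ ≤ A / 4 := by
      rw [inv_le_iff_one_le_mul₀ (by positivity)]
      have h2 : 1 ≤ Real.sqrt A * t := by
        rwa [inv_le_iff_one_le_mul₀' hs] at ht
      nlinarith [Real.sq_sqrt hA.le]
    nlinarith [sq_nonneg ‖nsol u t‖]
  · have hs : 0 < Real.sqrt A := Real.sqrt_pos.2 hA
    have ht0 : 0 < t := lt_of_lt_of_le (inv_pos.2 hs) ht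
    rw [norm_nsol ht0, mul_pow, inv_pow, Real.sq_sqrt ht0.le]
    exact mul_le_mul (inv_le_of_inv_le₀ hs ht) (pow_le_pow_left₀ (norm_nonneg _) (hC t ht0) 2)
      (by positivity) hs.le

/-- Exponential decay of bounded solutions. -/
theorem RadialSol.exists_decay (h : RadialSol A u u') (hb : ∃ C, ∀ t, 0 < t → ‖u t‖ ≤ C)
    (hA : 0 < A) : ∃ C c, 0 < c ∧ 0 ≤ C ∧ ∀ t, 0 < t → ‖u t‖ ≤ C * Real.exp (-(c * t)) := by
  obtain ⟨C, hC⟩ := hb
  have hC0 : 0 ≤ C := (norm_nonneg _).trans (hC 1 one_pos)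
  obtain ⟨d1, d2, hconv, hM⟩ := h.normSq_props hC hA
  set a := Real.sqrt A
  have ha : 0 < a := Real.sqrt_pos.2 hA
  have haa : a ^ 2 = A := Real.sq_sqrt hA.le
  set T := a⁻¹
  have hT : 0 < T := inv_pos.2 ha
  set f := fun y ↦ ‖nsol u y‖ ^ 2
  set f1 := fun y ↦ 2 * ⟪nsol u y, nsolD u u' y⟫
  set f2 := fun t ↦ 2 * (‖nsolD u u' t‖ ^ 2 + (A - (4 * t ^ 2)⁻¹) * ‖nsol u t‖ ^ 2)
  have hf2 : ∀ t, T ≤ t → A * f t ≤ f2 t := fun t ht ↦
    le_trans (le_add_of_nonneg_right (by positivity)) (hconv t ht)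
  have hneg : ∀ t, T ≤ t → f1 t ≤ 0 := fun t ht ↦
    deriv_nonpos_of_convex (fun t ht ↦ d1 t (hT.trans_le ht)) (fun t ht ↦ d2 t (hT.trans_le ht))
      (fun t ht ↦ le_trans (by positivity) (hf2 t ht)) hM ht
  -- `f' + a f ≤ 0`
  have hg : ∀ t, T ≤ t → f1 t + a * f t ≤ 0 := by
    intro t ht
    by_contra hp
    rw [not_le] at hp
    have hexpd : ∀ z : ℝ, HasDerivAt (fun y ↦ Real.exp (-(a * y)))
        (Real.exp (-(a * z)) * -(a * 1)) z := fun z ↦
      (((hasDerivAt_id z).const_mul a).neg).exp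
    have hmono : ∀ y, t ≤ y → (f1 t + a * f t) * Real.exp (a * (y - t)) ≤ f1 y + a * f y := by
      intro y hy
      have := le_of_hasDerivAt_nonneg
        (f := fun z ↦ (f1 z + a * f z) * Real.exp (-(a * z)))
        (f' := fun z ↦ (f2 z + a * f1 z) * Real.exp (-(a * z)) +
          (f1 z + a * f z) * (Real.exp (-(a * z)) * -(a * 1))) (T := t)
        (fun z hz ↦ ((d2 z (hT.trans_le (ht.trans hz))).add
          ((d1 z (hT.trans_le (ht.trans hz))).const_mul a)).mul (hexpd z))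
        (fun z hz ↦ by
          have h2 := hf2 z (ht.trans hz)
          rw [← haa] at h2
          nlinarith [Real.exp_pos (-(a * z)),
            mul_nonneg (sub_nonneg.2 h2) (Real.exp_pos (-(a * z))).le]) le_rfl hy
      have e : Real.exp (a * (y - t)) = Real.exp (-(a * t)) * Real.exp (a * y) := by
        rw [← Real.exp_add]; ring_nf
      have e2 : Real.exp (-(a * y)) * Real.exp (a * y) = 1 := by
        rw [← Real.exp_add]; simp
      calc (f1 t + a * f t) * Real.exp (a * (y - t))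
          = (f1 t + a * f t) * Real.exp (-(a * t)) * Real.exp (a * y) := by rw [e]; ring
        _ ≤ (f1 y + a * f y) * Real.exp (-(a * y)) * Real.exp (a * y) :=
            mul_le_mul_of_nonneg_right this (Real.exp_pos _).le
        _ = f1 y + a * f y := by rw [mul_assoc, e2, mul_one]
    set g := f1 t + a * f t
    set y := t + |a * (a * C ^ 2)| / (g * a) + 1
    have hga : 0 < g * a := mul_pos hp ha
    have hy : t ≤ y := by
      have : 0 ≤ |a * (a * C ^ 2)| / (g * a) := by positivity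
      linarith
    have h1 := hmono y hy
    have h2 : g * (1 + a * (y - t)) ≤ g * Real.exp (a * (y - t)) :=
      mul_le_mul_of_nonneg_left (by linarith [Real.add_one_le_exp (a * (y - t))]) hp.le
    have h3 := hneg y (ht.trans hy)
    have h4 := mul_le_mul_of_nonneg_left (hM y (ht.trans hy)) ha.le
    have h5 : g * a * (y - t) = |a * (a * C ^ 2)| + g * a := by
      simp only [y]; field_simp; ring
    linarith [le_abs_self (a * (a * C ^ 2))]
  have hdec : ∀ t, T ≤ t → f t * Real.exp (a * t) ≤ f T * Real.exp (a * T) := by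
    intro t ht
    have := le_of_hasDerivAt_nonneg (f := fun z ↦ -(f z * Real.exp (a * z)))
      (f' := fun z ↦ -(f1 z * Real.exp (a * z) + f z * (Real.exp (a * z) * (a * 1)))) (T := T)
      (fun z hz ↦ ((d1 z (hT.trans_le hz)).mul (((hasDerivAt_id z).const_mul a).exp)).neg)
      (fun z hz ↦ by nlinarith [mul_nonneg (neg_nonneg.2 (hg z hz)) (Real.exp_pos (a * z)).le])
      le_rfl ht
    linarith
  set D := f T * Real.exp (a * T)
  have hD : 0 ≤ D := by positivity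
  refine ⟨C * Real.exp (a / 4 * T) + Real.sqrt D * (1 + 4 / a), a / 4, by positivity,
    by positivity, fun t ht ↦ ?_⟩
  rcases le_or_gt t T with htT | htT
  · refine (hC t ht).trans ?_
    rw [add_mul]
    refine le_add_of_le_of_nonneg ?_ (by positivity)
    rw [mul_assoc, ← Real.exp_add]
    refine le_mul_of_one_le_right hC0 (Real.one_le_exp ?_)
    nlinarith
  · have h1 := hdec t htT.le
    have hu : ‖u t‖ = Real.sqrt t * ‖nsol u t‖ := by
      rw [norm_nsol ht, ← mul_assoc, mul_inv_cancel₀ (Real.sqrt_pos.2 ht).ne', one_mul]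
    have h2 : ‖nsol u t‖ ≤ Real.sqrt D * Real.exp (-(a * t / 2)) := by
      refine le_of_pow_le_pow_left₀ two_ne_zero (by positivity) ?_
      rw [mul_pow, Real.sq_sqrt hD, ← Real.exp_nat_mul]
      have e : Real.exp (((2 : ℕ) : ℝ) * -(a * t / 2)) * Real.exp (a * t) = 1 := by
        rw [← Real.exp_add]; push_cast; ring_nf; simp
      calc ‖nsol u t‖ ^ 2 = Real.exp (((2 : ℕ) : ℝ) * -(a * t / 2)) * (f t * Real.exp (a * t)) := by
            rw [mul_left_comm, e, mul_one]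
        _ ≤ _ := by rw [mul_comm D]; exact mul_le_mul_of_nonneg_left h1 (Real.exp_pos _).le
    have h3 : Real.sqrt t ≤ (1 + 4 / a) * Real.exp (a / 4 * t) := by
      have h4 : Real.sqrt t ≤ 1 + t := Real.sqrt_le_iff.2 ⟨by linarith, by nlinarith⟩
      have h5 := Real.add_one_le_exp (a / 4 * t)
      have h6 : 1 + t ≤ (1 + 4 / a) * (a / 4 * t + 1) := by
        have : (1 + 4 / a) * (a / 4 * t + 1) = a / 4 * t + 1 + t + 4 / a := by
          field_simp; ring
        rw [this]; nlinarith [mul_pos ha ht, (by positivity : (0 : ℝ) ≤ 4 / a)]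
      nlinarith [mul_le_mul_of_nonneg_left h5 (by positivity : (0 : ℝ) ≤ 1 + 4 / a)]
    calc ‖u t‖ ≤ (1 + 4 / a) * Real.exp (a / 4 * t) * (Real.sqrt D * Real.exp (-(a * t / 2))) := by
          rw [hu]; gcongr
      _ = Real.sqrt D * (1 + 4 / a) * Real.exp (-(a / 4 * t)) := by
          rw [mul_mul_mul_comm, ← Real.exp_add]; ring_nf
      _ ≤ _ := mul_le_mul_of_nonneg_right (le_add_of_nonneg_left (by positivity))
            (Real.exp_pos _).le

/-- A solution with vanishing initial data vanishes. -/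
theorem RadialSol.eq_zero (h : RadialSol A u u') {t0 : ℝ} (ht0 : 0 < t0) (h0 : u t0 = 0)
    (h0' : u' t0 = 0) {t : ℝ} (ht : 0 < t) : u t = 0 := by
  set lo := min t0 t
  set hi := max t0 t
  have hlo : 0 < lo := lt_min ht0 ht
  set K := 1 + |A| + (lo⁻¹ + 1) ^ 2
  set f := fun y ↦ ‖u y‖ ^ 2 + ‖u' y‖ ^ 2
  set f' := fun y ↦ 2 * ⟪u y, u' y⟫ + 2 * ⟪u' y, (y⁻¹ : ℝ) • u' y + (A - (y ^ 2)⁻¹) • u y⟫
  have hd : ∀ y ∈ Icc lo hi, HasDerivAt f (f' y) y := fun y hy ↦
    ((h y (hlo.trans_le hy.1)).1.norm_sq).add ((h y (hlo.trans_le hy.1)).2.norm_sq)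
  have hbound : ∀ y ∈ Icc lo hi, |f' y| ≤ 4 * K * f y := by
    intro y hy
    have hy0 : 0 < y := hlo.trans_le hy.1
    have hi1 : y⁻¹ ≤ lo⁻¹ := inv_anti₀ hlo hy.1
    have hi0 : 0 ≤ y⁻¹ := (inv_pos.2 hy0).le
    have hK1 : y⁻¹ ≤ K := by
      simp only [K]; nlinarith [abs_nonneg A, inv_pos.2 hlo]
    have hK2 : |A - (y ^ 2)⁻¹| ≤ K := by
      refine (abs_sub _ _).trans ?_
      rw [abs_of_nonneg (by positivity : 0 ≤ (y ^ 2)⁻¹), ← inv_pow]
      simp only [K]; nlinarith [inv_pos.2 hlo]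
    have hK3 : 1 ≤ K := by simp only [K]; nlinarith [abs_nonneg A, inv_pos.2 hlo]
    simp only [f', inner_add_right, real_inner_smul_right, real_inner_self_eq_norm_sq]
    have e1 := abs_real_inner_le_norm (u y) (u' y)
    have e2 := abs_real_inner_le_norm (u' y) (u y)
    set p := ‖u y‖
    set q := ‖u' y‖
    have hp : 0 ≤ p := norm_nonneg _
    have hq : 0 ≤ q := norm_nonneg _
    calc |2 * ⟪u y, u' y⟫ + 2 * (y⁻¹ * q ^ 2 + (A - (y ^ 2)⁻¹) * ⟪u' y, u y⟫)|
        ≤ 2 * |⟪u y, u' y⟫| + 2 * (y⁻¹ * q ^ 2 + |A - (y ^ 2)⁻¹| * |⟪u' y, u y⟫|) := by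
          refine (abs_add_le _ _).trans (add_le_add (by rw [abs_mul, abs_two]) ?_)
          rw [abs_mul, abs_two]
          refine mul_le_mul_of_nonneg_left ((abs_add_le _ _).trans ?_) two_pos.le
          rw [abs_mul (A - _), abs_of_nonneg (by positivity : 0 ≤ y⁻¹ * q ^ 2)]
      _ ≤ 2 * (K * (p * q)) + 2 * (K * q ^ 2 + K * (q * p)) := by
          gcongr
          exact e1.trans (le_mul_of_one_le_left (by positivity) hK3)
      _ ≤ 4 * K * f y := by
          show _ ≤ 4 * K * (p ^ 2 + q ^ 2)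
          nlinarith [mul_nonneg (zero_le_one.trans hK3) (sq_nonneg (p - q)), sq_nonneg q,
            mul_nonneg (zero_le_one.trans hK3) (sq_nonneg p)]
  set K' := 4 * K
  -- monotonicity of `f e^{-K' y}` and of `f e^{K' y}`
  have hzero : f t = 0 := by
    have hf0 : f t0 = 0 := by simp [f, h0, h0']
    have hfn : 0 ≤ f t := by positivity
    have hsub : ∀ y ∈ interior (Icc lo hi), y ∈ Icc lo hi := fun y hy ↦ interior_subset hy
    have key : ∀ σ : ℝ, σ = 1 ∨ σ = -1 →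
        AntitoneOn (fun y ↦ σ * (f y * Real.exp (-(σ * K' * y)))) (Icc lo hi) := by
      intro σ hσ
      have hd' : ∀ y ∈ Icc lo hi, HasDerivAt (fun y ↦ σ * (f y * Real.exp (-(σ * K' * y))))
          (σ * (f' y * Real.exp (-(σ * K' * y)) +
            f y * (Real.exp (-(σ * K' * y)) * -(σ * K' * 1)))) y := fun y hy ↦
        ((hd y hy).mul (((hasDerivAt_id y).const_mul (σ * K')).neg.exp)).const_mul σ
      refine antitoneOn_of_deriv_nonpos (convex_Icc lo hi)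
        (fun y hy ↦ (hd' y hy).continuousAt.continuousWithinAt)
        (fun y hy ↦ (hd' y (hsub y hy)).differentiableAt.differentiableWithinAt) fun y hy ↦ ?_
      rw [(hd' y (hsub y hy)).deriv]
      have hb := abs_le.1 (hbound y (hsub y hy))
      have he := Real.exp_pos (-(σ * K' * y))
      rcases hσ with rfl | rfl
      · nlinarith [mul_nonneg (sub_nonneg.2 hb.2) he.le]
      · nlinarith [mul_nonneg (sub_nonneg.2 hb.1) he.le]
    have m0 : t0 ∈ Icc lo hi := ⟨min_le_left _ _, le_max_left _ _⟩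
    have m1 : t ∈ Icc lo hi := ⟨min_le_right _ _, le_max_right _ _⟩
    rcases le_total t0 t with hle | hle
    · have := key 1 (Or.inl rfl) m0 m1 hle
      simp only [hf0, zero_mul, mul_zero, one_mul] at this
      nlinarith [Real.exp_pos (-(K' * t))]
    · have := key (-1) (Or.inr rfl) m1 m0 hle
      simp only [hf0, zero_mul, mul_zero] at this
      nlinarith [Real.exp_pos (-(-1 * K' * t))]
  have : ‖u t‖ ^ 2 = 0 := by
    have h1 := sq_nonneg ‖u' t‖
    have h2 := sq_nonneg ‖u t‖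
    simp only [f] at hzero
    linarith
  simpa using this

theorem RadialSol.sub_smul (h : RadialSol A u u') {w w' : ℝ → ℂ} (hw : RadialSol A w w') (c : ℂ) :
    RadialSol A (fun t ↦ u t - c * w t) (fun t ↦ u' t - c * w' t) := fun t ht ↦
  ⟨(h t ht).1.sub ((hw t ht).1.const_mul c), ((h t ht).2.sub ((hw t ht).2.const_mul c)).congr_deriv
    (by simp only [Complex.real_smul]; ring)⟩

/-- Two bounded solutions have vanishing Wronskian. -/
theorem RadialSol.wronskian_eq_zero (h : RadialSol A u u') {w w' : ℝ → ℂ}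
    (hw : RadialSol A w w') (hA : 0 < A) (hb : ∃ C, ∀ t, 0 < t → ‖u t‖ ≤ C)
    (hbw : ∃ C, ∀ t, 0 < t → ‖w t‖ ≤ C) {t : ℝ} (ht : 0 < t) :
    u t * w' t - u' t * w t = 0 := by
  set W := fun y ↦ (y⁻¹ : ℝ) • (u y * w' y - u' y * w y)
  have hW : ∀ y, 0 < y → HasDerivAt W 0 y := by
    intro y hy
    refine ((hasDerivAt_inv hy.ne').smul
      (((h y hy).1.mul (hw y hy).2).sub ((h y hy).2.mul (hw y hy).1))).congr_deriv ?_
    simp only [Complex.real_smul, Pi.sub_apply, Pi.mul_apply]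
    push_cast
    have : (y : ℂ) ≠ 0 := Complex.ofReal_ne_zero.2 hy.ne'
    field_simp
    ring
  have hconst : ∀ x y, 0 < x → 0 < y → W x = W y := fun x y hx hy ↦
    (isOpen_Ioi (a := (0 : ℝ))).is_const_of_deriv_eq_zero isPreconnected_Ioi
      (fun z hz ↦ (hW z hz).differentiableAt.differentiableWithinAt)
      (fun z hz ↦ (hW z hz).deriv) hx hy
  suffices hz : W t = 0 by
    simpa [W, smul_eq_zero, ht.ne'] using hz
  by_contra hne
  set δ := ‖W t‖
  have hδ : 0 < δ := norm_pos_iff.2 hne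
  obtain ⟨C, hC⟩ := hb
  obtain ⟨C', hC'⟩ := hbw
  obtain ⟨du1, du2, cu, Mu⟩ := h.normSq_props hC hA
  obtain ⟨dw1, dw2, cw, Mw⟩ := hw.normSq_props hC' hA
  set T := (Real.sqrt A)⁻¹
  have hT : 0 < T := inv_pos.2 (Real.sqrt_pos.2 hA)
  set M := Real.sqrt A * C ^ 2 + Real.sqrt A * C' ^ 2 + 1
  have hM : 0 < M := by positivity
  set ε := δ ^ 2 / (2 * M)
  have hε : 0 < ε := by positivity
  have hWn : ∀ y, T ≤ y → ε ≤ ‖nsolD u u' y‖ ^ 2 + ‖nsolD w w' y‖ ^ 2 := by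
    intro y hy
    have hy0 : 0 < y := hT.trans_le hy
    have hs : Real.sqrt y ^ 2 = y := Real.sq_sqrt hy0.le
    have e : W t = nsol u y * nsolD w w' y - nsolD u u' y * nsol w y := by
      rw [hconst t y ht hy0]
      simp only [W, nsol, nsolD, Complex.real_smul]
      push_cast
      have h1 : ((Real.sqrt y : ℝ) : ℂ) ^ 2 = (y : ℂ) := by exact_mod_cast hs
      have h2 : ((Real.sqrt y : ℝ) : ℂ) ≠ 0 :=
        Complex.ofReal_ne_zero.2 (Real.sqrt_pos.2 hy0).ne'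
      rw [← h1]
      field_simp
      ring
    have hδle : δ ≤ ‖nsol u y‖ * ‖nsolD w w' y‖ + ‖nsolD u u' y‖ * ‖nsol w y‖ := by
      simp only [δ, e, ← norm_mul]
      exact norm_sub_le _ _
    set a := ‖nsol u y‖
    set b := ‖nsol w y‖
    set a' := ‖nsolD u u' y‖
    set b' := ‖nsolD w w' y‖
    have hab : a ^ 2 + b ^ 2 ≤ M := by
      have := Mu y hy
      have := Mw y hy
      simp only [M]; linarith
    have h2 : δ ^ 2 ≤ 2 * (M * (a' ^ 2 + b' ^ 2)) := by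
      refine (pow_le_pow_left₀ hδ.le hδle 2).trans ?_
      nlinarith [sq_nonneg (a * a' - b * b'), mul_le_mul_of_nonneg_right hab
        (add_nonneg (sq_nonneg a') (sq_nonneg b')), sq_nonneg (a * b' - a' * b)]
    rw [div_le_iff₀ (by positivity)]
    linarith
  have key := fun (z : ℝ) (hz : T ≤ z) ↦ deriv_nonpos_of_convex
    (f := fun y ↦ ‖nsol u y‖ ^ 2 + ‖nsol w y‖ ^ 2)
    (f1 := fun y ↦ 2 * ⟪nsol u y, nsolD u u' y⟫ + 2 * ⟪nsol w y, nsolD w w' y⟫)
    (f2 := fun y ↦ 2 * (‖nsolD u u' y‖ ^ 2 + (A - (4 * y ^ 2)⁻¹) * ‖nsol u y‖ ^ 2) +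
      2 * (‖nsolD w w' y‖ ^ 2 + (A - (4 * y ^ 2)⁻¹) * ‖nsol w y‖ ^ 2)) (T := T)
    (M := Real.sqrt A * C ^ 2 + Real.sqrt A * C' ^ 2)
    (fun y hy ↦ (du1 y (hT.trans_le hy)).add (dw1 y (hT.trans_le hy)))
    (fun y hy ↦ (du2 y (hT.trans_le hy)).add (dw2 y (hT.trans_le hy)))
    (fun y hy ↦ by
      have := cu y hy
      have := cw y hy
      nlinarith [hWn y hy, mul_nonneg hA.le (sq_nonneg ‖nsol u y‖),
        mul_nonneg hA.le (sq_nonneg ‖nsol w y‖)])
    (fun y hy ↦ add_le_add (Mu y hy) (Mw y hy)) hz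
  -- the first derivative grows at least linearly
  set f1 := fun y ↦ 2 * ⟪nsol u y, nsolD u u' y⟫ + 2 * ⟪nsol w y, nsolD w w' y⟫
  have hgrow : ∀ y, T ≤ y → f1 T + 2 * ε * (y - T) ≤ f1 y := fun y hy ↦ by
    have := le_of_hasDerivAt_nonneg (f := fun z ↦ f1 z - 2 * ε * (z - T)) (T := T)
      (fun z hz ↦ ((du2 z (hT.trans_le hz)).add (dw2 z (hT.trans_le hz))).sub
        (((hasDerivAt_id z).sub_const T).const_mul (2 * ε)))
      (fun z hz ↦ by
        have := cu z hz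
        have := cw z hz
        nlinarith [hWn z hz, mul_nonneg hA.le (sq_nonneg ‖nsol u z‖),
          mul_nonneg hA.le (sq_nonneg ‖nsol w z‖)]) le_rfl hy
    simp only [sub_self, mul_zero, sub_zero] at this
    linarith
  set y := T + (|f1 T| + 1) / (2 * ε)
  have hy : T ≤ y := le_add_of_nonneg_right (by positivity)
  have h1 := hgrow y hy
  have h2 : f1 y ≤ 0 := key y hy
  have h3 : 2 * ε * (y - T) = |f1 T| + 1 := by simp only [y]; field_simp; ring
  linarith [neg_abs_le (f1 T)]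

/-- Bounded modes are unique up to a scalar. -/
theorem MVMode.proportional {α β : ℝ} {u w : ℝ → ℂ} (hu : MVMode α β u) (hw : MVMode α β w)
    (hA : 0 < α ^ 2 + β ^ 2) {t0 : ℝ} (ht0 : 0 < t0) (hne : w t0 ≠ 0) {t : ℝ} (ht : 0 < t) :
    u t = u t0 / w t0 * w t := by
  obtain ⟨u', hu'⟩ := hu.exists_radialSol
  obtain ⟨w', hw'⟩ := hw.exists_radialSol
  have hW := hu'.wronskian_eq_zero hw' hA hu.bdd hw.bdd ht0
  have := (hu'.sub_smul hw' (u t0 / w t0)).eq_zero ht0 (by field_simp; ring)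
    (by field_simp; linear_combination -hW) ht
  exact sub_eq_zero.1 this

/-- Bounded modes decay exponentially. -/
theorem MVMode.exists_decay {α β : ℝ} {u : ℝ → ℂ} (hu : MVMode α β u) (hA : 0 < α ^ 2 + β ^ 2) :
    ∃ C c, 0 < c ∧ 0 ≤ C ∧ ∀ t, 0 < t → ‖u t‖ ≤ C * Real.exp (-(c * t)) := by
  obtain ⟨u', hu'⟩ := hu.exists_radialSol
  exact hu'.exists_decay hu.bdd hA

end FLTAgent.LT.RS
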