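import Mathlib.MeasureTheory.Integral.Bochner.Set
import Mathlib.MeasureTheory.Integral.Bochner.ContinuousLinearMap
import Mathlib.Analysis.Complex.Basic
import Mathlib.MeasureTheory.Measure.WithDensity
import Mathlib.MeasureTheory.Group.Action
import Mathlib.GroupTheory.Coset.Basic
import Mathlib.GroupTheory.GroupAction.Defs

/-!
Integration on a quotient by a countable group without a fundamental domain: a weight is a
function `w ≥ 0` with `∑_g w (g • x) = 1`; integrals of invariant functions against two weights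
agree, and sums over cosets unfold.
-/

set_option autoImplicit false

noncomputable section

namespace FLTAgent.LT.RS

open MeasureTheory
open scoped ENNReal

variable {G X : Type*} [Group G] [MulAction G X] [MeasurableSpace X]

variable (G) in
/-- A weight for the action of `G`. -/
structure IsWeight (w : X → ℝ≥0∞) : Prop where
  measurable : Measurable w
  sum_one : ∀ x, ∑' g : G, w (g • x) = 1

variable [Countable G] [MeasurableConstSMul G X]

/-- Normalising a function with finite positive orbit sums. -/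
def mkWeight (G : Type*) [Group G] [MulAction G X] (ρ : X → ℝ≥0∞) (x : X) : ℝ≥0∞ :=
  ρ x / ∑' g : G, ρ (g • x)

theorem orbitSum_smul (ρ : X → ℝ≥0∞) (h : G) (x : X) :
    ∑' g : G, ρ (g • h • x) = ∑' g : G, ρ (g • x) := by
  simp only [← mul_smul]
  exact (Equiv.mulRight h).tsum_eq fun g : G ↦ ρ (g • x)

theorem isWeight_mkWeight {ρ : X → ℝ≥0∞} (hρ : Measurable ρ)
    (h0 : ∀ x, ∑' g : G, ρ (g • x) ≠ 0) (hfin : ∀ x, ∑' g : G, ρ (g • x) ≠ ⊤) :
    IsWeight G (mkWeight G ρ) where
  measurable := hρ.div (Measurable.ennreal_tsum fun g ↦ hρ.comp (measurable_const_smul g))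
  sum_one x := by
    simp only [mkWeight, orbitSum_smul, div_eq_mul_inv, ENNReal.tsum_mul_right]
    exact ENNReal.mul_inv_cancel (h0 x) (hfin x)

/-- Weights are at most one. -/
theorem IsWeight.le_one {w : X → ℝ≥0∞} (hw : IsWeight G w) (x : X) : w x ≤ 1 := by
  rw [← hw.sum_one x]
  conv_lhs => rw [← one_smul G x]
  exact ENNReal.le_tsum (1 : G)

variable {μ : Measure X} [SMulInvariantMeasure G X μ]

theorem lintegral_comp_smul (g : G) {f : X → ℝ≥0∞} (hf : Measurable f) :
    ∫⁻ x, f (g • x) ∂μ = ∫⁻ x, f x ∂μ :=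
  (measurePreserving_smul g μ).lintegral_comp hf

/-- Two weights give the same integrals of invariant functions. -/
theorem IsWeight.lintegral_eq {w w' : X → ℝ≥0∞} (hw : IsWeight G w) (hw' : IsWeight G w')
    {f : X → ℝ≥0∞} (hf : Measurable f) (hinv : ∀ (g : G) x, f (g • x) = f x) :
    ∫⁻ x, w x * f x ∂μ = ∫⁻ x, w' x * f x ∂μ := by
  have step : ∀ {w w' : X → ℝ≥0∞}, IsWeight G w → IsWeight G w' →
      ∫⁻ x, w x * f x ∂μ = ∑' g : G, ∫⁻ x, w' (g • x) * (w x * f x) ∂μ := by
    intro w w' hw hw'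
    have hm : ∀ g : G, Measurable fun x ↦ w' (g • x) * (w x * f x) := fun g ↦
      (hw'.measurable.comp (measurable_const_smul g)).mul (hw.measurable.mul hf)
    rw [← lintegral_tsum fun g ↦ (hm g).aemeasurable]
    simp only [ENNReal.tsum_mul_right, hw'.sum_one, one_mul]
  rw [step hw hw', step hw' hw, ← (Equiv.inv G).tsum_eq]
  refine tsum_congr fun g ↦ ?_
  have hm : Measurable fun x ↦ w' (g⁻¹ • x) * (w x * f x) :=
    (hw'.measurable.comp (measurable_const_smul g⁻¹)).mul (hw.measurable.mul hf)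
  simp only [Equiv.inv_apply]
  rw [← lintegral_comp_smul g hm]
  refine lintegral_congr fun x ↦ ?_
  simp only [inv_smul_smul, hinv]
  ring

/-- A covering set bounds weighted integrals. -/
theorem IsWeight.lintegral_le_cover {w : X → ℝ≥0∞} (hw : IsWeight G w) {C : Set X}
    (hC : MeasurableSet C) (hcover : ∀ x, ∃ g : G, g • x ∈ C)
    {f : X → ℝ≥0∞} (hf : Measurable f) (hinv : ∀ (g : G) x, f (g • x) = f x) :
    ∫⁻ x, w x * f x ∂μ ≤ ∫⁻ x in C, f x ∂μ := by
  classical
  have hm : ∀ g : G, Measurable fun x ↦ C.indicator 1 (g • x) * (w x * f x) := fun g ↦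
    ((measurable_one.indicator hC).comp (measurable_const_smul g)).mul (hw.measurable.mul hf)
  calc ∫⁻ x, w x * f x ∂μ
      ≤ ∫⁻ x, (∑' g : G, C.indicator 1 (g • x)) * (w x * f x) ∂μ := by
        refine lintegral_mono fun x ↦ le_mul_of_one_le_left' ?_
        obtain ⟨g, hg⟩ := hcover x
        exact le_trans (by rw [Set.indicator_of_mem hg]; rfl) (ENNReal.le_tsum g)
    _ = ∑' g : G, ∫⁻ x, C.indicator 1 (g • x) * (w x * f x) ∂μ := by
        simp only [← ENNReal.tsum_mul_right]
        exact lintegral_tsum fun g ↦ (hm g).aemeasurable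
    _ = ∑' g : G, ∫⁻ x, C.indicator 1 x * (w (g • x) * f x) ∂μ := by
        rw [← (Equiv.inv G).tsum_eq]
        refine tsum_congr fun g ↦ ?_
        simp only [Equiv.inv_apply]
        rw [← lintegral_comp_smul g (hm g⁻¹)]
        exact lintegral_congr fun x ↦ by simp [hinv]
    _ = ∫⁻ x, C.indicator 1 x * f x ∂μ := by
        have hm' : ∀ g : G, Measurable fun x ↦ C.indicator 1 x * (w (g • x) * f x) := fun g ↦
          (measurable_one.indicator hC).mul
            ((hw.measurable.comp (measurable_const_smul g)).mul hf)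
        rw [← lintegral_tsum fun g ↦ (hm' g).aemeasurable]
        refine lintegral_congr fun x ↦ ?_
        simp only [Function.comp_apply, Pi.mul_apply, ENNReal.tsum_mul_left,
          ENNReal.tsum_mul_right, hw.sum_one, one_mul]
    _ = _ := by
        rw [← lintegral_indicator hC]
        refine lintegral_congr fun x ↦ ?_
        by_cases h : x ∈ C <;> simp [h]

/-- The induced weight of a subgroup. -/
def cosetWeight (H : Subgroup G) (w : X → ℝ≥0∞) (x : X) : ℝ≥0∞ :=
  ∑' q : G ⧸ H, w (q.out • x)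

theorem IsWeight.cosetWeight {w : X → ℝ≥0∞} (hw : IsWeight G w) (H : Subgroup G) :
    IsWeight H (cosetWeight H w) where
  measurable := haveI : Countable (G ⧸ H) := Quotient.countable
    Measurable.ennreal_tsum fun q ↦ hw.measurable.comp (measurable_const_smul _)
  sum_one x := by
    calc ∑' h : H, RS.cosetWeight H w (h • x)
        = ∑' (h : H) (q : G ⧸ H), w ((q.out * h) • x) := by
          simp only [RS.cosetWeight, Subgroup.smul_def, mul_smul]
      _ = ∑' (q : G ⧸ H) (h : H), w ((q.out * h) • x) := ENNReal.tsum_comm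
      _ = ∑' p : (G ⧸ H) × H, w ((p.1.out * p.2) • x) :=
          (ENNReal.tsum_prod (f := fun (q : G ⧸ H) (h : H) ↦ w ((q.out * h) • x))).symm
      _ = ∑' g : G, w (g • x) := by
          refine (Equiv.ofBijective (fun p : (G ⧸ H) × H ↦ p.1.out * (p.2 : G)) ⟨?_, ?_⟩).tsum_eq
            fun g : G ↦ w (g • x)
          · rintro ⟨q, h⟩ ⟨q', h'⟩ (he : q.out * (h : G) = q'.out * (h' : G))
            have hq : q = q' := by
              have := congrArg (QuotientGroup.mk (s := H)) he
              simpa [QuotientGroup.mk_mul_of_mem] using this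
            subst hq
            simp [Subtype.ext (mul_left_cancel he)]
          · intro g
            refine ⟨(QuotientGroup.mk g, ⟨(QuotientGroup.mk g : G ⧸ H).out⁻¹ * g, ?_⟩), by simp⟩
            exact QuotientGroup.eq.1 (QuotientGroup.out_eq' _)
      _ = 1 := hw.sum_one x

/-- Passing to a subgroup multiplies weighted integrals by the index. -/
theorem IsWeight.lintegral_subgroup {w : X → ℝ≥0∞} (hw : IsWeight G w) (H : Subgroup G)
    [Finite (G ⧸ H)] {w' : X → ℝ≥0∞} (hw' : IsWeight H w')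
    {f : X → ℝ≥0∞} (hf : Measurable f) (hinv : ∀ (g : G) x, f (g • x) = f x) :
    ∫⁻ x, w' x * f x ∂μ = Nat.card (G ⧸ H) * ∫⁻ x, w x * f x ∂μ := by
  have := Fintype.ofFinite (G ⧸ H)
  haveI : SMulInvariantMeasure H X μ :=
    ⟨fun h s hs ↦ measure_preimage_smul μ (h : G) s⟩
  haveI : MeasurableConstSMul H X := ⟨fun h ↦ measurable_const_smul (h : G)⟩
  rw [hw'.lintegral_eq (hw.cosetWeight H) hf fun h x ↦ hinv h x]
  simp only [RS.cosetWeight, tsum_fintype, Finset.sum_mul]
  have hm : ∀ q : G ⧸ H, Measurable fun x ↦ w (q.out • x) * f x := fun q ↦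
    (hw.measurable.comp (measurable_const_smul _)).mul hf
  rw [lintegral_finsetSum _ fun q _ ↦ hm q, Nat.card_eq_fintype_card]
  have : ∀ q : G ⧸ H, ∫⁻ x, w (q.out • x) * f x ∂μ = ∫⁻ x, w x * f x ∂μ := fun q ↦ by
    rw [← lintegral_comp_smul q.out (f := fun x ↦ w x * f x) (hw.measurable.mul hf)]
    simp only [hinv]
  simp [this, Finset.card_univ]

/-- Unfolding of a sum over cosets. -/
theorem IsWeight.lintegral_unfold {w : X → ℝ≥0∞} (hw : IsWeight G w) (H : Subgroup G)
    {w' : X → ℝ≥0∞} (hw' : IsWeight H w')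
    {F f : X → ℝ≥0∞} (hF : Measurable F) (hFinv : ∀ (g : G) x, F (g • x) = F x)
    (hf : Measurable f) (hfinv : ∀ (h : H) x, f (h • x) = f x) :
    ∫⁻ x, w x * (F x * ∑' q : G ⧸ H, f (q.out⁻¹ • x)) ∂μ = ∫⁻ x, w' x * (F x * f x) ∂μ := by
  haveI : SMulInvariantMeasure H X μ :=
    ⟨fun h s hs ↦ measure_preimage_smul μ (h : G) s⟩
  haveI : MeasurableConstSMul H X := ⟨fun h ↦ measurable_const_smul (h : G)⟩
  haveI : Countable (G ⧸ H) := Quotient.countable
  have hm : ∀ q : G ⧸ H, Measurable fun x ↦ w x * (F x * f (q.out⁻¹ • x)) := fun q ↦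
    hw.measurable.mul (hF.mul (hf.comp (measurable_const_smul _)))
  rw [hw'.lintegral_eq (hw.cosetWeight H) (f := fun x ↦ F x * f x) (hF.mul hf) fun h x ↦ by
    rw [hfinv, Subgroup.smul_def, hFinv]]
  simp only [← ENNReal.tsum_mul_left]
  rw [lintegral_tsum fun q ↦ (hm q).aemeasurable]
  simp only [RS.cosetWeight, ← ENNReal.tsum_mul_right]
  have hm' : ∀ q : G ⧸ H, Measurable fun x ↦ w (q.out • x) * (F x * f x) := fun q ↦
    (hw.measurable.comp (measurable_const_smul _)).mul (hF.mul hf)
  rw [lintegral_tsum fun q ↦ (hm' q).aemeasurable]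
  refine tsum_congr fun q ↦ ?_
  rw [← lintegral_comp_smul q.out (hm q)]
  exact lintegral_congr fun x ↦ by simp [hFinv]

/-- Changing variables by a measure preserving map which intertwines two groups. -/
theorem IsWeight.comp_equiv {G' : Type*} [Group G'] [MulAction G' X] {w : X → ℝ≥0∞}
    (hw : IsWeight G w) (φ : G' ≃* G) {e : X → X} (he : Measurable e)
    (hint : ∀ (g : G') x, e (g • x) = φ g • e x) : IsWeight G' (w ∘ e) where
  measurable := hw.measurable.comp he
  sum_one x := by
    simp only [Function.comp_apply, hint]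
    rw [← hw.sum_one (e x)]
    exact φ.toEquiv.tsum_eq fun g : G ↦ w (g • e x)

/-- The finite measure `w μ`. -/
def wMeasure (μ : Measure X) (w : X → ℝ≥0∞) : Measure X := μ.withDensity w

theorem lintegral_wMeasure {w : X → ℝ≥0∞} (hw : Measurable w) {f : X → ℝ≥0∞}
    (hf : Measurable f) : ∫⁻ x, f x ∂wMeasure μ w = ∫⁻ x, w x * f x ∂μ := by
  rw [wMeasure, lintegral_withDensity_eq_lintegral_mul _ hw hf]
  rfl

/-- Bochner version for real functions: two measures agreeing on the positive parts. -/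
theorem integral_congr_of_lintegral {μ₁ μ₂ : Measure X} {c : ℝ≥0∞} (hc : c ≠ ⊤) {f : X → ℂ}
    (hf : Measurable f) (hi : Integrable f μ₂)
    (h : ∀ φ : ℂ → ℝ≥0∞, Measurable φ → ∫⁻ x, φ (f x) ∂μ₁ = c * ∫⁻ x, φ (f x) ∂μ₂) :
    Integrable f μ₁ ∧ ∫ x, f x ∂μ₁ = (c.toReal : ℂ) * ∫ x, f x ∂μ₂ := by
  have hi1 : Integrable f μ₁ := by
    refine ⟨hf.aestronglyMeasurable, ?_⟩
    rw [hasFiniteIntegral_iff_norm, h (fun z ↦ ENNReal.ofReal ‖z‖) (by fun_prop)]
    exact ENNReal.mul_lt_top (lt_top_iff_ne_top.2 hc) (hasFiniteIntegral_iff_norm _ |>.1 hi.2)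
  refine ⟨hi1, ?_⟩
  have key : ∀ ψ : ℂ →L[ℝ] ℝ, ∫ x, ψ (f x) ∂μ₁ = c.toReal * ∫ x, ψ (f x) ∂μ₂ := by
    intro ψ
    rw [integral_eq_lintegral_pos_part_sub_lintegral_neg_part (ψ.integrable_comp hi1),
      integral_eq_lintegral_pos_part_sub_lintegral_neg_part (ψ.integrable_comp hi),
      h (fun z ↦ ENNReal.ofReal (ψ z)) (by fun_prop),
      h (fun z ↦ ENNReal.ofReal (-ψ z)) (by fun_prop)]
    simp only [ENNReal.toReal_mul]
    ring
  apply Complex.ext
  · have := key Complex.reCLM
    simp only [Complex.reCLM_apply] at this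
    rw [Complex.re_ofReal_mul]
    have e1 := integral_re hi
    have e2 := integral_re hi1
    simp only [RCLike.re_to_complex] at e1 e2
    rwa [← e1, ← e2]
  · have := key Complex.imCLM
    simp only [Complex.imCLM_apply] at this
    rw [Complex.im_ofReal_mul]
    have e1 := integral_im hi
    have e2 := integral_im hi1
    simp only [RCLike.im_to_complex] at e1 e2
    rwa [← e1, ← e2]

/-- Bochner integrals of invariant functions do not depend on the weight. -/
theorem IsWeight.integral_eq {w w' : X → ℝ≥0∞} (hw : IsWeight G w) (hw' : IsWeight G w')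
    {f : X → ℂ} (hf : Measurable f) (hinv : ∀ (g : G) x, f (g • x) = f x)
    (hi : Integrable f (wMeasure μ w')) :
    Integrable f (wMeasure μ w) ∧ ∫ x, f x ∂wMeasure μ w = ∫ x, f x ∂wMeasure μ w' := by
  have h := integral_congr_of_lintegral ENNReal.one_ne_top hf hi (μ₁ := wMeasure μ w)
    fun φ hφ ↦ by
      have hm : Measurable fun x ↦ φ (f x) := hφ.comp hf
      rw [lintegral_wMeasure hw.measurable hm, one_mul, lintegral_wMeasure hw'.measurable hm]
      exact hw.lintegral_eq hw' (hφ.comp hf) fun g x ↦ by simp [hinv]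
  exact ⟨h.1, by simpa using h.2⟩

/-- Bochner integrals for a subgroup of finite index. -/
theorem IsWeight.integral_subgroup {w : X → ℝ≥0∞} (hw : IsWeight G w) (H : Subgroup G)
    [Finite (G ⧸ H)] {w' : X → ℝ≥0∞} (hw' : IsWeight H w') {f : X → ℂ} (hf : Measurable f)
    (hinv : ∀ (g : G) x, f (g • x) = f x) (hi : Integrable f (wMeasure μ w)) :
    Integrable f (wMeasure μ w') ∧
      ∫ x, f x ∂wMeasure μ w' = (Nat.card (G ⧸ H) : ℂ) * ∫ x, f x ∂wMeasure μ w := by
  have h := integral_congr_of_lintegral (ENNReal.natCast_ne_top (Nat.card (G ⧸ H))) hf hi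
    (μ₁ := wMeasure μ w') fun φ hφ ↦ by
      have hm : Measurable fun x ↦ φ (f x) := hφ.comp hf
      rw [lintegral_wMeasure hw'.measurable hm, lintegral_wMeasure hw.measurable hm]
      exact hw.lintegral_subgroup H hw' (hφ.comp hf) fun g x ↦ by simp [hinv]
  exact ⟨h.1, by simpa using h.2⟩

end FLTAgent.LT.RS
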