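import Fermat.Agent.LT.RS.CoefDiag
import Fermat.Agent.LT.RS.Radial
import Fermat.Agent.LT.TF.Action

/-!
The dependence of the Fourier coefficients of a cusp form on the heights: a product over the
infinite places of one fixed radial mode.
-/

set_option autoImplicit false

noncomputable section

namespace FLTAgent.LT.RS

open NumberField MeasureTheory Set Complex
open FLTAgent.LT.Theta31 (echar)
open scoped Real

/-! ### Balls and translations in upper half space -/

theorem isCompact_coshBall (p : H3) (R : ℝ) : IsCompact {q : H3 | coshDist p q ≤ R} := by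
  rcases lt_or_ge R 1 with hR | hR
  · convert isCompact_empty
    exact eq_empty_of_forall_notMem fun q hq ↦ by
      have := Hyp.one_le_coshDist p q
      exact absurd hq (not_le.2 (hR.trans_le this))
  have ht : (0 : ℝ) < p.2 := p.2.2
  set K := Hyp.emb ⁻¹' ((Metric.closedBall p.1 (3 * R * (p.2 : ℝ))) ×ˢ
    Icc ((p.2 : ℝ) / (2 * R)) (2 * R * (p.2 : ℝ)))
  have hK : IsCompact K := by
    refine (Topology.IsEmbedding.id.prodMap
      Topology.IsEmbedding.subtypeVal).isInducing.isCompact_preimage'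
      ((isCompact_closedBall _ _).prod isCompact_Icc) ?_
    rintro ⟨z, t⟩ ⟨-, h1⟩
    exact ⟨(z, ⟨t, lt_of_lt_of_le (by positivity) h1.1⟩), rfl⟩
  refine hK.of_isClosed_subset (isClosed_le (Hyp.continuous_coshDist.comp
    (continuous_const.prodMk continuous_id)) continuous_const) fun q hq ↦ ?_
  have hq2 : (0 : ℝ) < q.2 := q.2.2
  have h : Complex.normSq (p.1 - q.1) + ((p.2 : ℝ) - q.2) ^ 2 ≤ (R - 1) * (2 * p.2 * q.2) := by
    rw [← div_le_iff₀ (by positivity)]
    simp only [mem_ofPred_eq, coshDist] at hq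
    linarith
  have hn := Complex.normSq_nonneg (p.1 - q.1)
  have hhi : (q.2 : ℝ) ≤ 2 * R * p.2 := by
    nlinarith [sq_nonneg ((p.2 : ℝ) - q.2), sq_nonneg (p.2 : ℝ)]
  have hlo : (p.2 : ℝ) / (2 * R) ≤ q.2 := by
    rw [div_le_iff₀ (by positivity)]
    nlinarith [sq_nonneg ((p.2 : ℝ) - q.2), sq_nonneg (q.2 : ℝ)]
  refine ⟨?_, hlo, hhi⟩
  rw [Metric.mem_closedBall, dist_comm, dist_eq_norm]
  refine abs_norm (p.1 - q.1) ▸ abs_le_of_sq_le_sq ?_ (by positivity)
  rw [← Complex.normSq_eq_norm_sq]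
  show Complex.normSq (p.1 - q.1) ≤ _
  have h3 : (R - 1) * (2 * (p.2 : ℝ) * q.2) ≤ R * (2 * p.2 * (2 * R * p.2)) := by
    refine mul_le_mul (by linarith) ?_ (by positivity) (by linarith)
    exact mul_le_mul_of_nonneg_left hhi (by positivity)
  nlinarith [sq_nonneg ((p.2 : ℝ) - q.2), sq_nonneg ((p.2 : ℝ) * R)]

theorem exists_compact_support {H : ℝ → ℂ} (hs : HasCompactSupport H) (p : H3) :
    ∃ K : Set H3, IsCompact K ∧ ∀ q ∉ K, H (coshDist p q) = 0 := by
  obtain ⟨R, hR⟩ := hs.bddAbove
  refine ⟨_, isCompact_coshBall p R, fun q hq ↦ ?_⟩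
  by_contra h
  exact hq (hR (subset_tsupport _ h))

/-- The translation by `b`. -/
abbrev translC (b : ℂ) : GL (Fin 2) ℂ := Hyp.upperC 1 b 1 one_ne_zero one_ne_zero

theorem act_translC (b : ℂ) (p : H3) : act (translC b) p = (p.1 + b, p.2) := by
  refine Hyp.measurableEmbedding_emb.injective ((Hyp.act_upperC _ _ _ _ _ p).trans ?_)
  simp [Hyp.emb]

theorem act_scaleC {a : ℂ} (ha : a ≠ 0) (p : H3) :
    act (Hyp.upperC a 0 1 ha one_ne_zero) p =
      (a * p.1, ⟨‖a‖ * p.2, mul_pos (norm_pos_iff.2 ha) p.2.2⟩) := by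
  refine Hyp.measurableEmbedding_emb.injective ((Hyp.act_upperC _ _ _ _ _ p).trans ?_)
  simp [Hyp.emb]

/-! ### Rescaling modes -/

theorem MVMode.scale {c : ℝ} {K : ℝ → ℂ} (h : MVMode c 0 K) {a : ℂ} (ha : a ≠ 0) :
    MVMode (c * a.re) (-(c * a.im)) fun s ↦ K (‖a‖ * s) where
  cont := h.cont.comp (continuous_const.mul continuous_id).continuousOn
    fun s hs ↦ mul_pos (norm_pos_iff.2 ha) hs
  bdd := by
    obtain ⟨C, hC⟩ := h.bdd
    exact ⟨C, fun t ht ↦ hC _ (mul_pos (norm_pos_iff.2 ha) ht)⟩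
  mean p H hH hHs := by
    set g := Hyp.upperC a 0 1 ha one_ne_zero
    have hw : ∀ q : H3, waveChar (c * a.re) (-(c * a.im)) q.1 * K (‖a‖ * q.2) =
        waveChar c 0 (act g q).1 * K (act g q).2 := fun q ↦ by
      rw [act_scaleC ha]
      simp only [waveChar, Complex.mul_re, zero_mul, add_zero]
      congr 3
      push_cast
      ring
    show ∫ q, H (coshDist p q) * (waveChar _ _ q.1 * K (‖a‖ * q.2)) ∂hypMeasure = _
    have key := h.mean (act g p) H hH hHs
    rw [← Hyp.integral_act g] at key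
    simpa only [Hyp.coshDist_act, ← hw] using key

theorem MVMode.const_mul {α β : ℝ} {K : ℝ → ℂ} (h : MVMode α β K) (c : ℂ) :
    MVMode α β fun s ↦ c * K s where
  cont := continuousOn_const.mul h.cont
  bdd := by
    obtain ⟨C, hC⟩ := h.bdd
    exact ⟨‖c‖ * C, fun t ht ↦ by
      rw [norm_mul]; exact mul_le_mul_of_nonneg_left (hC t ht) (norm_nonneg c)⟩
  mean p H hH hHs := by
    rw [show sphInt H * (waveChar α β p.1 * (c * K p.2)) =
      c * (sphInt H * (waveChar α β p.1 * K p.2)) by ring, ← h.mean p H hH hHs,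
      ← integral_const_mul]
    exact integral_congr_ae (Filter.Eventually.of_forall fun q ↦ by ring)

theorem MVMode.zero (α β : ℝ) : MVMode α β fun _ ↦ (0 : ℂ) :=
  ⟨continuousOn_const, ⟨0, by simp⟩, by simp⟩

/-! ### Coefficients as modes -/

variable {F : Type*} [Field F] [NumberField F]

/-- The coefficient as a function of the height at one place. -/
def modeFun (φ : Form F) (g : GF F) (ξ : F) (t : Tinf F) (w : InfinitePlace F) (s : ℝ) : ℂ :=
  open Classical in
  if h : 0 < s then wh φ g ξ (Function.update t w ⟨s, h⟩) else 0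

theorem modeFun_apply (φ : Form F) (g : GF F) (ξ : F) (t : Tinf F) (w : InfinitePlace F)
    (s : Ioi (0 : ℝ)) :
    modeFun φ g ξ t w s =
      (open Classical in wh φ g ξ (Function.update t w s)) := by
  classical exact dif_pos s.2

/-- The first horizontal frequency at a place. -/
def freqA (ξ : F) (w : InfinitePlace F) : ℝ := 4 * π * (w.embedding ξ).re

/-- The second horizontal frequency at a place. -/
def freqB (ξ : F) (w : InfinitePlace F) : ℝ := -(4 * π * (w.embedding ξ).im)

variable [IsTotallyComplex F]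

theorem waveChar_eq_trChar [DecidableEq (InfinitePlace F)] (ξ : F) (w : InfinitePlace F) (z : ℂ) :
    waveChar (freqA ξ w) (freqB ξ w) z = trChar ξ (Pi.single w z) := by
  have e : trPair ξ (Pi.single w z) = 2 * (w.embedding ξ * z).re := by
    rw [trPair, Finset.sum_eq_single w (fun v _ hv ↦ by simp [hv]) (by simp), Pi.single_eq_same]
  simp only [waveChar, trChar, e, freqA, freqB, Complex.mul_re]
  congr 2
  push_cast
  ring

theorem continuous_periodFun_pair {φ : Form F} {g : GF F} (hc : Continuous fun x ↦ φ x g) (m : ℕ)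
    (k : Idx F → ℤ) {P : Type*} [TopologicalSpace P] {x : P → Xinf F} (hx : Continuous x) :
    Continuous fun p : P × (Idx F → ℝ) ↦
      echar (-k) p.2 * φ (translate (boxVec m p.2) (x p.1)) g := by
  refine ((continuous_echar _).comp continuous_snd).mul (hc.comp (continuous_pi fun w ↦ ?_))
  simp only [translate]
  refine Continuous.prodMk ?_ ((continuous_apply w).snd.comp (hx.comp continuous_fst))
  exact ((continuous_apply w).fst.comp (hx.comp continuous_fst)).add
    ((continuous_apply w).comp ((continuous_boxVec m).comp continuous_snd))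

/-- The coefficient is a mode at each place. -/
theorem mvMode_modeFun {φ : Form F} {g : GF F} (hc : Continuous fun x ↦ φ x g)
    (hb : ∃ C, ∀ x g, ‖φ x g‖ ≤ C) (he : ZeroEigen φ) (ξ : F) (t : Tinf F) (w : InfinitePlace F) :
    MVMode (freqA ξ w) (freqB ξ w) (modeFun φ g ξ t w) := by
  classical
  by_cases hex : ∃ m, HasPeriod φ g m ∧ IsDual m ξ
  swap
  · have : modeFun φ g ξ t w = fun _ ↦ 0 := funext fun s ↦ by
      rw [modeFun]
      split_ifs
      · exact wh_eq_zero_of_forall (fun m h1 h2 ↦ hex ⟨m, h1, h2⟩) _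
      · rfl
    rw [this]; exact .zero _ _
  obtain ⟨m, hm, hd⟩ := hex
  obtain ⟨C, hC⟩ := hb
  have hC0 : 0 ≤ C := (norm_nonneg _).trans (hC (ptX 0 t) g)
  set k := kvec m ξ
  set μ := volume.restrict (boxSet (Idx F))
  have : IsFiniteMeasure μ := ⟨by simp [μ, volume_boxSet]⟩
  have hwh : ∀ T, wh φ g ξ T = ∫ y, echar (-k) y * φ (ptX (boxVec m y) T) g ∂μ := fun T ↦ by
    rw [← xiOf_kvec hm.pos hd, ← fc_periodFun_eq_wh hc hm, fc]; rfl
  have hbd : ∀ (y : Idx F → ℝ) (x : Xinf F), ‖echar (-k) y * φ x g‖ ≤ C := fun y x ↦ by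
    rw [norm_mul, norm_echar', one_mul]; exact hC x g
  have hu : ∀ s : Ioi (0 : ℝ), modeFun φ g ξ t w s = wh φ g ξ (Function.update t w s) :=
    fun s ↦ by rw [modeFun_apply]
  set x0 : Xinf F := ptX 0 t
  have hupd : Continuous fun q : H3 ↦ Function.update x0 w q :=
    (continuous_const.update w continuous_id)
  -- the wave form of the coefficient
  have hwave : ∀ q : H3, waveChar (freqA ξ w) (freqB ξ w) q.1 * modeFun φ g ξ t w q.2 =
      ∫ y, echar (-k) y * φ (translate (boxVec m y) (Function.update x0 w q)) g ∂μ := by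
    intro q
    rw [hu]
    set a : Idx F → ℝ := (boxEquiv F).symm fun v ↦ (Pi.single w q.1 : InfinitePlace F → ℂ) v / (m : ℂ)
    have hba : boxVec m a = Pi.single w q.1 := by
      rw [boxVec_eq_smul, ← boxEquiv_apply, LinearEquiv.apply_symm_apply]
      funext v
      simp only [Pi.smul_apply, Complex.real_smul, Complex.ofReal_natCast]
      rw [mul_div_cancel₀ _ (Nat.cast_ne_zero.2 hm.pos.ne')]
    have h1 := fc_shift (zperiodic_periodFun hc hm (Function.update t w q.2)) a k
    rw [echar_kvec hd, hba, ← waveChar_eq_trChar, fc_periodFun_eq_wh hc hm,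
      xiOf_kvec hm.pos hd] at h1
    rw [← h1, fc]
    refine setIntegral_congr_fun measurableSet_boxSet fun y _ ↦ ?_
    congr 1
    show φ (ptX (boxVec m (y + a)) _) g = _
    congr 1
    rw [boxVec_add, hba]
    funext v
    rcases eq_or_ne v w with rfl | hv
    · simp [ptX, translate, x0, add_comm]
    · simp [ptX, translate, x0, hv]
  refine ⟨?_, ⟨C, fun s hs ↦ ?_⟩, fun p H hH hHs ↦ ?_⟩
  · rw [continuousOn_iff_continuous_domRestrict]
    have e : (Ioi (0 : ℝ)).domRestrict (modeFun φ g ξ t w) =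
        fun s ↦ ∫ y, echar (-k) y * φ (ptX (boxVec m y) (Function.update t w s)) g ∂μ :=
      funext fun s ↦ by rw [domRestrict_apply, hu, hwh]
    rw [e]
    have hcs : ∀ (s : Ioi (0 : ℝ)), Continuous fun y ↦
        echar (-k) y * φ (ptX (boxVec m y) (Function.update t w s)) g := fun s ↦
      (continuous_echar _).mul (continuous_periodFun hc m _)
    refine continuous_of_dominated (fun s ↦ (hcs s).aestronglyMeasurable)
      (fun s ↦ Filter.Eventually.of_forall fun y ↦ hbd y _) (integrable_const C) ?_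
    refine Filter.Eventually.of_forall fun y ↦ continuous_const.mul (hc.comp ?_)
    have hu' : Continuous fun s : Ioi (0 : ℝ) ↦ Function.update t w s :=
      continuous_const.update w continuous_id
    exact continuous_pi fun v ↦ continuous_const.prodMk ((continuous_apply v).comp hu')
  · rw [show s = ((⟨s, hs⟩ : Ioi (0 : ℝ)) : ℝ) from rfl, hu]
    exact norm_wh_le hc hC0 (fun x ↦ hC x g) _ _
  · simp only [hwave]
    obtain ⟨K, hK, hK0⟩ := exists_compact_support hHs p
    obtain ⟨B, hB⟩ := hHs.exists_bound_of_continuous hH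
    set G : H3 → (Idx F → ℝ) → ℂ := fun q y ↦
      H (coshDist p q) * (echar (-k) y * φ (translate (boxVec m y) (Function.update x0 w q)) g)
    have hG : Continuous (Function.uncurry G) :=
      ((hH.comp (Hyp.continuous_coshDist.comp (continuous_const.prodMk continuous_id))).comp
        continuous_fst).mul (continuous_periodFun_pair hc m k hupd)
    have : SigmaFinite hypMeasure := sigmaFinite_hypMeasure
    have hint : Integrable (Function.uncurry G) (hypMeasure.prod μ) := by
      have h1 : Integrable (fun q : H3 ↦ K.indicator (fun _ ↦ B * C) q) hypMeasure :=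
        (integrable_indicator_iff hK.measurableSet).2 (integrableOn_const hK.measure_lt_top.ne)
      have h2 := h1.mul_prod (ν := μ) (integrable_const (1 : ℝ))
      refine h2.mono' hG.aestronglyMeasurable (Filter.Eventually.of_forall fun z ↦ ?_)
      simp only [Function.uncurry, G, mul_one]
      by_cases hz : z.1 ∈ K
      · rw [indicator_of_mem hz, norm_mul]
        exact mul_le_mul (hB _) (hbd _ _) (norm_nonneg _) ((norm_nonneg _).trans (hB 0))
      · rw [indicator_of_notMem hz, hK0 _ hz, zero_mul, norm_zero]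
    calc ∫ q, H (coshDist p q) *
          ∫ y, echar (-k) y * φ (translate (boxVec m y) (Function.update x0 w q)) g ∂μ ∂hypMeasure
        = ∫ q, ∫ y, G q y ∂μ ∂hypMeasure := by simp only [G, integral_const_mul]
      _ = ∫ y, ∫ q, G q y ∂hypMeasure ∂μ := integral_integral_swap hint
      _ = ∫ y, sphInt H *
            (echar (-k) y * φ (translate (boxVec m y) (Function.update x0 w p)) g) ∂μ := by
        refine integral_congr_ae (Filter.Eventually.of_forall fun y ↦ ?_)
        set b := boxVec m y w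
        set x1 : Xinf F := translate (boxVec m y) (Function.update x0 w p)
        have hxw : x1 w = act (translC b) p := by simp [x1, translate, act_translC, b]
        have hq : ∀ q : H3, translate (boxVec m y) (Function.update x0 w q) =
            Function.update x1 w (act (translC b) q) := fun q ↦ by
          funext v
          rcases eq_or_ne v w with rfl | hv
          · simp [translate, act_translC, b]
          · simp [x1, translate, hv]
        have hE : ∫ q, H (coshDist (x1 w) q) * φ (Function.update x1 w q) g ∂hypMeasure =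
            sphInt H * φ x1 g := by
          simpa only [sphInt] using he w x1 g H hH hHs
        rw [← Hyp.integral_act (translC b), hxw] at hE
        simp only [Hyp.coshDist_act, ← hq] at hE
        simp only [G]
        rw [show sphInt H * (echar (-k) y * φ x1 g) = echar (-k) y * (sphInt H * φ x1 g) by ring,
          ← hE, ← integral_const_mul]
        exact integral_congr_ae (Filter.Eventually.of_forall fun q ↦ by ring)
      _ = _ := integral_const_mul _ _

/-! ### The reference mode -/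

/-- A radial mode of frequency `4π`, nonzero at `t0`. -/
structure RefMode (K : ℝ → ℂ) (t0 : ℝ) : Prop where
  mode : MVMode (4 * π) 0 K
  pos : 0 < t0
  ne : K t0 ≠ 0

theorem RefMode.exists_decay {K : ℝ → ℂ} {t0 : ℝ} (hK : RefMode K t0) :
    ∃ C c, 0 < c ∧ 0 ≤ C ∧ ∀ t, 0 < t → ‖K t‖ ≤ C * Real.exp (-(c * t)) :=
  hK.mode.exists_decay (by positivity)

theorem freq_sq_pos {ξ : F} (hξ : ξ ≠ 0) (w : InfinitePlace F) :
    0 < freqA ξ w ^ 2 + freqB ξ w ^ 2 := by
  have h : 0 < Complex.normSq (w.embedding ξ) := Complex.normSq_pos.2 ((map_ne_zero _).2 hξ)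
  have := mul_pos (pow_pos (by positivity : (0 : ℝ) < 4 * π) 2) h
  simp only [freqA, freqB, Complex.normSq_apply] at *
  linarith

/-- Cusp forms produce a reference mode. -/
theorem exists_refMode {φ : Form F} {N : ℕ} (hN : 0 < N) (hφ : CuspZero N φ) {x : Xinf F}
    {g : GF F} (hx : φ x g ≠ 0) : ∃ K t0, RefMode K t0 := by
  classical
  obtain ⟨m, hm⟩ := exists_hasPeriod hN hφ.aut g
  obtain ⟨k, hk⟩ := exists_wh_ne_zero (hφ.cont g) hm hx
  set ξ := xiOf (F := F) m k
  have hξ : ξ ≠ 0 := fun h ↦ hk (by rw [h]; exact wh_zero (hφ.cont g) hφ.cusp _)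
  obtain ⟨w⟩ : Nonempty (InfinitePlace F) := inferInstance
  set a := w.embedding ξ
  have ha : a ≠ 0 := (map_ne_zero _).2 hξ
  set t : Tinf F := fun v ↦ (x v).2
  set u := modeFun φ g ξ t w
  have hu := mvMode_modeFun (hφ.cont g) hφ.bdd hφ.eigen ξ t w
  refine ⟨fun s ↦ u (‖a⁻¹‖ * s), ‖a‖ * t w, ?_, mul_pos (norm_pos_iff.2 ha) (t w).2, ?_⟩
  · refine ⟨hu.cont.comp (continuous_const.mul continuous_id).continuousOn
      fun s hs ↦ mul_pos (norm_pos_iff.2 (inv_ne_zero ha)) hs, ?_, fun p H hH hHs ↦ ?_⟩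
    · obtain ⟨C, hC⟩ := hu.bdd
      exact ⟨C, fun s hs ↦ hC _ (mul_pos (norm_pos_iff.2 (inv_ne_zero ha)) hs)⟩
    set e := Hyp.upperC a⁻¹ 0 1 (inv_ne_zero ha) one_ne_zero
    have hw : ∀ q : H3, waveChar (4 * π) 0 q.1 * u (‖a⁻¹‖ * q.2) =
        waveChar (freqA ξ w) (freqB ξ w) (act e q).1 * u (act e q).2 := fun q ↦ by
      rw [act_scaleC (inv_ne_zero ha)]
      congr 1
      simp only [waveChar, freqA, freqB]
      congr 3
      have h1 : (a * (a⁻¹ * q.1)).re = q.1.re := by rw [mul_inv_cancel_left₀ ha]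
      rw [Complex.mul_re] at h1
      rw [← h1]
      ring
    show ∫ q, H (coshDist p q) * (waveChar _ _ q.1 * u (‖a⁻¹‖ * q.2)) ∂hypMeasure = _
    have key := hu.mean (act e p) H hH hHs
    rw [← Hyp.integral_act e] at key
    simp only [Hyp.coshDist_act] at key
    simpa only [hw] using key
  · show u (‖a⁻¹‖ * (‖a‖ * t w)) ≠ 0
    rw [norm_inv, inv_mul_cancel_left₀ (norm_ne_zero_iff.2 ha),
      show u (t w) = modeFun φ g ξ t w (t w) from rfl, modeFun_apply]
    simpa using hk

/-- The heights at which the mode has argument `t0`. -/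
def refT {t0 : ℝ} (h0 : 0 < t0) {ξ : F} (hξ : ξ ≠ 0) : Tinf F := fun w ↦
  ⟨t0 / w ξ, div_pos h0 (w.pos_iff.2 hξ)⟩

/-- The arithmetic coefficient. -/
def coefA (φ : Form F) (K : ℝ → ℂ) (t0 : ℝ) (g : GF F) (ξ : F) : ℂ :=
  open Classical in
  if h : 0 < t0 ∧ ξ ≠ 0 then wh φ g ξ (refT h.1 h.2) / K t0 ^ Fintype.card (InfinitePlace F) else 0

/-- The value of the modes. -/
def modeProd (K : ℝ → ℂ) (ξ : F) (t : Tinf F) : ℂ := ∏ w, K (w ξ * t w)

theorem modeProd_refT (K : ℝ → ℂ) {t0 : ℝ} (h0 : 0 < t0) {ξ : F} (hξ : ξ ≠ 0) :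
    modeProd K ξ (refT h0 hξ) = K t0 ^ Fintype.card (InfinitePlace F) := by
  rw [modeProd, ← Finset.card_univ, ← Finset.prod_const]
  refine Finset.prod_congr rfl fun w _ ↦ ?_
  show K (w ξ * (t0 / w ξ)) = _
  rw [mul_div_cancel₀ _ (w.pos_iff.2 hξ).ne']

/-- The coefficient factors. -/
theorem wh_eq_coefA_mul {φ : Form F} {g : GF F} (hc : Continuous fun x ↦ φ x g)
    (hb : ∃ C, ∀ x g, ‖φ x g‖ ≤ C) (he : ZeroEigen φ) {K : ℝ → ℂ} {t0 : ℝ} (hK : RefMode K t0)
    {ξ : F} (hξ : ξ ≠ 0) (t : Tinf F) :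
    wh φ g ξ t = coefA φ K t0 g ξ * modeProd K ξ t := by
  classical
  set r := refT hK.pos hξ
  have key : ∀ S : Finset (InfinitePlace F), ∀ T : Tinf F, (∀ w ∉ S, T w = r w) →
      wh φ g ξ T = wh φ g ξ r * ∏ w ∈ S, (K (w ξ * T w) / K t0) := by
    intro S
    induction S using Finset.induction_on with
    | empty => intro T hT; simp [funext fun w ↦ hT w (Finset.notMem_empty w)]
    | insert w S hw ih =>
      intro T hT
      set T' := Function.update T w (r w)
      have hT' : ∀ v ∉ S, T' v = r v := fun v hv ↦ by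
        rcases eq_or_ne v w with rfl | hvw
        · simp [T']
        · simp [T', hvw, hT v (by simp [hv, hvw])]
      have hwξ : (0 : ℝ) < w ξ := w.pos_iff.2 hξ
      have hu := mvMode_modeFun hc hb he ξ T w
      have hs := hK.mode.scale (a := w.embedding ξ) ((map_ne_zero _).2 hξ)
      have hprop := hu.proportional (by simpa [freqA, freqB] using hs)
        (freq_sq_pos hξ w) (r w).2
        (show K (‖w.embedding ξ‖ * r w) ≠ 0 by
          rw [InfinitePlace.norm_embedding_eq]
          show K (w ξ * (t0 / w ξ)) ≠ 0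
          rw [mul_div_cancel₀ _ hwξ.ne']; exact hK.ne) (T w).2
      simp only [modeFun_apply, Function.update_eq_self,
        InfinitePlace.norm_embedding_eq] at hprop
      rw [hprop, ih T' hT', Finset.prod_insert hw]
      have e1 : K (w ξ * r w) = K t0 := by
        show K (w ξ * (t0 / w ξ)) = _
        rw [mul_div_cancel₀ _ hwξ.ne']
      have e2 : ∏ v ∈ S, (K (v ξ * T' v) / K t0) = ∏ v ∈ S, (K (v ξ * T v) / K t0) :=
        Finset.prod_congr rfl fun v hv ↦ by
          rw [show T' v = T v from Function.update_of_ne (ne_of_mem_of_not_mem hv hw) _ _]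
      rw [e1, e2]
      ring
  rw [key Finset.univ t (by simp), coefA, dif_pos ⟨hK.pos, hξ⟩, modeProd, Finset.prod_div_distrib,
    Finset.prod_const, Finset.card_univ]
  ring

/-- Coefficients are bounded. -/
theorem exists_coefA_bound {φ : Form F} (hc : ∀ g, Continuous fun x ↦ φ x g)
    (hb : ∃ C, ∀ x g, ‖φ x g‖ ≤ C) (K : ℝ → ℂ) (t0 : ℝ) :
    ∃ C, 0 ≤ C ∧ ∀ g ξ, ‖coefA φ K t0 g ξ‖ ≤ C := by
  obtain ⟨C, hC⟩ := hb
  refine ⟨|C| / ‖K t0 ^ Fintype.card (InfinitePlace F)‖, by positivity, fun g ξ ↦ ?_⟩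
  rw [coefA]
  split_ifs with h
  · rw [norm_div]
    gcongr
    exact norm_wh_le (hc g) (abs_nonneg C) (fun x ↦ (hC x g).trans (le_abs_self C)) _ _
  · simp; positivity

/-- Equivariance of the arithmetic coefficient under `diag(η, 1)`. -/
theorem coefA_diag_mul {φ : Form F} {N : ℕ} (hN : 0 < N) (hφ : CuspZero N φ) {K : ℝ → ℂ} {t0 : ℝ}
    (hK : RefMode K t0) (η : Fˣ) (g : GF F) {ξ : F} (hξ : ξ ≠ 0) :
    coefA φ K t0 (toFin (diagF η) * g) ξ = coefA φ K t0 g (ξ * η) := by
  set t := refT hK.pos (mul_ne_zero hξ η.ne_zero)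
  have h := wh_diag_mul hN hφ.aut (hφ.cont g) η ξ t
  rw [wh_eq_coefA_mul (hφ.cont _) hφ.bdd hφ.eigen hK hξ,
    wh_eq_coefA_mul (hφ.cont _) hφ.bdd hφ.eigen hK (mul_ne_zero hξ η.ne_zero)] at h
  have e : modeProd K ξ (scaleT η t) = modeProd K (ξ * η) t :=
    Finset.prod_congr rfl fun w _ ↦ by simp [scaleT, map_mul, mul_assoc]
  rw [e] at h
  refine mul_right_cancel₀ ?_ h
  rw [modeProd_refT]
  exact pow_ne_zero _ hK.ne

end FLTAgent.LT.RS
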