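import Fermat.Agent.LT.RS.BasePoint
import Fermat.Agent.LT.RS.Mode

/-!
The mean square bound of the Hecke eigenvalues of a cusp form, from Parseval on horospheres: the
coefficients are cut into cells of balanced frequencies, each of bounded mass.
-/

set_option autoImplicit false

noncomputable section

namespace FLTAgent.LT.RS

open NumberField IsDedekindDomain MeasureTheory Set
open scoped Real

variable {F : Type*} [Field F] [NumberField F]

local notation "HS" => HeightOneSpectrum (𝓞 F)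

theorem RefMode.exists_window {K : ℝ → ℂ} {t0 : ℝ} (hK : RefMode K t0) :
    ∃ h δ : ℝ, 0 < h ∧ 0 < δ ∧ ∀ s ∈ Icc t0 (t0 * Real.exp h), δ ≤ ‖K s‖ := by
  have hc : ContinuousAt K t0 := hK.mode.cont.continuousAt (Ioi_mem_nhds hK.pos)
  have hn : 0 < ‖K t0‖ := norm_pos_iff.2 hK.ne
  obtain ⟨ε, hε, hb⟩ := Metric.continuousAt_iff.1 hc (‖K t0‖ / 2) (by positivity)
  have h1 : 1 < 1 + ε / (2 * t0) := lt_add_of_pos_right 1 (by have := hK.pos; positivity)
  refine ⟨Real.log (1 + ε / (2 * t0)), ‖K t0‖ / 2, Real.log_pos h1, by positivity, fun s hs ↦ ?_⟩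
  rw [Real.exp_log (zero_lt_one.trans h1)] at hs
  have hd : dist s t0 < ε := by
    rw [Real.dist_eq, abs_of_nonneg (sub_nonneg.2 hs.1)]
    have := hs.2
    rw [mul_add, mul_one, show t0 * (ε / (2 * t0)) = ε / 2 by
      field_simp [hK.pos.ne']] at this
    linarith
  have h2 : ‖K s - K t0‖ < ‖K t0‖ / 2 := by simpa [dist_eq_norm] using hb hd
  have := norm_sub_norm_le (K t0) (K s)
  rw [norm_sub_rev] at this
  linarith

/-- One cell of frequencies carries bounded mass. -/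
theorem sum_cell_le [IsTotallyComplex F] {φ : Form F} {g : GF F}
    (hc : Continuous fun x ↦ φ x g) {B : ℝ} (hB : ∀ x g, ‖φ x g‖ ≤ B) (he : ZeroEigen φ) {m : ℕ}
    (hm : HasPeriod φ g m) {K : ℝ → ℂ} {t0 : ℝ} (hK : RefMode K t0) {h δ : ℝ} (hδ : 0 < δ)
    (hwin : ∀ s ∈ Icc t0 (t0 * Real.exp h), δ ≤ ‖K s‖) (j : InfinitePlace F → ℤ) (Z : Finset F)
    (hZ0 : ∀ ζ ∈ Z, ζ ≠ 0)
    (hZ : ∀ ζ ∈ Z, ∀ w : InfinitePlace F,
      Real.exp (j w * h) ≤ w ζ ∧ w ζ ≤ Real.exp ((j w + 1) * h)) :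
    (∑ ζ ∈ Z, ‖coefA φ K t0 g ζ‖ ^ 2) * δ ^ (2 * Fintype.card (InfinitePlace F)) ≤ B ^ 2 := by
  classical
  set t : Tinf F := fun w ↦ ⟨t0 * Real.exp (-(j w * h)), mul_pos hK.pos (Real.exp_pos _)⟩
  set Z' := Z.filter fun ζ ↦ coefA φ K t0 g ζ ≠ 0
  have hdual : ∀ ζ ∈ Z', IsDual m ζ := fun ζ hζ ↦ by
    rw [Finset.mem_filter] at hζ
    by_contra hnd
    refine hζ.2 ?_
    rw [coefA, dif_pos ⟨hK.pos, hZ0 ζ hζ.1⟩, wh_eq_zero_of_not_isDual hc hm hnd, zero_div]
  have hsq := hasSum_sq_wh hc hm t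
  have hint : ∫ y in boxSet (Idx F), ‖φ (ptX (boxVec m y) t) g‖ ^ 2 ≤ B ^ 2 := by
    have h2 := norm_setIntegral_le_of_norm_le_const (μ := volume) (s := boxSet (Idx F))
      (f := fun y ↦ ‖φ (ptX (boxVec m y) t) g‖ ^ 2) (C := B ^ 2)
      (by rw [volume_boxSet]; exact ENNReal.one_lt_top) fun y _ ↦ by
        rw [Real.norm_eq_abs, abs_pow, abs_norm]
        exact pow_le_pow_left₀ (norm_nonneg _) (hB _ g) 2
    simp only [measureReal_def, volume_boxSet, ENNReal.toReal_one, mul_one, Real.norm_eq_abs] at h2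
    exact (le_abs_self _).trans h2
  refine le_trans ?_ ((sum_le_hasSum (Z'.image (kvec m)) (fun k _ ↦ sq_nonneg _) hsq).trans hint)
  rw [← Finset.sum_filter_of_ne (p := fun ζ ↦ coefA φ K t0 g ζ ≠ 0) (fun ζ _ hne ↦ by
    intro h0; simp [h0] at hne), Finset.sum_mul, Finset.sum_image fun a ha b hb hab ↦ by
      rw [← xiOf_kvec hm.pos (hdual a ha), hab, xiOf_kvec hm.pos (hdual b hb)]]
  refine Finset.sum_le_sum fun ζ hζ ↦ ?_
  have hζ' := Finset.mem_filter.1 hζ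
  rw [xiOf_kvec hm.pos (hdual ζ hζ), wh_eq_coefA_mul hc ⟨B, hB⟩ he hK (hZ0 ζ hζ'.1), norm_mul,
    mul_pow]
  refine mul_le_mul_of_nonneg_left ?_ (sq_nonneg _)
  rw [mul_comm 2, pow_mul, modeProd, norm_prod]
  refine pow_le_pow_left₀ (by positivity) ?_ 2
  rw [← Finset.card_univ, ← Finset.prod_const]
  refine Finset.prod_le_prod (fun w _ ↦ hδ.le) fun w _ ↦ hwin _ ?_
  obtain ⟨h1, h2⟩ := hZ ζ hζ'.1 w
  have hpos : 0 ≤ t0 * Real.exp (-(j w * h)) := (mul_pos hK.pos (Real.exp_pos _)).le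
  constructor
  · calc t0 = Real.exp (j w * h) * (t0 * Real.exp (-(j w * h))) := by
          rw [mul_left_comm, ← Real.exp_add, add_neg_cancel, Real.exp_zero, mul_one]
      _ ≤ _ := mul_le_mul_of_nonneg_right h1 hpos
  · calc w ζ * (t0 * Real.exp (-(j w * h)))
        ≤ Real.exp ((j w + 1) * h) * (t0 * Real.exp (-(j w * h))) :=
          mul_le_mul_of_nonneg_right h2 hpos
      _ = _ := by rw [mul_left_comm, ← Real.exp_add]; ring_nf

theorem sum_pow_le {x : ℝ} (h0 : 0 ≤ x) (h1 : x < 1) (M : Finset ℕ) :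
    ∑ m ∈ M, x ^ m ≤ (1 - x)⁻¹ :=
  sum_le_hasSum M (fun _ _ ↦ pow_nonneg h0 _) (hasSum_geometric_of_lt_one h0 h1)

theorem inv_one_sub_exp_le {y : ℝ} (hy : 0 < y) : (1 - Real.exp (-y))⁻¹ ≤ (1 + y) / y := by
  have h := Real.add_one_le_exp y
  have h1 : Real.exp (-y) ≤ 1 / (1 + y) := by
    rw [Real.exp_neg, ← one_div]
    exact one_div_le_one_div_of_le (by linarith) (by linarith)
  have h2 : y / (1 + y) ≤ 1 - Real.exp (-y) := by
    have : y / (1 + y) = 1 - 1 / (1 + y) := by field_simp; ring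
    linarith
  rw [show (1 + y) / y = (y / (1 + y))⁻¹ by rw [inv_div]]
  exact inv_anti₀ (by positivity) h2

variable [IsTotallyComplex F]

/-- A summand of the self Rankin-Selberg series. -/
def selfTerm (c : HS → ℝ) (s : ℝ) (n : HS →₀ ℕ) : ℝ :=
  n.prod fun v k ↦ Asai.cheb (c v / Real.sqrt (Nat.card (𝓞 F ⧸ v.asIdeal))) k ^ 2 *
    ((Nat.card (𝓞 F ⧸ v.asIdeal) : ℝ) ^ (-s)) ^ k

omit [IsTotallyComplex F] in
theorem selfTerm_eq (c : HS → ℝ) (s : ℝ) (n : HS →₀ ℕ) :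
    selfTerm c s n = (n.prod fun v k ↦ lamLoc v (c v) k) ^ 2 *
      ((idN F (idelePow n))⁻¹) ^ (1 - s) := by
  rw [idN_idelePow, inv_inv, selfTerm, Finsupp.prod, Finsupp.prod, Finsupp.prod,
    ← Finset.prod_pow, ← Real.finsetProd_rpow _ _ (fun v _ ↦ by positivity),
    ← Finset.prod_mul_distrib]
  refine Finset.prod_congr rfl fun v _ ↦ ?_
  set q : ℝ := (Nat.card (𝓞 F ⧸ v.asIdeal) : ℝ)
  have hq : 0 < q := by
    simp only [q, Nat.cast_pos]; exact zero_lt_one.trans (one_lt_card v)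
  rw [lamLoc, mul_pow, ← pow_mul, mul_comm (n v) 2, pow_mul, inv_pow, Real.sq_sqrt hq.le,
    mul_right_comm, mul_comm (_ ^ 2)]
  congr 1
  rw [inv_pow, ← Real.rpow_natCast (q ^ (-s)), ← Real.rpow_mul hq.le, ← Real.rpow_natCast q,
    ← Real.rpow_neg hq.le, ← Real.rpow_mul hq.le, ← Real.rpow_add hq]
  ring_nf

/-- A sum bounded label by label. -/
theorem sum_le_labels {ι κ : Type*} (T : Finset ι) (f : ι → ℝ) (lab : ι → κ) (U : Finset κ)
    (bd : κ → ℝ) (hmap : ∀ n ∈ T, lab n ∈ U)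
    (hfib : ∀ q ∈ U, ∀ T' : Finset ι, (∀ n ∈ T', lab n = q) → ∑ n ∈ T', f n ≤ bd q) :
    ∑ n ∈ T, f n ≤ ∑ q ∈ U, bd q := by
  classical
  rw [← Finset.sum_fiberwise_of_maps_to hmap f]
  exact Finset.sum_le_sum fun q hq ↦ hfib q hq _ fun n hn ↦ (Finset.mem_filter.1 hn).2

/-- The finitely many classes of the coefficients at the translates of a base idele. -/
theorem exists_classes {φ : Form F} {N : ℕ} (hN : 0 < N) (hφ : CuspZero N φ) {K : ℝ → ℂ} {t0 : ℝ}
    (hK : RefMode K t0) {g0 : GF F} (hg0 : InLevel 1 g0) (α : (Af F)ˣ) {ξ : F} (hξ : ξ ≠ 0) :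
    ∃ (Fam : Finset ((Af F)ˣ × GF F)) (Bb : ℝ), 0 < Bb ∧ ∀ n : HS →₀ ℕ,
      ∃ (p : (Af F)ˣ × GF F) (ζ : F) (η : Fˣ),
      p ∈ Fam ∧ ζ = ξ * η ∧
      (∀ v, Valued.v (((α * idelePow n : (Af F)ˣ) : Af F) v) =
        v.valuation F η * Valued.v ((p.1 : Af F) v)) ∧
      coefA φ K t0 (upperGF (α * idelePow n) 0 * g0) ξ = coefA φ K t0 (upperGF p.1 0 * p.2) ζ ∧
      ∀ w w' : InfinitePlace F, w ζ ≤ Bb * w' ζ := by
  classical
  obtain ⟨R, hR, hrep⟩ := Red.exists_finite_ideles (F := F) (n := 1) one_pos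
  obtain ⟨κs, hκs, -, hκrep⟩ := Red.exists_level_reps (F := F) hN
  obtain ⟨Bb, hBb, hbal⟩ := exists_balance (F := F)
  refine ⟨hR.toFinset ×ˢ hκs.toFinset, Bb, hBb, fun n ↦ ?_⟩
  obtain ⟨η0, ρ, hρ, u, hu, huv⟩ := hrep (α * idelePow n)
  obtain ⟨ε, hε⟩ := hbal (ξ * η0) (mul_ne_zero hξ η0.ne_zero)
  set εF : Fˣ := Units.map (algebraMap (𝓞 F) F).toMonoidHom ε
  set u' := Units.map (algebraMap F (Af F)).toMonoidHom εF⁻¹ * u
  have hε1 : ∀ v : HS, Valued.v (((Units.map (algebraMap F (Af F)).toMonoidHom εF⁻¹ : (Af F)ˣ)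
      : Af F) v) = 1 := fun v ↦ by
    show Valued.v (algebraMap F (Af F) ((εF⁻¹ : Fˣ) : F) v) = 1
    rw [Red.valued_algebraMap]
    refine le_antisymm ?_ ?_
    · simp only [εF, ← map_inv, Units.coe_map]
      exact v.valuation_le_one _
    · rw [Units.val_inv_eq_inv_val, map_inv₀, one_le_inv₀]
      · exact v.valuation_le_one _
      · exact zero_lt_iff.2 ((map_ne_zero _).2 εF.ne_zero)
  have hu1 : ∀ v : HS, Valued.v ((u' : Af F) v) = 1 := fun v ↦ by
    simp only [u', Units.val_mul, af_mul_apply, map_mul]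
    rw [hε1, (huv v).1, mul_one]
  have h11 : ∀ v : HS, ∀ w : (Af F)ˣ, Valued.v ((w : Af F) v) = 1 →
      Valued.v (((w : Af F) - 1) v) ≤ Valued.v (((1 : ℕ) : Af F) v) := fun v w hw ↦ by
    rw [Nat.cast_one, show (1 : Af F) v = 1 from rfl, map_one,
      show ((w : Af F) - 1) v = (w : Af F) v - 1 from rfl]
    exact (Valued.v.map_sub _ _).trans (max_le hw.le (by rw [map_one]))
  have hu' : InLevel 1 (upperGF u' 0) := Red.inLevel_upperGF
    (fun v ↦ ⟨hu1 v, h11 v u' (hu1 v), h11 v u'⁻¹ (by rw [Red.valued_inv, hu1, inv_one])⟩)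
    (fun v ↦ by rw [show (0 : Af F) v = 0 from rfl, map_zero]; exact zero_le)
  obtain ⟨k, hk, l, hl, hkl⟩ := hκrep _ (Red.InLevel.mul hu' hg0)
  refine ⟨(ρ, k), ξ * ((η0 * εF : Fˣ) : F), η0 * εF, Finset.mem_product.2
    ⟨hR.mem_toFinset.2 hρ, hκs.mem_toFinset.2 hk⟩, rfl, fun v ↦ ?_, ?_, fun w w' ↦ ?_⟩
  · rw [hu, Units.val_mul, Units.val_mul, af_mul_apply, af_mul_apply, map_mul, map_mul,
      (huv v).1, mul_one]
    show Valued.v (algebraMap F (Af F) (η0 : F) v) * _ = v.valuation F ((η0 : F) * (εF : F)) * _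
    rw [Red.valued_algebraMap, map_mul]
    congr 1
    have : v.valuation F (εF : F) = 1 := by
      have h1 := hε1 v
      rw [show ((Units.map (algebraMap F (Af F)).toMonoidHom εF⁻¹ : (Af F)ˣ) : Af F) =
        algebraMap F (Af F) ((εF⁻¹ : Fˣ) : F) from rfl, Red.valued_algebraMap,
        Units.val_inv_eq_inv_val, map_inv₀, inv_eq_one] at h1
      exact h1
    rw [this, mul_one]
  · have e : upperGF (α * idelePow n) 0 * g0 =
        toFin (diagF (η0 * εF)) * (upperGF ρ 0 * k * l) := by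
      rw [toFin_diagF, mul_assoc (upperGF ρ 0), ← hkl, ← mul_assoc, ← mul_assoc,
        Red.upperGF_mul, Red.upperGF_mul, hu]
      simp only [mul_zero, add_zero]
      congr 2
      simp only [u', map_mul, map_inv]
      simp only [mul_assoc]
      rw [mul_left_comm ρ, mul_inv_cancel_left]
    rw [e, coefA_diag_mul hN hφ hK _ _ hξ, coefA, coefA]
    refine dite_congr rfl (fun hh' ↦ ?_) fun _ ↦ rfl
    rw [wh_congr (fun x ↦ hφ.aut.right_inv l hl x _) _ _ (hφ.cont _)]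
  · simp only [Units.val_mul, ← mul_assoc]
    exact hε w w'

theorem idN_inv_eq {α : (Af F)ˣ} {n : HS →₀ ℕ} {ξ : F} (hξ : ξ ≠ 0) {ρ : (Af F)ˣ} {η : Fˣ}
    (hval : ∀ v, Valued.v (((α * idelePow n : (Af F)ˣ) : Af F) v) =
      v.valuation F η * Valued.v ((ρ : Af F) v)) :
    (idN F (idelePow n))⁻¹ = idN F α / idN F ρ / (∏ w : InfinitePlace F, w ξ ^ w.mult) *
      ∏ w : InfinitePlace F, w (ξ * η) ^ w.mult := by
  set aη := Units.map (algebraMap F (Af F)).toMonoidHom η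
  have h1 : idN F (α * idelePow n) = idN F aη * idN F ρ := by
    rw [← map_mul]
    show ∏ᶠ v : HS, ‖((α * idelePow n : (Af F)ˣ) : Af F) v‖ = _
    refine finprod_congr fun v ↦ ?_
    rw [FinitePlace.norm_def, FinitePlace.norm_def, hval, Units.val_mul, af_mul_apply,
      show (aη : Af F) v = algebraMap F (Af F) (η : F) v from rfl, map_mul Valued.v,
      Red.valued_algebraMap]
  have hP : ∏ w : InfinitePlace F, w ξ ^ w.mult ≠ 0 :=
    Finset.prod_ne_zero_iff.2 fun w _ ↦ pow_ne_zero _ (w.pos_iff.2 hξ).ne'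
  rw [map_mul] at h1
  have h2 : idN F aη * ∏ w : InfinitePlace F, w (η : F) ^ w.mult = 1 := idN_algebraMap η
  simp only [map_mul, mul_pow, Finset.prod_mul_distrib]
  have hh1 := (idN_pos (idelePow n)).ne'
  have hh2 := (idN_pos ρ).ne'
  field_simp
  linear_combination -(∏ w : InfinitePlace F, w (η : F) ^ w.mult) * h1 - idN F ρ * h2

set_option maxHeartbeats 1000000 in
/-- **The self Rankin-Selberg bound.** -/
theorem exists_selfBound {φ : Form F} {N : ℕ} (hN : 0 < N) (hφ : CuspZero N φ) {c : HS → ℝ}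
    (he : ∀ v : HS, (N : 𝓞 F) ∉ v.asIdeal → ∀ x g, hecke v φ x g = (c v : ℂ) * φ x g)
    {x : Xinf F} {g : GF F} (hne : φ x g ≠ 0) :
    ∃ C, ∀ s, 1 < s → s ≤ 2 → ∀ T : Finset (HS →₀ ℕ),
      (∀ n ∈ T, ∀ v ∈ n.support, (N : 𝓞 F) ∉ v.asIdeal) →
      ∑ n ∈ T, selfTerm c s n ≤ C / (s - 1) := by
  classical
  obtain ⟨g0, α, ξ, t, hg0, hξ, hgood, hwh⟩ := exists_base hN hφ he hne
  obtain ⟨K, t0, hK⟩ := exists_refMode hN hφ hne
  obtain ⟨B, hB⟩ := hφ.bdd
  set W0 := coefA φ K t0 (upperGF α 0 * g0) ξ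
  have hW0 : W0 ≠ 0 := fun h ↦
    hwh (by rw [wh_eq_coefA_mul (hφ.cont _) ⟨B, hB⟩ hφ.eigen hK hξ]; simp [W0] at h; rw [h, zero_mul])
  obtain ⟨h, δ, hh, hδ, hwin⟩ := hK.exists_window
  have hmult : ∀ w : InfinitePlace F, w.mult = 2 := fun w ↦
    InfinitePlace.mult_isComplex ⟨w, IsTotallyComplex.isComplex w⟩
  set r := Fintype.card (InfinitePlace F)
  have hr : (0 : ℝ) < r := by exact_mod_cast Fintype.card_pos
  obtain ⟨Fam, Bb, hBb, hdata⟩ := exists_classes hN hφ hK hg0 α hξ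
  choose p ζ η hp hζ hval hcoef hratio using hdata
  -- periods and norms
  choose per hper using fun q : (Af F)ˣ × GF F ↦ exists_hasPeriod hN hφ.aut (upperGF q.1 0 * q.2)
  have hζ0 : ∀ n, ζ n ≠ 0 := fun n ↦ by rw [hζ]; exact mul_ne_zero hξ (η n).ne_zero
  set P0 := ∏ w : InfinitePlace F, w ξ ^ w.mult
  have hP0 : 0 < P0 := Finset.prod_pos fun w _ ↦ pow_pos (w.pos_iff.2 hξ) _
  set cst : (Af F)ˣ × GF F → ℝ := fun q ↦ Real.log (idN F α) - Real.log (idN F q.1) - Real.log P0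
  have hnorm : ∀ n, Real.log ((idN F (idelePow n))⁻¹) =
      cst (p n) + 2 * ∑ w : InfinitePlace F, Real.log (w (ζ n)) := by
    intro n
    have h4 := idN_inv_eq hξ (hval n)
    rw [← hζ n] at h4
    rw [h4, Real.log_mul, Real.log_div, Real.log_div, Real.log_prod (f := fun w : InfinitePlace F ↦ w (ζ n) ^ w.mult)]
    · simp only [cst, P0, hmult, Real.log_pow, Finset.mul_sum, Nat.cast_ofNat]
    · exact fun w _ ↦ pow_ne_zero _ (w.pos_iff.2 (hζ0 n)).ne'
    all_goals first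
      | exact hP0.ne'
      | exact (idN_pos _).ne'
      | exact div_ne_zero (idN_pos _).ne' (idN_pos _).ne'
      | exact div_ne_zero (div_ne_zero (idN_pos _).ne' (idN_pos _).ne') hP0.ne'
      | exact Finset.prod_ne_zero_iff.2 fun w _ ↦ pow_ne_zero _ (w.pos_iff.2 (hζ0 n)).ne'
  -- the labels
  obtain ⟨w0⟩ : Nonempty (InfinitePlace F) := inferInstance
  set Lb := |Real.log Bb|
  have hlog : ∀ n (w w' : InfinitePlace F), Real.log (w (ζ n)) ≤ Lb + Real.log (w' (ζ n)) := by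
    intro n w w'
    refine (Real.log_le_log (w.pos_iff.2 (hζ0 n)) (hratio n w w')).trans ?_
    rw [Real.log_mul hBb.ne' (w'.pos_iff.2 (hζ0 n)).ne']
    exact add_le_add (le_abs_self _) le_rfl
  set J : ℤ := ⌈Lb / h⌉ + 1
  set Cst := ∑ q ∈ Fam, |cst q|
  set L : ℤ := ⌈(Cst / (2 * r) + Lb) / h⌉ + 1
  set fl : (HS →₀ ℕ) → InfinitePlace F → ℤ := fun n w ↦ ⌊Real.log (w (ζ n)) / h⌋
  set lab : (HS →₀ ℕ) → ((Af F)ˣ × GF F) × (InfinitePlace F → ℤ) × ℕ :=
    fun n ↦ (p n, fun w ↦ fl n w - fl n w0, (fl n w0 + L).toNat)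
  have hfl : ∀ n w, (fl n w : ℝ) * h ≤ Real.log (w (ζ n)) ∧
      Real.log (w (ζ n)) ≤ ((fl n w : ℝ) + 1) * h := fun n w ↦
    ⟨(le_div_iff₀ hh).1 (Int.floor_le _), ((div_lt_iff₀ hh).1 (Int.lt_floor_add_one _)).le⟩
  have hd : ∀ n w, fl n w - fl n w0 ∈ Finset.Icc (-J) J := by
    intro n w
    have hJ : Lb ≤ ((J : ℝ) - 1) * h := by
      rw [← div_le_iff₀ hh]; simp only [J]; push_cast; rw [add_sub_cancel_right]; exact Int.le_ceil _
    have a1 := hfl n w; have a2 := hfl n w0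
    have b1 := hlog n w w0; have b2 := hlog n w0 w
    have e1 : ((fl n w - fl n w0 : ℤ) : ℝ) * h ≤ ((J : ℤ) : ℝ) * h := by push_cast; linarith
    have e2 : ((-J : ℤ) : ℝ) * h ≤ ((fl n w - fl n w0 : ℤ) : ℝ) * h := by push_cast; linarith
    exact Finset.mem_Icc.2 ⟨Int.cast_le.1 (le_of_mul_le_mul_right e2 hh),
      Int.cast_le.1 (le_of_mul_le_mul_right e1 hh)⟩
  have hN1 : ∀ n : HS →₀ ℕ, 1 ≤ (idN F (idelePow n))⁻¹ := fun n ↦ by
    rw [idN_idelePow, inv_inv, Finsupp.prod]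
    exact Finset.one_le_prod fun v _ ↦ one_le_pow₀ (by exact_mod_cast (one_lt_card v).le)
  have hcst : ∀ n, |cst (p n)| ≤ Cst := fun n ↦
    Finset.single_le_sum (f := fun q ↦ |cst q|) (fun q _ ↦ abs_nonneg _) (hp n)
  have hsum : ∀ n, (r : ℝ) * ((fl n w0 : ℝ) * h - Lb) ≤ ∑ w : InfinitePlace F, Real.log (w (ζ n)) ∧
      0 ≤ fl n w0 + L := by
    intro n
    have a2 := hfl n w0
    constructor
    · simp only [r]; rw [← nsmul_eq_mul, ← Finset.card_univ, ← Finset.sum_const]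
      exact Finset.sum_le_sum fun w _ ↦ by linarith [hlog n w0 w]
    · have b : ∑ w : InfinitePlace F, Real.log (w (ζ n)) ≤ (r : ℝ) * (Lb + Real.log (w0 (ζ n))) := by
        simp only [r]; rw [← nsmul_eq_mul, ← Finset.card_univ, ← Finset.sum_const]
        exact Finset.sum_le_sum fun w _ ↦ hlog n w w0
      have b2 := hnorm n
      have b3 := Real.log_nonneg (hN1 n)
      have b4 := (le_abs_self _).trans (hcst n)
      have b5 : -(Cst / (2 * r)) - Lb ≤ Real.log (w0 (ζ n)) := by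
        rw [sub_le_iff_le_add, neg_le_iff_add_nonneg, ← sub_nonneg]
        have : 0 ≤ (2 * r : ℝ) * (Cst / (2 * r) + Lb + Real.log (w0 (ζ n))) := by
          rw [mul_add, mul_add, mul_div_cancel₀ _ (by positivity)]; nlinarith
        have := nonneg_of_mul_nonneg_right this (by positivity)
        linarith
      have hL : Cst / (2 * r) + Lb ≤ ((L : ℝ) - 1) * h := by
        rw [← div_le_iff₀ hh]; simp only [L]; push_cast; rw [add_sub_cancel_right]
        exact Int.le_ceil _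
      have : (0 : ℝ) ≤ ((fl n w0 + L : ℤ) : ℝ) * h := by push_cast; linarith
      exact_mod_cast nonneg_of_mul_nonneg_left this hh
  set A := Real.exp (Cst + 2 * (r : ℝ) * (|(L : ℝ)| * h + Lb))
  set D := Fintype.piFinset fun _ : InfinitePlace F ↦ Finset.Icc (-J) J
  set cell := B ^ 2 / δ ^ (2 * r) * A
  refine ⟨(Fam.card : ℝ) * D.card * cell * (1 + 2 * r * h) / (2 * r * h) / ‖W0‖ ^ 2,
    fun s hs hs2 T hT ↦ ?_⟩
  set y := 2 * (r : ℝ) * h * (s - 1)
  have hy : 0 < y := mul_pos (by positivity) (sub_pos.2 hs)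
  set xg := Real.exp (-y)
  set f : (HS →₀ ℕ) → ℝ := fun n ↦
    ‖coefA φ K t0 (upperGF (α * idelePow n) 0 * g0) ξ‖ ^ 2 * (idN F (idelePow n))⁻¹ ^ (1 - s)
  have hterm : ∀ n ∈ T, f n = ‖W0‖ ^ 2 * selfTerm c s n := by
    intro n hn
    have hk := wh_idelePow hN hφ.aut hφ.cont (c := c) α (g0 := g0) hξ (refT hK.pos hξ) n fun v hv ↦
      ⟨hT n hn v hv, (hgood v (hT n hn v hv)).1, he v (hT n hn v hv), (hgood v (hT n hn v hv)).2⟩
    simp only [f, W0, selfTerm_eq, coefA, dif_pos (And.intro hK.pos hξ), hk, mul_div_assoc]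
    rw [norm_mul, mul_pow, Finsupp.prod, Finsupp.prod, ← Complex.ofReal_prod, Complex.norm_real,
      Real.norm_eq_abs, sq_abs]
    ring
  have hf : ∀ n, f n ≤ ‖coefA φ K t0 (upperGF (p n).1 0 * (p n).2) (ζ n)‖ ^ 2 *
      (A * xg ^ (fl n w0 + L).toNat) := by
    intro n
    simp only [f, hcoef n]
    refine mul_le_mul_of_nonneg_left ?_ (sq_nonneg _)
    obtain ⟨h1, h2⟩ := hsum n
    rw [Real.rpow_def_of_pos (zero_lt_one.trans_le (hN1 n)), ← Real.exp_nat_mul, ← Real.exp_add]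
    refine Real.exp_le_exp.2 ?_
    have hcast : (((fl n w0 + L).toNat : ℕ) : ℝ) = (fl n w0 : ℝ) + L := by
      rw [← Int.cast_natCast, Int.toNat_of_nonneg h2]; push_cast; ring
    rw [hnorm n, hcast]
    simp only [y]
    have h3 : (cst (p n) + 2 * ∑ w : InfinitePlace F, Real.log (w (ζ n))) * (1 - s) ≤
        (-Cst + 2 * ((r : ℝ) * ((fl n w0 : ℝ) * h - Lb))) * (1 - s) := by
      refine mul_le_mul_of_nonpos_right ?_ (by linarith)
      linarith [neg_abs_le (cst (p n)), hcst n]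
    have h4 : (Cst + 2 * r * (L * h + Lb)) * (s - 1) ≤ Cst + 2 * r * (|(L : ℝ)| * h + Lb) := by
      have hC0 : 0 ≤ Cst := Finset.sum_nonneg fun q _ ↦ abs_nonneg _
      have : 0 ≤ Lb := abs_nonneg _
      have h5 : Cst + 2 * r * (L * h + Lb) ≤ Cst + 2 * r * (|(L : ℝ)| * h + Lb) := by
        have := mul_le_mul_of_nonneg_right (le_abs_self (L : ℝ)) hh.le
        nlinarith
      refine (mul_le_mul_of_nonneg_right h5 (by linarith)).trans
        (mul_le_of_le_one_right (by positivity) (by linarith))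
    nlinarith
  have hmain : ∑ n ∈ T, f n ≤ (Fam.card : ℝ) * D.card * cell * (1 - xg)⁻¹ := by
    have hxg : xg < 1 := Real.exp_lt_one_iff.2 (neg_neg_of_pos hy)
    set Ms := T.image fun n ↦ (fl n w0 + L).toNat
    refine le_trans (sum_le_labels T f lab (Fam ×ˢ (D ×ˢ Ms)) (fun q ↦ cell * xg ^ q.2.2)
      (fun n hn ↦ Finset.mem_product.2 ⟨hp n, Finset.mem_product.2
        ⟨Fintype.mem_piFinset.2 (hd n), Finset.mem_image_of_mem _ hn⟩⟩) fun q _ T' hlab ↦ ?_) ?_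
    · have hT' : ∀ n ∈ T', p n = q.1 ∧ (fl n w0 + L).toNat = q.2.2 ∧
          ∀ w, fl n w = q.2.1 w + ((q.2.2 : ℤ) - L) := fun n hn ↦ by
        have e := hlab n hn
        simp only [lab] at e
        subst e
        refine ⟨rfl, rfl, fun w ↦ ?_⟩
        show _ = _ + (((fl n w0 + L).toNat : ℤ) - L)
        rw [Int.toNat_of_nonneg (hsum n).2]; ring
      have hinj : Set.InjOn ζ (T' : Set (HS →₀ ℕ)) := fun n hn n' hn' e ↦ by
        have eη : (η n : F) = η n' := mul_left_cancel₀ hξ (by rw [← hζ, ← hζ, e])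
        refine Finsupp.ext fun v ↦ ?_
        have hv : Valued.v (((α * idelePow n : (Af F)ˣ) : Af F) v) =
            Valued.v (((α * idelePow n' : (Af F)ˣ) : Af F) v) := by
          rw [hval, hval, (hT' n hn).1, (hT' n' hn').1, eη]
        rw [Units.val_mul, Units.val_mul, af_mul_apply, af_mul_apply, map_mul, map_mul] at hv
        have := mul_left_cancel₀ ((map_ne_zero _).2 (Red.unit_apply_ne_zero α v)) hv
        rw [valued_idelePow, valued_idelePow, WithZero.exp_inj] at this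
        omega
      calc ∑ n ∈ T', f n
          ≤ ∑ n ∈ T', ‖coefA φ K t0 (upperGF q.1.1 0 * q.1.2) (ζ n)‖ ^ 2 *
              (A * xg ^ q.2.2) := Finset.sum_le_sum fun n hn ↦ by
            have := hf n
            rwa [(hT' n hn).2.1, (hT' n hn).1] at this
        _ ≤ B ^ 2 / δ ^ (2 * r) * (A * xg ^ q.2.2) := by
            rw [← Finset.sum_mul, ← Finset.sum_image (f := fun z ↦ ‖coefA φ K t0 (upperGF q.1.1 0 * q.1.2) z‖ ^ 2) hinj]
            refine mul_le_mul_of_nonneg_right ?_ (by positivity)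
            rw [le_div_iff₀ (by positivity)]
            refine sum_cell_le (hφ.cont _) hB hφ.eigen (hper q.1) hK hδ hwin
              (fun w ↦ q.2.1 w + ((q.2.2 : ℤ) - L)) _ (fun z hz ↦ ?_) fun z hz w ↦ ?_
            · obtain ⟨n, -, rfl⟩ := Finset.mem_image.1 hz
              exact hζ0 n
            · obtain ⟨n, hn, rfl⟩ := Finset.mem_image.1 hz
              rw [← (hT' n hn).2.2 w]
              have hpos : 0 < w (ζ n) := w.pos_iff.2 (hζ0 n)
              exact ⟨by rw [← Real.le_log_iff_exp_le hpos]; exact (hfl n w).1,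
                by rw [← Real.log_le_iff_le_exp hpos]; exact (hfl n w).2⟩
        _ = _ := by simp only [cell]; ring
    · refine le_of_eq_of_le ?_ (mul_le_mul_of_nonneg_left (sum_pow_le (Real.exp_pos _).le hxg Ms)
        (by positivity))
      simp only [Finset.sum_product, Finset.sum_const, nsmul_eq_mul, ← Finset.mul_sum]
      ring
  rw [Finset.sum_congr rfl hterm, ← Finset.mul_sum] at hmain
  have hW : 0 < ‖W0‖ ^ 2 := pow_pos (norm_pos_iff.2 hW0) 2
  rw [mul_comm, ← le_div_iff₀ hW] at hmain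
  refine hmain.trans ?_
  rw [div_right_comm _ (‖W0‖ ^ 2) (s - 1)]
  gcongr
  rw [div_div, mul_div_assoc]
  refine mul_le_mul_of_nonneg_left ((inv_one_sub_exp_le hy).trans ?_) (by positivity)
  have hy1 : y ≤ 2 * r * h :=
    mul_le_of_le_one_right (by positivity) (by linarith)
  exact div_le_div_of_nonneg_right (by linarith) hy.le

/-- Summability and the bound of the self series. -/
theorem exists_selfBound_tsum {φ : Form F} {N : ℕ} (hN : 0 < N) (hφ : CuspZero N φ) {c : HS → ℝ}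
    (he : ∀ v : HS, (N : 𝓞 F) ∉ v.asIdeal → ∀ x g, hecke v φ x g = (c v : ℂ) * φ x g)
    {x : Xinf F} {g : GF F} (hne : φ x g ≠ 0) :
    ∃ C, 0 < C ∧ ∀ s, 1 < s → s ≤ 2 →
      Summable (fun n : {n : HS →₀ ℕ // ∀ v ∈ n.support, (N : 𝓞 F) ∉ v.asIdeal} ↦
        selfTerm c s n.1) ∧
      ∑' n : {n : HS →₀ ℕ // ∀ v ∈ n.support, (N : 𝓞 F) ∉ v.asIdeal}, selfTerm c s n.1 ≤
        C / (s - 1) := by
  classical
  obtain ⟨C, hC⟩ := exists_selfBound hN hφ he hne
  refine ⟨|C| + 1, by positivity, fun s hs hs2 ↦ ?_⟩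
  have hnn : ∀ n, 0 ≤ selfTerm c s n := fun n ↦
    Finset.prod_nonneg fun v _ ↦ mul_nonneg (sq_nonneg _) (by positivity)
  have hb : ∀ T : Finset {n : HS →₀ ℕ // ∀ v ∈ n.support, (N : 𝓞 F) ∉ v.asIdeal},
      ∑ n ∈ T, selfTerm c s n.1 ≤ (|C| + 1) / (s - 1) := fun T ↦ by
    rw [← Finset.sum_image (g := Subtype.val) (fun a _ b _ h ↦ Subtype.ext h)]
    refine (hC s hs hs2 _ fun n hn ↦ ?_).trans ?_
    · obtain ⟨a, -, rfl⟩ := Finset.mem_image.1 hn
      exact a.2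
    · gcongr
      linarith [le_abs_self C]
  exact ⟨summable_of_sum_le (fun n ↦ hnn _) hb,
    Real.tsum_le_of_sum_le (fun n ↦ hnn _) hb⟩

end FLTAgent.LT.RS
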