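import Mathlib.NumberTheory.NumberField.ProductFormula
import Fermat.Agent.LT.Red.Global
import Fermat.Agent.LT.Red.Approx

/-!
The absolute norm of a finite idele, the product formula, and balancing by units at all scales.
-/

set_option autoImplicit false

noncomputable section

namespace FLTAgent.LT.RS

open NumberField IsDedekindDomain

variable {F : Type*} [Field F] [NumberField F]

local notation "HS" => HeightOneSpectrum (𝓞 F)

theorem norm_completion_eq_one_iff {v : HS} {x : v.adicCompletion F} :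
    ‖x‖ = 1 ↔ Valued.v x = 1 := by
  rw [FinitePlace.norm_def, NNReal.coe_eq_one]
  have hm := WithZeroMulInt.toNNReal_strictMono (NumberField.HeightOneSpectrum.one_lt_absNorm_nnreal v)
  exact ⟨fun h ↦ hm.injective (by rw [h, map_one]), fun h ↦ by rw [h, map_one]⟩

theorem finite_mulSupport_norm (a : (Af F)ˣ) :
    (Function.mulSupport fun v : HS ↦ ‖(a : Af F) v‖).Finite := by
  refine ((Filter.eventually_cofinite.1 (a : Af F).2).union
    (Filter.eventually_cofinite.1 ((a⁻¹ : (Af F)ˣ) : Af F).2)).subset fun v hv ↦ ?_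
  by_contra h
  simp only [Set.mem_union, Set.mem_ofPred_eq, not_or, not_not] at h
  refine hv (norm_completion_eq_one_iff.2 (le_antisymm h.1 ?_))
  have h2 : Valued.v (((a⁻¹ : (Af F)ˣ) : Af F) v) ≤ 1 := h.2
  rw [Red.valued_inv] at h2
  exact (inv_le_one₀ (zero_lt_iff.2 ((map_ne_zero _).2 (Red.unit_apply_ne_zero a v)))).1 h2

variable (F) in
/-- The absolute norm of a finite idele. -/
def idN : (Af F)ˣ →* ℝ where
  toFun a := ∏ᶠ v : HS, ‖(a : Af F) v‖
  map_one' := finprod_eq_one_of_forall_eq_one fun v ↦ by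
    rw [Units.val_one, show (1 : Af F) v = 1 from rfl, norm_one]
  map_mul' a b := by
    rw [← finprod_mul_distrib (finite_mulSupport_norm a) (finite_mulSupport_norm b)]
    exact finprod_congr fun v ↦ by
      rw [Units.val_mul, show ((a : Af F) * (b : Af F)) v = (a : Af F) v * (b : Af F) v from rfl,
        norm_mul]

theorem idN_pos (a : (Af F)ˣ) : 0 < idN F a := by
  show 0 < ∏ᶠ v : HS, ‖(a : Af F) v‖
  rw [finprod_eq_prod _ (finite_mulSupport_norm a)]
  exact Finset.prod_pos fun v _ ↦ norm_pos_iff.2 (Red.unit_apply_ne_zero a v)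

theorem idN_eq_one {u : (Af F)ˣ} (h : ∀ v : HS, Valued.v ((u : Af F) v) = 1) : idN F u = 1 :=
  finprod_eq_one_of_forall_eq_one fun v ↦ norm_completion_eq_one_iff.2 (h v)

/-- The product formula. -/
theorem idN_algebraMap (η : Fˣ) :
    idN F (Units.map (algebraMap F (Af F)).toMonoidHom η) * ∏ w : InfinitePlace F, w (η : F) ^ w.mult
      = 1 := by
  rw [mul_comm, ← prod_abs_eq_one η.ne_zero]
  congr 1
  show ∏ᶠ v : HS, ‖algebraMap F (Af F) (η : F) v‖ = _
  rw [← finprod_comp_equiv (FinitePlace.equivHeightOneSpectrum (K := F)).symm]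
  exact finprod_congr fun v ↦ by
    rw [FinitePlace.equivHeightOneSpectrum_symm_apply, FinitePlace.embedding_apply]; rfl

/-- Balancing by units at every scale. -/
theorem exists_balance [IsTotallyComplex F] :
    ∃ B : ℝ, 0 < B ∧ ∀ a : F, a ≠ 0 → ∃ ε : (𝓞 F)ˣ, ∀ w w' : InfinitePlace F,
      w (a * ((ε : 𝓞 F) : F)) ≤ B * w' (a * ((ε : 𝓞 F) : F)) := by
  classical
  have hm : ∀ w : InfinitePlace F, w.mult = 2 := fun w ↦
    InfinitePlace.mult_isComplex ⟨w, IsTotallyComplex.isComplex w⟩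
  obtain ⟨D, hD, hbal⟩ := Red.exists_unit_balance (F := F) 1
  set d := ∑ w : InfinitePlace F, w.mult
  have hd : 0 < d := Finset.sum_pos (fun w _ ↦ InfinitePlace.mult_pos) Finset.univ_nonempty
  set e := ((2 : ℝ) ^ d)⁻¹
  have he : 0 < e := by positivity
  set E := max D 1
  have hE : 0 < E := lt_max_of_lt_right one_pos
  refine ⟨(E ^ d * e⁻¹ + 1) * E, by positivity, fun a ha ↦ ?_⟩
  set P := ∏ w : InfinitePlace F, w a ^ w.mult
  have hP : 0 < P := Finset.prod_pos fun w _ ↦ pow_pos (w.pos_iff.2 ha) _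
  obtain ⟨n, hn1, hn2⟩ := exists_mem_Ico_zpow hP (one_lt_pow₀ (one_lt_two (α := ℝ)) hd.ne')
  set q : F := (2 : F) ^ (-(n + 1))
  have hq : ∀ w : InfinitePlace F, w q = (2 : ℝ) ^ (-(n + 1)) := fun w ↦ by
    rw [map_zpow₀, ← InfinitePlace.norm_embedding_eq, map_ofNat]; simp
  have hq0 : q ≠ 0 := zpow_ne_zero _ two_ne_zero
  have hPq : ∏ w : InfinitePlace F, w (a * q) ^ w.mult = P * (((2 : ℝ) ^ d) ^ (n + 1))⁻¹ := by
    simp only [map_mul, mul_pow, Finset.prod_mul_distrib, hq]
    rw [Finset.prod_pow_eq_pow_sum, ← zpow_natCast ((2 : ℝ) ^ (-(n + 1))), ← zpow_mul, mul_comm (-(n + 1)),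
      zpow_mul, zpow_natCast, zpow_neg]
  have hle : ∏ w : InfinitePlace F, w (a * q) ^ w.mult ≤ 1 := by
    rw [hPq, ← div_eq_mul_inv, div_le_one (by positivity)]; exact hn2.le
  have hge : e ≤ ∏ w : InfinitePlace F, w (a * q) ^ w.mult := by
    rw [hPq, ← div_eq_mul_inv, le_div_iff₀ (by positivity), zpow_add_one₀ (by positivity)]
    calc e * (((2 : ℝ) ^ d) ^ n * (2 : ℝ) ^ d) = ((2 : ℝ) ^ d) ^ n := by
          simp only [e]; field_simp
      _ ≤ P := hn1
  obtain ⟨ε, hε⟩ := hbal (a * q) (mul_ne_zero ha hq0) hle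
  refine ⟨ε, fun w w' ↦ ?_⟩
  set z := a * ((ε : 𝓞 F) : F)
  have hz : ∀ v : InfinitePlace F, v (z * q) ≤ E := fun v ↦ by
    rw [show z * q = a * q * ((ε : 𝓞 F) : F) by simp [z]; ring, map_mul]
    exact (hε v).trans (le_max_left _ _)
  have hεn : ∏ v : InfinitePlace F, v ((ε : 𝓞 F) : F) ^ v.mult = 1 := by
    rw [InfinitePlace.prod_eq_abs_norm, ← Rat.cast_one, Rat.cast_inj]
    exact NumberField.isUnit_iff_norm.1 ε.isUnit
  have hprod : e ≤ ∏ v : InfinitePlace F, v (z * q) ^ v.mult := by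
    refine hge.trans_eq ?_
    rw [← mul_one (∏ v : InfinitePlace F, v (a * q) ^ v.mult), ← hεn, ← Finset.prod_mul_distrib]
    refine Finset.prod_congr rfl fun v _ ↦ ?_
    rw [← mul_pow, ← map_mul]
    congr 2
    simp [z]; ring
  have hw' : e ≤ w' (z * q) * E ^ d := by
    rw [← Finset.mul_prod_erase _ _ (Finset.mem_univ w'), hm w'] at hprod
    refine hprod.trans ?_
    have h2 : ∏ v ∈ Finset.univ.erase w', v (z * q) ^ v.mult ≤
        E ^ ∑ v ∈ Finset.univ.erase w', v.mult := by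
      rw [← Finset.prod_pow_eq_pow_sum]
      exact Finset.prod_le_prod (fun v _ ↦ pow_nonneg (apply_nonneg v (z * q)) _)
        fun v _ ↦ pow_le_pow_left₀ (apply_nonneg v (z * q)) (hz v) _
    have h3 : E * E ^ ∑ v ∈ Finset.univ.erase w', v.mult ≤ E ^ d := by
      rw [← pow_succ']
      refine pow_le_pow_right₀ (le_max_right _ _) ?_
      simp only [d]
      rw [← Finset.add_sum_erase _ _ (Finset.mem_univ w'), hm w']
      omega
    calc (w' (z * q) : ℝ) ^ 2 * ∏ v ∈ Finset.univ.erase w', v (z * q) ^ v.mult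
        ≤ w' (z * q) * E * E ^ ∑ v ∈ Finset.univ.erase w', v.mult := by
          rw [sq]
          gcongr
          exact hz w'
      _ ≤ w' (z * q) * E ^ d := by
          rw [mul_assoc]; exact mul_le_mul_of_nonneg_left h3 (apply_nonneg w' _)
  have key : w (z * q) ≤ (E ^ d * e⁻¹ + 1) * E * w' (z * q) := by
    have h1 : 1 ≤ E ^ d * e⁻¹ * w' (z * q) := by
      rw [← div_eq_mul_inv, div_mul_eq_mul_div, le_div_iff₀ he, one_mul]
      linarith
    calc w (z * q) ≤ E := hz w
      _ = E * 1 := (mul_one E).symm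
      _ ≤ E * (E ^ d * e⁻¹ * w' (z * q)) := mul_le_mul_of_nonneg_left h1 hE.le
      _ ≤ (E ^ d * e⁻¹ + 1) * E * w' (z * q) := by
          have := mul_nonneg hE.le (apply_nonneg w' (z * q))
          nlinarith
  rw [map_mul w, map_mul w', hq, hq, ← mul_assoc] at key
  exact le_of_mul_le_mul_right key (by positivity)

end FLTAgent.LT.RS
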