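import Fermat.Agent.LT.RS.Hecke
import Fermat.Agent.LT.RS.Balance

/-!
A base coefficient: a nonzero coefficient at an idele of exact conductor at every good place.
-/

set_option autoImplicit false

noncomputable section

namespace FLTAgent.LT.RS

open NumberField IsDedekindDomain

variable {F : Type*} [Field F] [NumberField F]

local notation "HS" => HeightOneSpectrum (𝓞 F)

theorem finite_valued_ne_one (a : (Af F)ˣ) : {v : HS | Valued.v ((a : Af F) v) ≠ 1}.Finite :=
  (finite_mulSupport_norm a).subset fun _ hv h ↦ hv (norm_completion_eq_one_iff.1 h)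

theorem finite_valuation_ne_one {x : F} (hx : x ≠ 0) : {v : HS | v.valuation F x ≠ 1}.Finite :=
  (finite_valued_ne_one (Units.map (algebraMap F (Af F)).toMonoidHom (Units.mk0 x hx))).subset
    fun v hv h ↦ hv (by rw [← Red.valued_algebraMap]; exact h)

theorem finite_dualSup_ne_one : {v : HS | dualSup F v ≠ 1}.Finite := by
  refine (Set.finite_iUnion fun i : Idx F ↦ finite_valuation_ne_one (dualVec_ne_zero i)).subset
    fun v hv ↦ ?_
  obtain ⟨i, hi⟩ := exists_dualSup_eq v
  exact Set.mem_iUnion.2 ⟨i, fun h ↦ hv (hi.trans h)⟩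

theorem valued_idelePow (n : HS →₀ ℕ) (v : HS) :
    Valued.v ((idelePow n : Af F) v) = WithZero.exp (-(n v : ℤ)) := by
  classical
  induction n using Finsupp.induction with
  | zero =>
    rw [idelePow_apply_of_notMem (by simp), map_one]
    simp
  | single_add w k m hw hk ih =>
    have hd : Disjoint (Finsupp.single w k).support m.support := by
      rw [Finsupp.support_single_ne_zero _ hk]; simpa using hw
    have e : idelePow (Finsupp.single w k + m) = unifIdele w ^ k * idelePow m := by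
      simp only [idelePow]
      rw [Finsupp.prod_add_index_of_disjoint hd, Finsupp.prod_single_index (by simp)]
    rw [e, Units.val_mul, af_mul_apply, map_mul, ih, Finsupp.add_apply]
    have hpow : ∀ j : ℕ, Valued.v (((unifIdele w ^ j : (Af F)ˣ) : Af F) v) =
        WithZero.exp (-((Finsupp.single w j v : ℕ) : ℤ)) := by
      intro j
      induction j with
      | zero => rw [pow_zero, Units.val_one, show (1 : Af F) v = 1 from rfl]; simp
      | succ j ihj =>
        rw [pow_succ, Units.val_mul, af_mul_apply, map_mul, ihj]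
        rcases eq_or_ne v w with rfl | h
        · rw [valued_unifIdele, ← WithZero.exp_add]; simp [add_comm]
        · rw [unifIdele_apply_ne h, map_one]; simp [h]
    rw [hpow, ← WithZero.exp_add]
    push_cast; ring_nf

theorem idN_unifIdele (v : HS) :
    idN F (unifIdele v) = (Nat.card (𝓞 F ⧸ v.asIdeal) : ℝ)⁻¹ := by
  show ∏ᶠ w : HS, ‖(unifIdele v : Af F) w‖ = _
  rw [finprod_eq_single _ v fun w hw ↦ by rw [unifIdele_apply_ne hw, norm_one],
    FinitePlace.norm_def, valued_unifIdele,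
    WithZeroMulInt.toNNReal_neg_apply _ WithZero.exp_ne_zero]
  have hu : ∀ h : (WithZero.exp (-1 : ℤ)) ≠ 0, WithZero.unzero h = Multiplicative.ofAdd (-1 : ℤ) :=
    fun h ↦ WithZero.coe_inj.1 ((WithZero.coe_unzero h).trans rfl)
  rw [hu]
  simp [Ideal.absNorm_apply, Submodule.cardQuot_apply]

theorem idN_idelePow (n : HS →₀ ℕ) :
    idN F (idelePow n) = (n.prod fun v k ↦ (Nat.card (𝓞 F ⧸ v.asIdeal) : ℝ) ^ k)⁻¹ := by
  rw [idelePow, Finsupp.prod, Finsupp.prod, map_prod, ← Finset.prod_inv_distrib]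
  exact Finset.prod_congr rfl fun v _ ↦ by rw [map_pow, idN_unifIdele, inv_pow]

variable [IsTotallyComplex F]

/-- **A base coefficient.** -/
theorem exists_base {φ : Form F} {N : ℕ} (hN : 0 < N) (hφ : CuspZero N φ) {c : HS → ℝ}
    (he : ∀ v : HS, (N : 𝓞 F) ∉ v.asIdeal → ∀ x g, hecke v φ x g = (c v : ℂ) * φ x g)
    {x : Xinf F} {g : GF F} (hne : φ x g ≠ 0) :
    ∃ (g0 : GF F) (α : (Af F)ˣ) (ξ : F) (t : Tinf F), InLevel 1 g0 ∧ ξ ≠ 0 ∧
      (∀ v : HS, (N : 𝓞 F) ∉ v.asIdeal →
        TrivAt v g0 ∧ v.valuation F ξ * Valued.v ((α : Af F) v) = dualSup F v) ∧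
      wh φ (upperGF α 0 * g0) ξ t ≠ 0 := by
  classical
  obtain ⟨k, hk, hk0⟩ := Red.exists_upper g
  obtain ⟨a, b, z, hgk⟩ := Red.eq_upperGF_mul_scalar _ hk0
  set k' := k⁻¹
  have hone : ∀ (v : HS) (i j : Fin 2),
      Valued.v ((1 : Matrix (Fin 2) (Fin 2) (Af F)) i j v) ≤ 1 := fun v i j ↦ by
    rw [show (1 : Matrix (Fin 2) (Fin 2) (Af F)) i j v = Red.loc v 1 i j from rfl, Red.loc_one]
    exact Red.entLe_one v i j
  have hk' : InLevel 1 k' := Red.InLevel.inv hk
  set M : Matrix (Fin 2) (Fin 2) (Af F) := fun i j ↦ Red.mkInt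
    (fun v ↦ if (N : 𝓞 F) ∈ v.asIdeal then (k' : Matrix (Fin 2) (Fin 2) (Af F)) i j v
      else (1 : Matrix (Fin 2) (Fin 2) (Af F)) i j v)
    (fun v ↦ by
      split_ifs
      · exact Red.intg_entry hk' i j v
      · exact hone v i j)
  set M' : Matrix (Fin 2) (Fin 2) (Af F) := fun i j ↦ Red.mkInt
    (fun v ↦ if (N : 𝓞 F) ∈ v.asIdeal then (k : Matrix (Fin 2) (Fin 2) (Af F)) i j v
      else (1 : Matrix (Fin 2) (Fin 2) (Af F)) i j v)
    (fun v ↦ by
      split_ifs
      · exact Red.intg_entry hk i j v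
      · exact hone v i j)
  have hM : ∀ v, Red.loc v M = if (N : 𝓞 F) ∈ v.asIdeal
      then Red.loc v (k' : Matrix (Fin 2) (Fin 2) (Af F)) else 1 := fun v ↦ by
    refine Matrix.ext fun i j ↦ ?_
    show M i j v = _
    simp only [M, Red.mkInt_apply]
    split_ifs
    · rfl
    · exact congrFun (congrFun (Red.loc_one v) i) j
  have hM' : ∀ v, Red.loc v M' = if (N : 𝓞 F) ∈ v.asIdeal
      then Red.loc v (k : Matrix (Fin 2) (Fin 2) (Af F)) else 1 := fun v ↦ by
    refine Matrix.ext fun i j ↦ ?_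
    show M' i j v = _
    simp only [M', Red.mkInt_apply]
    split_ifs
    · rfl
    · exact congrFun (congrFun (Red.loc_one v) i) j
  have e1 : M * M' = 1 := Red.loc_ext fun v ↦ by
    rw [Red.loc_mul, hM, hM', Red.loc_one]
    split_ifs
    · rw [← Red.loc_mul, ← Units.val_mul, inv_mul_cancel, Units.val_one, Red.loc_one]
    · rw [one_mul]
  have e2 : M' * M = 1 := Red.loc_ext fun v ↦ by
    rw [Red.loc_mul, hM, hM', Red.loc_one]
    split_ifs
    · rw [← Red.loc_mul, ← Units.val_mul, mul_inv_cancel, Units.val_one, Red.loc_one]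
    · rw [one_mul]
  let g0 : GF F := ⟨M, M', e1, e2⟩
  have hg0 : InLevel 1 g0 := Red.inLevel_one_of_intg
    (fun i j v ↦ by
      show Valued.v (M i j v) ≤ 1
      simp only [M, Red.mkInt_apply]
      split_ifs
      · exact Red.intg_entry hk' i j v
      · exact hone v i j)
    (fun i j v ↦ by
      show Valued.v (M' i j v) ≤ 1
      simp only [M', Red.mkInt_apply]
      split_ifs
      · exact Red.intg_entry hk i j v
      · exact hone v i j)
  have hgood : ∀ v : HS, (N : 𝓞 F) ∉ v.asIdeal → TrivAt v g0 := fun v hv ↦ by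
    rw [TrivAt, show (g0 : Matrix (Fin 2) (Fin 2) (Af F)) = M from rfl, hM, if_neg hv]
  have hrest : InLevel N (g0⁻¹ * k') := by
    have h1 : InLevel 1 (g0⁻¹ * k') := Red.InLevel.mul (Red.InLevel.inv hg0) hk'
    refine Red.inLevel_iff.2 fun v ↦ ?_
    by_cases hv : (N : 𝓞 F) ∈ v.asIdeal
    · have e : Red.loc v ((g0⁻¹ * k' : GF F) : Matrix (Fin 2) (Fin 2) (Af F)) = 1 := by
        rw [Units.val_mul, Red.loc_mul, show ((g0⁻¹ : GF F) : Matrix (Fin 2) (Fin 2) (Af F)) = M'
          from rfl, hM', if_pos hv, ← Red.loc_mul, ← Units.val_mul, mul_inv_cancel, Units.val_one,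
          Red.loc_one]
      have e' : Red.loc v (((g0⁻¹ * k')⁻¹ : GF F) : Matrix (Fin 2) (Fin 2) (Af F)) = 1 := by
        rw [mul_inv_rev, inv_inv g0, Units.val_mul, Red.loc_mul,
          show (g0 : Matrix (Fin 2) (Fin 2) (Af F)) = M from rfl, hM, if_pos hv, ← Red.loc_mul,
          ← Units.val_mul, show k'⁻¹ * k' = 1 from inv_mul_cancel k', Units.val_one, Red.loc_one]
      rw [e, e', sub_self]
      exact ⟨fun i j ↦ by simp, fun i j ↦ by simp⟩
    · rw [Red.valued_natCast_eq_one hv]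
      have h2 := Red.inLevel_iff.1 h1 v
      rw [Red.valued_natCast, show v.intValuation ((1 : ℕ) : 𝓞 F) = 1 by simp] at h2
      exact h2
  have hg : φ x g = φ x (upperGF 1 b * (upperGF a 0 * g0)) := by
    rw [show g = upperGF a b * scalarGF z * k' by rw [← hgk, mul_inv_cancel_right],
      mul_assoc, Red.scalarGF_comm, ← mul_assoc, hφ.aut.central,
      show upperGF a b * k' = upperGF a b * g0 * (g0⁻¹ * k') by group, hφ.aut.right_inv _ hrest,
      ← mul_assoc, Red.upperGF_mul]
    simp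
  rw [hg] at hne
  obtain ⟨D, hD, hsmall⟩ := exists_conj_bound (upperGF a 0 * g0)
  obtain ⟨η, hη⟩ := Red.exists_sub_le b (Nat.mul_pos hD hN)
  rw [apply_upperGF_mul hφ.aut (hsmall N _ hη)] at hne
  obtain ⟨m, hm⟩ := exists_hasPeriod hN hφ.aut (upperGF a 0 * g0)
  obtain ⟨κ, hκ⟩ := exists_wh_ne_zero (hφ.cont _) hm hne
  set ξ := xiOf (F := F) m κ
  set t : Tinf F := fun w ↦ (translate (-embF η) x w).2
  have hξ : ξ ≠ 0 := fun h ↦ hκ (by rw [h]; exact wh_zero (hφ.cont _) hφ.cusp _)
  have hle : ∀ v : HS, (N : 𝓞 F) ∉ v.asIdeal →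
      v.valuation F ξ * Valued.v ((a : Af F) v) ≤ dualSup F v := fun v hv ↦ by
    by_contra h
    exact hκ (wh_vanish hN hφ.aut hφ.cont hv a (hgood v hv) (not_le.1 h) t)
  set e : HS → ℕ := fun v ↦ if (N : 𝓞 F) ∈ v.asIdeal then 0 else
    (WithZero.log (dualSup F v) - WithZero.log (v.valuation F ξ * Valued.v ((a : Af F) v))).toNat
  have hfin : (Function.support e).Finite := by
    refine ((finite_dualSup_ne_one (F := F)).union
      ((finite_valuation_ne_one hξ).union (finite_valued_ne_one a))).subset fun v hv ↦ ?_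
    by_contra h
    simp only [Set.mem_union, Set.mem_ofPred_eq, not_or, not_not] at h
    simp [e, h.1, h.2.1, h.2.2] at hv
  set n := Finsupp.ofSupportFinite e hfin
  have hn : ∀ v, n v = e v := fun v ↦ rfl
  set α := a * (idelePow n)⁻¹
  have hex : ∀ v : HS, (N : 𝓞 F) ∉ v.asIdeal →
      v.valuation F ξ * Valued.v ((α : Af F) v) = dualSup F v := fun v hv ↦ by
    have h0 : v.valuation F ξ * Valued.v ((a : Af F) v) ≠ 0 :=
      mul_ne_zero ((map_ne_zero _).2 hξ) ((map_ne_zero _).2 (Red.unit_apply_ne_zero a v))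
    simp only [α, Units.val_mul, af_mul_apply, map_mul, Red.valued_inv, valued_idelePow, hn, e,
      if_neg hv, ← mul_assoc]
    rw [Int.toNat_of_nonneg (sub_nonneg.2 ((WithZero.log_le_log h0 (dualSup_ne_zero v)).2 (hle v hv))),
      ← WithZero.exp_neg, neg_neg, sub_eq_add_neg, WithZero.exp_add, WithZero.exp_neg,
      WithZero.exp_log (dualSup_ne_zero v), WithZero.exp_log h0, mul_comm, mul_assoc,
      inv_mul_cancel₀ h0, mul_one]
  refine ⟨g0, α, ξ, t, hg0, hξ, fun v hv ↦ ⟨hgood v hv, hex v hv⟩, fun h0 ↦ hκ ?_⟩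
  have h := wh_idelePow hN hφ.aut hφ.cont (c := c) α (g0 := g0) hξ t n fun v hv ↦ by
    have hv' : (N : 𝓞 F) ∉ v.asIdeal := fun h ↦ by
      rw [Finsupp.mem_support_iff, hn] at hv
      simp [e, h] at hv
    exact ⟨hv', hgood v hv', he v hv', hex v hv'⟩
  rw [h0, mul_zero, show α * idelePow n = a from inv_mul_cancel_right a _] at h
  exact h

end FLTAgent.LT.RS
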