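import Fermat.Agent.LT.RS.Lattice
import Fermat.Agent.LT.Red.Approx

/-!
Fourier coefficients of automorphic functions along the unipotent group: independence of the
period, Parseval, vanishing of the constant term, equivariance under the Borel subgroup.
-/

set_option autoImplicit false

noncomputable section

namespace FLTAgent.LT.RS

open NumberField IsDedekindDomain MeasureTheory Complex
open FLTAgent.LT.Theta31 (echar rvec)
open scoped Real ComplexConjugate

variable {F : Type*} [Field F] [NumberField F]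

/-- The vertical coordinates. -/
abbrev Tinf (F : Type*) [Field F] [NumberField F] := InfinitePlace F → Set.Ioi (0 : ℝ)

/-- The point with given coordinates. -/
def ptX (z : InfinitePlace F → ℂ) (t : Tinf F) : Xinf F := fun w ↦ (z w, t w)

theorem ptX_eta (x : Xinf F) : ptX (fun w ↦ (x w).1) (fun w ↦ (x w).2) = x := rfl

theorem translate_ptX (z z0 : InfinitePlace F → ℂ) (t : Tinf F) :
    translate z (ptX z0 t) = ptX (z0 + z) t := rfl

/-- `x ↦ φ(x, g)` is invariant under translations by `m · O_F`. -/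
structure HasPeriod (φ : Form F) (g : GF F) (m : ℕ) : Prop where
  pos : 0 < m
  inv : ∀ (β : 𝓞 F) (x : Xinf F),
    φ (translate (fun w ↦ (m : ℂ) * w.embedding (β : F)) x) g = φ x g

theorem HasPeriod.mul {φ : Form F} {g : GF F} {m : ℕ} (h : HasPeriod φ g m) {n : ℕ} (hn : 0 < n) :
    HasPeriod φ g (m * n) :=
  ⟨Nat.mul_pos h.pos hn, fun β x ↦ by
    have := h.inv ((n : 𝓞 F) * β) x
    push_cast [map_mul, map_natCast] at this ⊢
    simpa only [mul_assoc] using this⟩

theorem HasPeriod.mul_left {φ : Form F} {g : GF F} {m : ℕ} (h : HasPeriod φ g m) {n : ℕ}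
    (hn : 0 < n) : HasPeriod φ g (n * m) := mul_comm m n ▸ h.mul hn

/-- The restriction to a horosphere in box coordinates. -/
def periodFun (φ : Form F) (g : GF F) (m : ℕ) (t : Tinf F) (y : Idx F → ℝ) : ℂ :=
  φ (ptX (boxVec m y) t) g

theorem periodFun_mul (φ : Form F) (g : GF F) (m n : ℕ) (t : Tinf F) :
    periodFun φ g (m * n) t = fun y ↦ periodFun φ g m t ((n : ℝ) • y) :=
  funext fun y ↦ by rw [periodFun, periodFun, boxVec_smul]

theorem continuous_periodFun {φ : Form F} {g : GF F} (hc : Continuous fun x ↦ φ x g) (m : ℕ)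
    (t : Tinf F) : Continuous (periodFun φ g m t) := by
  refine hc.comp (continuous_pi fun w ↦ ?_)
  exact ((continuous_apply w).comp (continuous_boxVec m)).prodMk continuous_const

theorem zperiodic_periodFun {φ : Form F} {g : GF F} (hc : Continuous fun x ↦ φ x g) {m : ℕ}
    (h : HasPeriod φ g m) (t : Tinf F) : ZPeriodic (periodFun φ g m t) :=
  ⟨continuous_periodFun hc m t, fun y v ↦ by
    show φ (ptX (boxVec m (y + rvec v)) t) g = _
    rw [boxVec_add, boxVec_rvec, ← translate_ptX, h.inv]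
    rfl⟩

/-- The Fourier coefficient of frequency `ξ` at height `t`. -/
def wh (φ : Form F) (g : GF F) (ξ : F) (t : Tinf F) : ℂ :=
  open Classical in
  if h : ∃ m, HasPeriod φ g m ∧ IsDual m ξ then fc (periodFun φ g h.choose t) (kvec h.choose ξ)
  else 0

theorem fc_periodFun_mul {φ : Form F} {g : GF F} (hc : Continuous fun x ↦ φ x g) {m : ℕ}
    (h : HasPeriod φ g m) {n : ℕ} (hn : 0 < n) {ξ : F} (hd : IsDual (m * n) ξ) (t : Tinf F) :
    (IsDual m ξ → fc (periodFun φ g (m * n) t) (kvec (m * n) ξ) =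
      fc (periodFun φ g m t) (kvec m ξ)) ∧
    (¬ IsDual m ξ → fc (periodFun φ g (m * n) t) (kvec (m * n) ξ) = 0) := by
  have hz := zperiodic_periodFun hc h t
  refine ⟨fun hm ↦ ?_, fun hm ↦ ?_⟩
  · have e : kvec (m * n) ξ = (n : ℤ) • kvec m ξ := by
      conv_lhs => rw [← xiOf_kvec h.pos hm]
      rw [← xiOf_mul h.pos hn, kvec_xiOf (Nat.mul_pos h.pos hn)]
    rw [e, periodFun_mul, fc_dilate hz hn]
  · obtain ⟨i, hi⟩ : ∃ i, ¬ (n : ℤ) ∣ kvec (m * n) ξ i := by
      by_contra hall
      push Not at hall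
      apply hm
      rw [← xiOf_kvec (Nat.mul_pos h.pos hn) hd]
      exact (isDual_xiOf_iff h.pos hn _).2 hall
    rw [periodFun_mul]
    exact fc_dilate_eq_zero hz hn hi

theorem isDual_mul {m : ℕ} {ξ : F} (h : IsDual m ξ) (n : ℕ) : IsDual (m * n) ξ := fun i ↦ by
  obtain ⟨k, hk⟩ := h i
  refine ⟨k * n, ?_⟩
  simp only [freq] at hk ⊢
  push_cast
  rw [← hk]; ring

/-- The coefficient may be computed with any period. -/
theorem fc_periodFun_eq_wh {φ : Form F} {g : GF F} (hc : Continuous fun x ↦ φ x g) {m : ℕ}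
    (h : HasPeriod φ g m) (k : Idx F → ℤ) (t : Tinf F) :
    fc (periodFun φ g m t) k = wh φ g (xiOf m k) t := by
  classical
  have hex : ∃ m', HasPeriod φ g m' ∧ IsDual m' (xiOf m k) := ⟨m, h, isDual_xiOf h.pos k⟩
  rw [wh, dif_pos hex]
  obtain ⟨h', hd'⟩ := hex.choose_spec
  have e1 := (fc_periodFun_mul hc h h'.pos (isDual_mul (isDual_xiOf h.pos k) hex.choose) t).1
    (isDual_xiOf h.pos k)
  have e2 := (fc_periodFun_mul hc h' h.pos (isDual_mul hd' m) t).1 hd'
  rw [kvec_xiOf h.pos] at e1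
  rw [← e1, ← e2, mul_comm m]

theorem wh_eq_zero_of_forall {φ : Form F} {g : GF F} {ξ : F}
    (h : ∀ m, HasPeriod φ g m → ¬ IsDual m ξ) (t : Tinf F) : wh φ g ξ t = 0 := by
  rw [wh, dif_neg]
  rintro ⟨m, hm, hd⟩
  exact h m hm hd

/-- With a period, the coefficient of a frequency outside the dual lattice vanishes. -/
theorem wh_eq_zero_of_not_isDual {φ : Form F} {g : GF F} (hc : Continuous fun x ↦ φ x g) {m : ℕ}
    (h : HasPeriod φ g m) {ξ : F} (hξ : ¬ IsDual m ξ) (t : Tinf F) : wh φ g ξ t = 0 := by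
  classical
  by_cases hex : ∃ m', HasPeriod φ g m' ∧ IsDual m' ξ
  · obtain ⟨m', h', hd'⟩ := hex
    have hd : IsDual (m * m') ξ := mul_comm m' m ▸ isDual_mul hd' m
    have e := (fc_periodFun_mul hc h h'.pos hd t).2 hξ
    rw [fc_periodFun_eq_wh hc (h.mul h'.pos), xiOf_kvec (Nat.mul_pos h.pos h'.pos) hd] at e
    exact e
  · exact wh_eq_zero_of_forall (fun m' h' hd' ↦ hex ⟨m', h', hd'⟩) t

theorem wh_congr {φ ψ : Form F} {g h : GF F} (e : ∀ x, φ x g = ψ x h) (ξ : F) (t : Tinf F)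
    (hc : Continuous fun x ↦ φ x g) : wh φ g ξ t = wh ψ h ξ t := by
  classical
  have hc' : Continuous fun x ↦ ψ x h := hc.congr fun x ↦ e x
  have hP : ∀ m, HasPeriod φ g m ↔ HasPeriod ψ h m := fun m ↦
    ⟨fun hp ↦ ⟨hp.pos, fun β x ↦ by rw [← e, ← e, hp.inv]⟩,
      fun hp ↦ ⟨hp.pos, fun β x ↦ by rw [e, e, hp.inv]⟩⟩
  have hF : ∀ m, periodFun φ g m t = periodFun ψ h m t := fun m ↦ funext fun y ↦ e _
  by_cases hex : ∃ m, HasPeriod φ g m ∧ IsDual m ξ
  · obtain ⟨m, hm, hd⟩ := hex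
    rw [← xiOf_kvec hm.pos hd, ← fc_periodFun_eq_wh hc hm, ← fc_periodFun_eq_wh hc' ((hP m).1 hm),
      hF]
  · rw [wh_eq_zero_of_forall (fun m hm hd ↦ hex ⟨m, hm, hd⟩),
      wh_eq_zero_of_forall (fun m hm hd ↦ hex ⟨m, (hP m).2 hm, hd⟩)]

theorem norm_wh_le {φ : Form F} {g : GF F} (hc : Continuous fun x ↦ φ x g) {C : ℝ} (hC : 0 ≤ C)
    (hb : ∀ x, ‖φ x g‖ ≤ C) (ξ : F) (t : Tinf F) : ‖wh φ g ξ t‖ ≤ C := by
  classical
  by_cases hex : ∃ m, HasPeriod φ g m ∧ IsDual m ξ
  · obtain ⟨m, hm, hd⟩ := hex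
    rw [← xiOf_kvec hm.pos hd, ← fc_periodFun_eq_wh hc hm]
    exact norm_fc_le (fun y ↦ hb _) _
  · rw [wh_eq_zero_of_forall (fun m hm hd ↦ hex ⟨m, hm, hd⟩), norm_zero]
    exact hC

/-! ### Unipotent conjugates are small -/

/-- The unipotent of a field element. -/
def unipF (η : F) : GL (Fin 2) F where
  val := !![1, η; 0, 1]
  inv := !![1, -η; 0, 1]
  val_inv := by ext i j; fin_cases i <;> fin_cases j <;> simp [Matrix.mul_apply, Fin.sum_univ_two]
  inv_val := by ext i j; fin_cases i <;> fin_cases j <;> simp [Matrix.mul_apply, Fin.sum_univ_two]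

theorem toFin_unipF (η : F) : toFin (unipF η) = upperGF 1 (algebraMap F (Af F) η) := by
  apply Units.ext
  ext i j
  fin_cases i <;> fin_cases j <;> simp [toFin, unipF, upperGF]

theorem actInf_unipF (η : F) (x : Xinf F) : actInf (unipF η) x = translate (embF η) x := by
  funext w
  have hden : den (Matrix.GeneralLinearGroup.map w.embedding (unipF η)) (x w) = 1 := by
    simp [den, unipF]
  refine Prod.ext ?_ (Subtype.ext ?_)
  · simp [actInf, act, den, translate, embF, unipF]
  · simp [actInf, act, den, translate, unipF, Matrix.det_fin_two]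

theorem upperGF_one_add (b c : Af F) : upperGF (1 : (Af F)ˣ) (b + c) = upperGF 1 b * upperGF 1 c := by
  apply Units.ext
  ext i j
  fin_cases i <;> fin_cases j <;> simp [upperGF, Matrix.mul_apply, Fin.sum_univ_two, add_comm]

theorem af_mul_apply (a b : Af F) (v : HeightOneSpectrum (𝓞 F)) : (a * b) v = a v * b v := rfl

/-- Conjugates of unipotents with small parameter are in the level group. -/
theorem exists_conj_bound (g : GF F) : ∃ D : ℕ, 0 < D ∧ ∀ (N : ℕ) (b : Af F),
    (∀ v, Valued.v (b v) ≤ Valued.v (((D * N : ℕ) : Af F) v)) →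
      InLevel N (g⁻¹ * upperGF 1 b * g) := by
  classical
  choose n hn hle using fun p : Fin 2 × Fin 2 ↦ Red.exists_natCast_mul_le_one
    (((g⁻¹ : GF F) : Matrix (Fin 2) (Fin 2) (Af F)) p.1 0 *
      (g : Matrix (Fin 2) (Fin 2) (Af F)) 1 p.2)
  refine ⟨∏ p, n p, Finset.prod_pos fun p _ ↦ hn p, fun N b hb v i j ↦ ?_⟩
  have key : ∀ c : Af F, Valued.v (c v) ≤ Valued.v ((((∏ p, n p) * N : ℕ) : Af F) v) →
      Valued.v (((g⁻¹ * upperGF 1 c * g : GF F) : Matrix (Fin 2) (Fin 2) (Af F)) i j v -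
        (1 : Matrix (Fin 2) (Fin 2) (Af F)) i j v) ≤ Valued.v ((N : Af F) v) := by
    intro c hc
    have hm : ((g⁻¹ * upperGF 1 c * g : GF F) : Matrix (Fin 2) (Fin 2) (Af F)) =
        1 + ((g⁻¹ : GF F) : Matrix (Fin 2) (Fin 2) (Af F)) * !![0, c; 0, 0] *
          (g : Matrix (Fin 2) (Fin 2) (Af F)) := by
      have hu : ((upperGF 1 c : GF F) : Matrix (Fin 2) (Fin 2) (Af F)) = 1 + !![0, c; 0, 0] := by
        ext a a'; fin_cases a <;> fin_cases a' <;> simp [upperGF]
      rw [Units.val_mul, Units.val_mul, hu, mul_add, mul_one, add_mul, ← Units.val_mul,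
        inv_mul_cancel, Units.val_one]
    rw [hm]
    have e : (((g⁻¹ : GF F) : Matrix (Fin 2) (Fin 2) (Af F)) * !![0, c; 0, 0] *
        (g : Matrix (Fin 2) (Fin 2) (Af F))) i j =
        c * (((g⁻¹ : GF F) : Matrix (Fin 2) (Fin 2) (Af F)) i 0 *
          (g : Matrix (Fin 2) (Fin 2) (Af F)) 1 j) := by
      simp [Matrix.mul_apply, Fin.sum_univ_two]; ring
    rw [Matrix.add_apply, e]
    set P := ((g⁻¹ : GF F) : Matrix (Fin 2) (Fin 2) (Af F)) i 0 *
      (g : Matrix (Fin 2) (Fin 2) (Af F)) 1 j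
    show Valued.v ((1 : Matrix (Fin 2) (Fin 2) (Af F)) i j v + c v * P v -
      (1 : Matrix (Fin 2) (Fin 2) (Af F)) i j v) ≤ _
    rw [add_sub_cancel_left, map_mul]
    refine (mul_le_mul' hc le_rfl).trans ?_
    rw [← Finset.mul_prod_erase _ _ (Finset.mem_univ (i, j)), Nat.cast_mul, Nat.cast_mul,
      af_mul_apply, af_mul_apply, map_mul, map_mul]
    have h1 := hle (i, j) v
    rw [af_mul_apply, map_mul] at h1
    calc Valued.v ((n (i, j) : Af F) v) *
          Valued.v (((∏ p ∈ Finset.univ.erase (i, j), n p : ℕ) : Af F) v) *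
          Valued.v ((N : Af F) v) * Valued.v (P v)
        = Valued.v (((∏ p ∈ Finset.univ.erase (i, j), n p : ℕ) : Af F) v) *
            Valued.v ((N : Af F) v) * (Valued.v ((n (i, j) : Af F) v) * Valued.v (P v)) := by
          simp only [mul_assoc, mul_left_comm, mul_comm]
      _ ≤ 1 * Valued.v ((N : Af F) v) * 1 := by
          gcongr
          · exact Red.valued_natCast_le_one _ v
      _ = _ := by rw [one_mul, mul_one]
  refine ⟨key b (hb v), ?_⟩
  have hinv : (g⁻¹ * upperGF 1 b * g)⁻¹ = g⁻¹ * upperGF 1 (-b) * g := by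
    have : (upperGF (1 : (Af F)ˣ) b)⁻¹ = upperGF 1 (-b) := by
      refine inv_eq_of_mul_eq_one_right ?_
      rw [← upperGF_one_add, add_neg_cancel]
      apply Units.ext
      ext a a'; fin_cases a <;> fin_cases a' <;> simp [upperGF]
    rw [← this]; group
  rw [hinv]
  refine key (-b) ?_
  show Valued.v (-(b v)) ≤ _
  rw [Valuation.map_neg]
  exact hb v

/-- `φ(x, u(b) g) = φ(x - σ η, g)` when `b - η` is small. -/
theorem apply_upperGF_mul {φ : Form F} {N : ℕ} (ha : Automorphic N φ) {g : GF F} {b : Af F} {η : F}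
    (hk : InLevel N (g⁻¹ * upperGF 1 (b - algebraMap F (Af F) η) * g)) (x : Xinf F) :
    φ x (upperGF 1 b * g) = φ (translate (-embF η) x) g := by
  have e : upperGF 1 b * g = toFin (unipF η) *
      (g * (g⁻¹ * upperGF 1 (b - algebraMap F (Af F) η) * g)) := by
    rw [toFin_unipF, mul_assoc g⁻¹, mul_inv_cancel_left, ← mul_assoc, ← upperGF_one_add,
      add_sub_cancel]
  have hx : x = actInf (unipF η) (translate (-embF η) x) := by
    rw [actInf_unipF]
    funext w
    simp [translate, embF]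
  rw [e]
  conv_lhs => rw [hx]
  rw [ha.left_inv, ha.right_inv _ hk]

theorem exists_hasPeriod {φ : Form F} {N : ℕ} (hN : 0 < N) (ha : Automorphic N φ) (g : GF F) :
    ∃ m, HasPeriod φ g m := by
  obtain ⟨D, hD, hsmall⟩ := exists_conj_bound g
  refine ⟨D * N, Nat.mul_pos hD hN, fun β x ↦ ?_⟩
  set c : F := ((D * N : ℕ) : F) * (β : F)
  have hk : InLevel N (g⁻¹ * upperGF 1 (algebraMap F (Af F) (-c) - algebraMap F (Af F) 0) * g) := by
    refine hsmall N _ fun v ↦ ?_
    rw [map_zero, sub_zero, map_neg]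
    show Valued.v (-(algebraMap F (Af F) c v)) ≤ _
    rw [Valuation.map_neg, map_mul, af_mul_apply, map_mul, map_natCast]
    refine mul_le_of_le_one_right' ?_
    rw [Red.valued_algebraMap]
    exact v.valuation_le_one β
  have h1 := apply_upperGF_mul ha (η := 0) hk x
  have hk2 : InLevel N (g⁻¹ *
      upperGF 1 (algebraMap F (Af F) (-c) - algebraMap F (Af F) (-c)) * g) :=
    hsmall N _ fun v ↦ by
      rw [sub_self]
      show Valued.v (0 : v.adicCompletion F) ≤ _
      simp
  have h2 := apply_upperGF_mul ha (η := -c) hk2 x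
  rw [h2] at h1
  convert h1 using 2
  · funext w
    simp [translate, embF, c]
  · funext w
    simp [translate, embF]

/-- Parseval on the horosphere. -/
theorem hasSum_mul_wh {φ ψ : Form F} {g h : GF F} (hc : Continuous fun x ↦ φ x g)
    (hc' : Continuous fun x ↦ ψ x h) {m : ℕ} (hp : HasPeriod φ g m) (hp' : HasPeriod ψ h m)
    (t : Tinf F) :
    HasSum (fun k ↦ wh φ g (xiOf m k) t * conj (wh ψ h (xiOf m k) t))
      (∫ y in boxSet (Idx F), φ (ptX (boxVec m y) t) g * conj (ψ (ptX (boxVec m y) t) h)) := by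
  simpa only [fc_periodFun_eq_wh hc hp, fc_periodFun_eq_wh hc' hp', periodFun] using
    hasSum_mul_fc (zperiodic_periodFun hc hp t) (zperiodic_periodFun hc' hp' t)

/-- Parseval for norms. -/
theorem hasSum_sq_wh {φ : Form F} {g : GF F} (hc : Continuous fun x ↦ φ x g) {m : ℕ}
    (hp : HasPeriod φ g m) (t : Tinf F) :
    HasSum (fun k ↦ ‖wh φ g (xiOf m k) t‖ ^ 2)
      (∫ y in boxSet (Idx F), ‖φ (ptX (boxVec m y) t) g‖ ^ 2) := by
  simpa only [fc_periodFun_eq_wh hc hp, periodFun] using hasSum_sq_fc (zperiodic_periodFun hc hp t)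

/-- The constant term vanishes. -/
theorem wh_zero {φ : Form F} {g : GF F} (hc : Continuous fun x ↦ φ x g) (hcusp : Cusp φ)
    (t : Tinf F) : wh φ g 0 t = 0 := by
  classical
  by_cases hex : ∃ m, HasPeriod φ g m ∧ IsDual m (0 : F)
  · obtain ⟨m, hm, -⟩ := hex
    rw [← xiOf_zero m, ← fc_periodFun_eq_wh hc hm, fc, ← hcusp g m hm.pos hm.inv (ptX 0 t)]
    refine setIntegral_congr_fun measurableSet_boxSet fun y _ ↦ ?_
    simp [echar, periodFun, translate_ptX]
  · exact wh_eq_zero_of_forall (fun m hm hd ↦ hex ⟨m, hm, hd⟩) t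

variable [IsTotallyComplex F]

/-- A nonzero value forces a nonzero coefficient. -/
theorem exists_wh_ne_zero {φ : Form F} {g : GF F} (hc : Continuous fun x ↦ φ x g) {m : ℕ}
    (hp : HasPeriod φ g m) {x : Xinf F} (hx : φ x g ≠ 0) :
    ∃ k : Idx F → ℤ, wh φ g (xiOf m k) (fun w ↦ (x w).2) ≠ 0 := by
  by_contra hall
  push Not at hall
  have h := eq_zero_of_fc_eq_zero (zperiodic_periodFun hc hp fun w ↦ (x w).2)
    (fun k ↦ by rw [fc_periodFun_eq_wh hc hp]; exact hall k)
    ((boxEquiv F).symm (fun w ↦ (x w).1 / (m : ℂ)))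
  refine hx ?_
  rw [← h, periodFun]
  congr 1
  have e : boxVec m ((boxEquiv F).symm fun w ↦ (x w).1 / (m : ℂ)) = fun w ↦ (x w).1 := by
    rw [boxVec_eq_smul, ← boxEquiv_apply, LinearEquiv.apply_symm_apply]
    funext w
    simp only [Pi.smul_apply, Complex.real_smul, Complex.ofReal_natCast]
    rw [mul_div_cancel₀ _ (Nat.cast_ne_zero.2 hp.pos.ne')]
  rw [e, ptX_eta]

/-- Left unipotent equivariance. -/
theorem wh_upperGF_mul {φ : Form F} {N : ℕ} (hN : 0 < N) (ha : Automorphic N φ) {g : GF F}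
    (hc : Continuous fun x ↦ φ x g) {b : Af F} {η : F}
    (hk : InLevel N (g⁻¹ * upperGF 1 (b - algebraMap F (Af F) η) * g)) (ξ : F) (t : Tinf F) :
    wh φ (upperGF 1 b * g) ξ t = trChar ξ (-embF η) * wh φ g ξ t := by
  classical
  have hval := fun x ↦ apply_upperGF_mul ha hk x
  have hc' : Continuous fun x ↦ φ x (upperGF 1 b * g) := by
    simp only [hval]
    refine hc.comp (continuous_pi fun w ↦ ?_)
    exact (((continuous_apply w).fst).add continuous_const).prodMk ((continuous_apply w).snd)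
  have hP : ∀ m, HasPeriod φ g m ↔ HasPeriod φ (upperGF 1 b * g) m := by
    have hcomm : ∀ (z z' : InfinitePlace F → ℂ) (x : Xinf F),
        translate z (translate z' x) = translate z' (translate z x) := fun z z' x ↦
      funext fun w ↦ by simp [translate, add_right_comm]
    refine fun m ↦ ⟨fun hp ↦ ⟨hp.pos, fun β x ↦ by rw [hval, hval, hcomm, hp.inv]⟩,
      fun hp ↦ ⟨hp.pos, fun β x ↦ ?_⟩⟩
    have h := hp.inv β (translate (embF η) x)
    rw [hval, hval, hcomm] at h
    have e : translate (-embF η) (translate (embF η) x) = x := by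
      funext w; simp [translate, embF]
    rwa [e] at h
  by_cases hex : ∃ m, HasPeriod φ g m ∧ IsDual m ξ
  · obtain ⟨m, hm, hd⟩ := hex
    set a : Idx F → ℝ := (boxEquiv F).symm (fun w ↦ -embF η w / (m : ℂ))
    have hba : boxVec m a = -embF η := by
      rw [boxVec_eq_smul, ← boxEquiv_apply, LinearEquiv.apply_symm_apply]
      funext w
      simp only [Pi.smul_apply, Complex.real_smul, Complex.ofReal_natCast, Pi.neg_apply]
      rw [mul_div_cancel₀ _ (Nat.cast_ne_zero.2 hm.pos.ne')]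
    have hfun : periodFun φ (upperGF 1 b * g) m t = fun y ↦ periodFun φ g m t (y + a) := by
      funext y
      rw [periodFun, periodFun, hval, translate_ptX, boxVec_add, hba]
    rw [← xiOf_kvec hm.pos hd, ← fc_periodFun_eq_wh hc' ((hP m).1 hm),
      ← fc_periodFun_eq_wh hc hm, hfun, fc_shift (zperiodic_periodFun hc hm t), echar_kvec hd,
      hba, xiOf_kvec hm.pos hd]
  · rw [wh_eq_zero_of_forall (fun m hm hd ↦ hex ⟨m, (hP m).2 hm, hd⟩),
      wh_eq_zero_of_forall (fun m hm hd ↦ hex ⟨m, hm, hd⟩), mul_zero]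

end FLTAgent.LT.RS
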