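import Fermat.Agent.LT.RS.Coef

/-!
Equivariance of the Fourier coefficients under `diag(η, 1)` for a global `η`.
-/

set_option autoImplicit false

noncomputable section

namespace FLTAgent.LT.RS

open NumberField IsDedekindDomain Complex
open scoped Real

variable {F : Type*} [Field F] [NumberField F]

/-- `diag(η, 1)`. -/
def diagF (η : Fˣ) : GL (Fin 2) F where
  val := !![(η : F), 0; 0, 1]
  inv := !![((η⁻¹ : Fˣ) : F), 0; 0, 1]
  val_inv := by ext i j; fin_cases i <;> fin_cases j <;> simp [Matrix.mul_apply, Fin.sum_univ_two]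
  inv_val := by ext i j; fin_cases i <;> fin_cases j <;> simp [Matrix.mul_apply, Fin.sum_univ_two]

theorem diagF_mul (η θ : Fˣ) : diagF (η * θ) = diagF η * diagF θ := by
  apply Units.ext
  ext i j
  fin_cases i <;> fin_cases j <;> simp [diagF, Matrix.mul_apply, Fin.sum_univ_two]

theorem diagF_one : diagF (1 : Fˣ) = 1 := by
  apply Units.ext
  ext i j
  fin_cases i <;> fin_cases j <;> simp [diagF]

theorem toFin_diagF (η : Fˣ) :
    toFin (diagF η) = upperGF (Units.map (algebraMap F (Af F)).toMonoidHom η) 0 := by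
  apply Units.ext
  ext i j
  fin_cases i <;> fin_cases j <;> simp [toFin, diagF, upperGF]

theorem place_pos (η : Fˣ) (w : InfinitePlace F) : 0 < w (η : F) := w.pos_iff.2 η.ne_zero

/-- Heights scaled by `|σ η|`. -/
def scaleT (η : Fˣ) (t : Tinf F) : Tinf F := fun w ↦
  ⟨w (η : F) * t w, mul_pos (place_pos η w) (t w).2⟩

theorem scaleT_mul (η θ : Fˣ) (t : Tinf F) : scaleT (η * θ) t = scaleT η (scaleT θ t) :=
  funext fun w ↦ Subtype.ext (by simp [scaleT, map_mul, mul_assoc])

theorem scaleT_one (t : Tinf F) : scaleT (1 : Fˣ) t = t :=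
  funext fun w ↦ Subtype.ext (by simp [scaleT])

theorem actInf_diagF (η : Fˣ) (z : InfinitePlace F → ℂ) (t : Tinf F) :
    actInf (diagF η) (ptX z t) = ptX (fun w ↦ w.embedding (η : F) * z w) (scaleT η t) := by
  funext w
  refine Prod.ext ?_ (Subtype.ext ?_)
  · simp [actInf, act, den, ptX, diagF]
  · simp [actInf, act, den, ptX, scaleT, diagF, Matrix.det_fin_two,
      InfinitePlace.norm_embedding_eq]

theorem apply_diag_mul {φ : Form F} {N : ℕ} (ha : Automorphic N φ) (η : Fˣ) (g : GF F)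
    (z : InfinitePlace F → ℂ) (t : Tinf F) :
    φ (ptX (fun w ↦ w.embedding (η : F) * z w) (scaleT η t)) (toFin (diagF η) * g) =
      φ (ptX z t) g := by
  rw [← actInf_diagF, ha.left_inv]

/-- The matrix of multiplication by an integer in the integral basis. -/
def mulMat (n : 𝓞 F) (j i : Idx F) : ℤ :=
  (RingOfIntegers.basis F).repr (n * RingOfIntegers.basis F i) j

theorem sum_mulMat (n : 𝓞 F) (i : Idx F) :
    (n : F) * (RingOfIntegers.basis F i : F) =
      ∑ j, (mulMat n j i : F) * (RingOfIntegers.basis F j : F) := by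
  have h := congrArg (fun x : 𝓞 F ↦ (x : F))
    ((RingOfIntegers.basis F).sum_repr (n * RingOfIntegers.basis F i))
  simp only [map_sum, map_mul, zsmul_eq_mul, map_intCast] at h
  exact h.symm

theorem boxVec_intLin_mulMat (m : ℕ) (n : 𝓞 F) (y : Idx F → ℝ) (w : InfinitePlace F) :
    boxVec m (intLin (mulMat n) y) w = w.embedding (n : F) * boxVec m y w := by
  simp only [boxVec, intLin, Complex.ofReal_sum, Complex.ofReal_mul, Complex.ofReal_intCast,
    Finset.sum_mul]
  rw [Finset.sum_comm, Finset.mul_sum, Finset.mul_sum, Finset.mul_sum]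
  refine Finset.sum_congr rfl fun i _ ↦ ?_
  rw [show w.embedding (n : F) * ((m : ℂ) * ((y i : ℂ) * w.embedding (RingOfIntegers.basis F i : F)))
      = (m : ℂ) * ((y i : ℂ) * w.embedding ((n : F) * (RingOfIntegers.basis F i : F))) by
    rw [map_mul]; ring, sum_mulMat, map_sum]
  simp only [Finset.mul_sum]
  exact Finset.sum_congr rfl fun j _ ↦ by rw [map_mul, map_intCast]; ring

variable [IsTotallyComplex F]

theorem surjective_intLin_mulMat {n : 𝓞 F} (hn : n ≠ 0) :
    Function.Surjective (intLin (mulMat n)) := fun z ↦ by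
  refine ⟨(boxEquiv F).symm fun w ↦ boxEquiv F z w / w.embedding (n : F), (boxEquiv F).injective ?_⟩
  funext w
  have hw : w.embedding (n : F) ≠ 0 :=
    (map_ne_zero _).2 (RingOfIntegers.coe_ne_zero_iff.2 hn)
  rw [boxEquiv_apply (intLin (mulMat n) _), boxVec_intLin_mulMat, ← boxEquiv_apply,
    LinearEquiv.apply_symm_apply, mul_div_cancel₀ _ hw]

theorem continuous_fun_toFin_diag {φ : Form F} {N : ℕ} (ha : Automorphic N φ) {g : GF F}
    (hc : Continuous fun x ↦ φ x g) (η : Fˣ) :
    Continuous fun x ↦ φ x (toFin (diagF η) * g) := by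
  have e : (fun x ↦ φ x (toFin (diagF η) * g)) = fun x : Xinf F ↦
      φ (ptX (fun w ↦ w.embedding ((η⁻¹ : Fˣ) : F) * (x w).1) (scaleT η⁻¹ fun w ↦ (x w).2)) g := by
    funext x
    conv_lhs => rw [← ptX_eta x]
    rw [← apply_diag_mul ha η g (fun w ↦ w.embedding ((η⁻¹ : Fˣ) : F) * (x w).1),
      ← scaleT_mul, mul_inv_cancel, scaleT_one]
    congr 1
    funext w
    refine Prod.ext ?_ rfl
    simp [ptX, ← mul_assoc]
  rw [e]
  refine hc.comp (continuous_pi fun w ↦ ?_)
  exact (continuous_const.mul (continuous_apply w).fst).prodMk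
    (Continuous.subtype_mk (continuous_const.mul
      (continuous_subtype_val.comp (continuous_apply w).snd)) _)

theorem wh_diag_mul_of_dual {φ : Form F} {N : ℕ} (hN : 0 < N) (ha : Automorphic N φ) {g : GF F}
    (hc : Continuous fun x ↦ φ x g) (η : Fˣ) {ξ : F} {M : ℕ}
    (hM : HasPeriod φ (toFin (diagF η) * g) M) (hd : IsDual M ξ) (t : Tinf F) :
    wh φ (toFin (diagF η) * g) ξ (scaleT η t) = wh φ g (ξ * η) t := by
  classical
  obtain ⟨m, hm⟩ := exists_hasPeriod hN ha g
  obtain ⟨d, hd0, hle⟩ := Red.exists_natCast_mul_le_one (algebraMap F (Af F) (η : F))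
  obtain ⟨n, hn⟩ : ∃ n : 𝓞 F, (n : F) = (d : F) * η :=
    HeightOneSpectrum.mem_integers_of_valuation_le_one F _ fun v ↦ by
      have h := hle v
      rwa [← map_natCast (algebraMap F (Af F)), ← map_mul, Red.valued_algebraMap] at h
  have hn0 : n ≠ 0 := fun h ↦ by
    simp [h, hd0.ne'] at hn
  set M' := M * m
  have hM' : HasPeriod φ (toFin (diagF η) * g) M' := hM.mul hm.pos
  have hm' : HasPeriod φ g (M' * d) := (hm.mul_left hM.pos).mul hd0
  have hc' := continuous_fun_toFin_diag ha hc η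
  have hd' : IsDual M' ξ := isDual_mul hd m
  have hfun : periodFun φ g (M' * d) t =
      fun y ↦ periodFun φ (toFin (diagF η) * g) M' (scaleT η t) (intLin (mulMat n) y) := by
    funext y
    rw [periodFun, periodFun, ← apply_diag_mul ha η g]
    congr 2
    funext w
    rw [boxVec_intLin_mulMat, hn, map_mul, map_natCast]
    simp only [boxVec, Nat.cast_mul]
    ring
  have hk : xiOf (M' * d) (fun j ↦ ∑ i, mulMat n i j * kvec M' ξ i) = ξ * η := by
    refine freq_injective hm'.pos (funext fun j ↦ ?_)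
    rw [freq_xiOf hm'.pos]
    push_cast
    simp only [kvec_cast hd', freq]
    rw [show ((M' * d : ℕ) : ℚ) * Algebra.trace ℚ F (ξ * η * (RingOfIntegers.basis F j : F)) =
      (M' : ℚ) * Algebra.trace ℚ F (((d : ℚ) • (ξ * η * (RingOfIntegers.basis F j : F)))) by
        rw [map_smul, smul_eq_mul]; push_cast; ring]
    rw [show (d : ℚ) • (ξ * η * (RingOfIntegers.basis F j : F)) =
      ξ * ((n : F) * (RingOfIntegers.basis F j : F)) by
        rw [Algebra.smul_def, map_natCast, hn]; ring, sum_mulMat, Finset.mul_sum, map_sum,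
      Finset.mul_sum]
    refine Finset.sum_congr rfl fun i _ ↦ ?_
    rw [show ξ * ((mulMat n i j : F) * (RingOfIntegers.basis F i : F)) =
      (mulMat n i j : ℚ) • (ξ * (RingOfIntegers.basis F i : F)) by
        rw [Algebra.smul_def, map_intCast]; ring, map_smul, smul_eq_mul]
    ring
  have h := fc_intLin (zperiodic_periodFun hc' hM' (scaleT η t)) (mulMat n)
    (surjective_intLin_mulMat hn0) (kvec M' ξ)
  rw [← hfun, fc_periodFun_eq_wh hc hm', fc_periodFun_eq_wh hc' hM', hk,
    xiOf_kvec hM'.pos hd'] at h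
  exact h.symm

/-- Left equivariance under `diag(η, 1)`. -/
theorem wh_diag_mul {φ : Form F} {N : ℕ} (hN : 0 < N) (ha : Automorphic N φ) {g : GF F}
    (hc : Continuous fun x ↦ φ x g) (η : Fˣ) (ξ : F) (t : Tinf F) :
    wh φ (toFin (diagF η) * g) ξ (scaleT η t) = wh φ g (ξ * η) t := by
  classical
  by_cases h1 : ∃ M, HasPeriod φ (toFin (diagF η) * g) M ∧ IsDual M ξ
  · obtain ⟨M, hM, hd⟩ := h1
    exact wh_diag_mul_of_dual hN ha hc η hM hd t
  by_cases h2 : ∃ m, HasPeriod φ g m ∧ IsDual m (ξ * η)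
  · obtain ⟨m, hm, hd⟩ := h2
    have e : toFin (diagF η⁻¹) * (toFin (diagF η) * g) = g := by
      rw [← mul_assoc, ← map_mul, ← diagF_mul, inv_mul_cancel, diagF_one, map_one, one_mul]
    have h := wh_diag_mul_of_dual hN ha (continuous_fun_toFin_diag ha hc η) η⁻¹ (ξ := ξ * η)
      (M := m) (by rw [e]; exact hm) hd (scaleT η t)
    rw [e, ← scaleT_mul, inv_mul_cancel, scaleT_one, mul_assoc, Units.mul_inv, mul_one] at h
    exact h.symm
  rw [wh_eq_zero_of_forall (fun M hM hd ↦ h1 ⟨M, hM, hd⟩),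
    wh_eq_zero_of_forall (fun m hm hd ↦ h2 ⟨m, hm, hd⟩)]

end FLTAgent.LT.RS
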