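import Fermat.Agent.LT.RS.Coef
import Fermat.Agent.LT.Red.Integral

/-!
The conductor of the standard additive character at a finite place: the largest valuation on the
dual of the ring of integers for the trace.
-/

set_option autoImplicit false

noncomputable section

namespace FLTAgent.LT.RS

open NumberField IsDedekindDomain Complex
open scoped Real

variable {F : Type*} [Field F] [NumberField F]

theorem adeleSingle_self (v : HeightOneSpectrum (𝓞 F)) (x : v.adicCompletion F) :
    adeleSingle v x v = x := by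
  classical exact RestrictedProduct.single_eq_same _ v x

theorem adeleSingle_ne {v w : HeightOneSpectrum (𝓞 F)} (x : v.adicCompletion F) (h : w ≠ v) :
    adeleSingle v x w = 0 := by
  classical exact RestrictedProduct.single_eq_of_ne _ x h

theorem adeleMulSingle_self (v : HeightOneSpectrum (𝓞 F)) (x : v.adicCompletion F) :
    adeleMulSingle v x v = x := by
  classical exact RestrictedProduct.mulSingle_eq_same _ v x

theorem adeleMulSingle_ne {v w : HeightOneSpectrum (𝓞 F)} (x : v.adicCompletion F) (h : w ≠ v) :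
    adeleMulSingle v x w = 1 := by
  classical exact RestrictedProduct.mulSingle_eq_of_ne _ x h

variable (F) in
/-- The dual basis of the integral basis. -/
def dualVec (i : Idx F) : F :=
  open Classical in
  (Algebra.traceForm ℚ F).dualBasis (traceForm_nondegenerate ℚ F) (ratBasis F) i

theorem xiOf_eq_sum (m : ℕ) (k : Idx F → ℤ) :
    xiOf m k = ∑ i, ((k i : ℚ) / m) • dualVec F i := by
  simp [xiOf, dualVec]

theorem dualVec_ne_zero (i : Idx F) : dualVec F i ≠ 0 := by
  classical exact Module.Basis.ne_zero _ i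

theorem isDual_dualVec (i : Idx F) : IsDual 1 (dualVec F i) := by
  classical
  have h : xiOf 1 (fun j ↦ if j = i then (1 : ℤ) else 0) = dualVec F i := by
    rw [xiOf_eq_sum, Finset.sum_eq_single i (fun j _ hj ↦ by simp [hj]) (by simp)]
    simp
  exact h ▸ isDual_xiOf one_pos _

theorem isDual_one_iff {ξ : F} :
    IsDual 1 ξ ↔ ∀ o : 𝓞 F, ∃ k : ℤ, Algebra.trace ℚ F (ξ * o) = k := by
  refine ⟨fun h o ↦ ?_, fun h i ↦ ?_⟩
  · obtain ⟨a, rfl⟩ := exists_intOf o
    choose k hk using h
    refine ⟨∑ i, a i * k i, ?_⟩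
    simp only [freq, Nat.cast_one, one_mul] at hk
    simp only [intOf, map_sum, map_zsmul, Finset.mul_sum, mul_smul_comm]
    push_cast
    exact Finset.sum_congr rfl fun i _ ↦ by rw [hk, zsmul_eq_mul]
  · obtain ⟨k, hk⟩ := h (RingOfIntegers.basis F i)
    exact ⟨k, by rw [freq, Nat.cast_one, one_mul, hk]⟩

theorem isDual_one_mul {ξ : F} (h : IsDual 1 ξ) (o : 𝓞 F) : IsDual 1 (ξ * o) := by
  rw [isDual_one_iff] at h ⊢
  intro o'
  obtain ⟨k, hk⟩ := h (o * o')
  exact ⟨k, by rw [← hk]; push_cast [mul_assoc]; ring_nf⟩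

theorem isDual_one_add {ξ η : F} (h : IsDual 1 ξ) (h' : IsDual 1 η) : IsDual 1 (ξ + η) := by
  rw [isDual_one_iff] at h h' ⊢
  intro o
  obtain ⟨k, hk⟩ := h o
  obtain ⟨l, hl⟩ := h' o
  exact ⟨k + l, by rw [add_mul, map_add, hk, hl]; push_cast; ring⟩

theorem isDual_one_coe (o : 𝓞 F) : IsDual 1 (o : F) := by
  rw [isDual_one_iff]
  intro o'
  obtain ⟨k, hk⟩ : ∃ k : ℤ, algebraMap ℤ ℚ k = Algebra.trace ℚ F ((o : F) * o') :=
    IsIntegrallyClosed.isIntegral_iff.1
      (Algebra.isIntegral_trace ((o * o' : 𝓞 F).isIntegral_coe))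
  exact ⟨k, by rw [← hk]; simp⟩

variable (F) in
/-- The largest valuation on the dual of the integers. -/
def dualSup (v : HeightOneSpectrum (𝓞 F)) : WithZero (Multiplicative ℤ) :=
  haveI : Nonempty (Idx F) := (ratBasis F).index_nonempty
  Finset.univ.sup' Finset.univ_nonempty fun i ↦ v.valuation F (dualVec F i)

theorem exists_dualSup_eq (v : HeightOneSpectrum (𝓞 F)) :
    ∃ i, dualSup F v = v.valuation F (dualVec F i) := by
  haveI : Nonempty (Idx F) := (ratBasis F).index_nonempty
  obtain ⟨i, -, hi⟩ := Finset.exists_mem_eq_sup' (Finset.univ_nonempty (α := Idx F))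
    fun i ↦ v.valuation F (dualVec F i)
  exact ⟨i, hi⟩

theorem dualSup_ne_zero (v : HeightOneSpectrum (𝓞 F)) : dualSup F v ≠ 0 := by
  obtain ⟨i, hi⟩ := exists_dualSup_eq v
  rw [hi, map_ne_zero]
  exact dualVec_ne_zero i

theorem valuation_le_dualSup {ξ : F} (h : IsDual 1 ξ) (v : HeightOneSpectrum (𝓞 F)) :
    v.valuation F ξ ≤ dualSup F v := by
  rw [← xiOf_kvec one_pos h, xiOf_eq_sum]
  refine Valuation.map_sum_le _ fun i _ ↦ ?_
  rw [Nat.cast_one, div_one, Algebra.smul_def, map_intCast, map_mul]
  refine (mul_le_of_le_one_left zero_le ?_).trans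
    (Finset.le_sup' (fun j ↦ v.valuation F (dualVec F j)) (Finset.mem_univ i))
  have := v.valuation_le_one (K := F) (kvec 1 ξ i : 𝓞 F)
  simpa using this

/-- The local criterion for the standard character at one place. -/
theorem isDual_one_of_valuation (v : HeightOneSpectrum (𝓞 F)) {x : F}
    (hv : v.valuation F x ≤ dualSup F v) (hw : ∀ w, w ≠ v → w.valuation F x ≤ 1) : IsDual 1 x := by
  classical
  obtain ⟨i, hi⟩ := exists_dualSup_eq v
  set d := dualVec F i
  have hd0 : d ≠ 0 := dualVec_ne_zero i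
  obtain ⟨n, hn, hnd⟩ := Red.exists_natCast_mul_le_one (algebraMap F (Af F) d)
  set b : Af F := adeleSingle v ((x / d : F) : v.adicCompletion F)
  have hbv : b v = ((x / d : F) : v.adicCompletion F) := adeleSingle_self _ _
  have hbw : ∀ w, w ≠ v → b w = 0 := fun w h ↦ adeleSingle_ne _ h
  have hb : ∀ w, Valued.v (b w) ≤ 1 := by
    intro w
    rcases eq_or_ne w v with rfl | h
    · rw [hbv, HeightOneSpectrum.adicCompletion.valued_coe, map_div₀]
      exact div_le_one_of_le₀ (hv.trans hi.le) zero_le
    · rw [hbw w h, map_zero]; exact zero_le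
  obtain ⟨o, ho⟩ := Red.exists_int_sub_le b hb hn
  obtain ⟨r, hr⟩ : ∃ r : 𝓞 F, (r : F) = x - (o : F) * d := by
    refine HeightOneSpectrum.mem_integers_of_valuation_le_one F _ fun w ↦ ?_
    have h1 := ho w
    have hnw : w.valuation F (n : F) * w.valuation F d ≤ 1 := by
      have := hnd w
      rwa [← map_natCast (algebraMap F (Af F)), ← map_mul, Red.valued_algebraMap, map_mul] at this
    rw [show (b - algebraMap F (Af F) (o : F)) w =
      b w - algebraMap F (Af F) (o : F) w from rfl] at h1
    rw [← map_natCast (algebraMap F (Af F)), Red.valued_algebraMap] at h1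
    rcases eq_or_ne w v with rfl | h
    · rw [hbv, show algebraMap F (Af F) (o : F) w = ((o : F) : w.adicCompletion F) from rfl,
        ← Red.coe_sub_completion, HeightOneSpectrum.adicCompletion.valued_coe] at h1
      calc w.valuation F (x - (o : F) * d) = w.valuation F ((x / d - (o : F)) * d) := by
            rw [sub_mul, div_mul_cancel₀ _ hd0]
        _ ≤ w.valuation F (n : F) * w.valuation F d := by rw [map_mul]; gcongr
        _ ≤ 1 := hnw
    · rw [hbw w h, zero_sub, Valuation.map_neg, Red.valued_algebraMap] at h1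
      refine (Valuation.map_sub _ _ _).trans (max_le (hw w h) ?_)
      rw [map_mul]
      exact (mul_le_mul' h1 le_rfl).trans hnw
  have e : x = d * (o : F) + (r : F) := by rw [hr]; ring
  rw [e]
  exact isDual_one_add (isDual_one_mul (isDual_dualVec i) o) (isDual_one_coe r)

variable [IsTotallyComplex F]

theorem trChar_embF_eq_one_iff (ξ η : F) :
    trChar ξ (embF η) = 1 ↔ ∃ k : ℤ, Algebra.trace ℚ F (ξ * η) = k := by
  rw [trChar, trPair_embF, Complex.exp_eq_one_iff]
  refine exists_congr fun k ↦ ?_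
  rw [show (((2 * π * ((Algebra.trace ℚ F (ξ * η) : ℚ) : ℝ) : ℝ)) : ℂ) * I =
    (((Algebra.trace ℚ F (ξ * η) : ℚ)) : ℂ) * (2 * π * I) by push_cast; ring,
    mul_left_inj' Complex.two_pi_I_ne_zero]
  exact ⟨fun h ↦ by exact_mod_cast h, fun h ↦ by rw [h]; simp⟩

/-- Above the conductor the character is nontrivial on small elements. -/
theorem exists_trChar_ne_one (v : HeightOneSpectrum (𝓞 F)) {ξ : F} (a : (Af F)ˣ)
    (h : dualSup F v < v.valuation F ξ * Valued.v ((a : Af F) v)) {M : ℕ} (hM : 0 < M) :
    ∃ η : F, v.valuation F η ≤ Valued.v ((a : Af F) v) ∧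
      (∀ w, w ≠ v → w.valuation F η ≤ Valued.v ((M : Af F) w)) ∧ trChar ξ (-embF η) ≠ 1 := by
  classical
  set p := Ideal.absNorm v.asIdeal
  have hp : 0 < p :=
    Nat.pos_of_ne_zero (Ideal.absNorm_eq_zero_iff.not.2 v.ne_bot)
  obtain ⟨n, hn, hna⟩ := Red.exists_natCast_le a
  set K := p * n * M
  have hK : 0 < K := Nat.mul_pos (Nat.mul_pos hp hn) hM
  have hpv : Valued.v ((p : Af F) v) < 1 := by
    rw [Red.valued_natCast, v.intValuation_lt_one_iff_mem]
    exact Ideal.absNorm_mem v.asIdeal
  have ha0 : Valued.v ((a : Af F) v) ≠ 0 := by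
    rw [map_ne_zero]; exact Red.unit_apply_ne_zero a v
  have hKv : Valued.v ((K : Af F) v) < Valued.v ((a : Af F) v) := by
    simp only [K, Nat.cast_mul]
    rw [af_mul_apply, af_mul_apply, map_mul, map_mul]
    calc Valued.v ((p : Af F) v) * Valued.v ((n : Af F) v) * Valued.v ((M : Af F) v)
        ≤ Valued.v ((p : Af F) v) * Valued.v ((a : Af F) v) :=
          (mul_le_of_le_one_right' (Red.valued_natCast_le_one M v)).trans
            (mul_le_mul' le_rfl (hna v))
      _ < 1 * Valued.v ((a : Af F) v) := mul_lt_mul_of_pos_right hpv (zero_lt_iff.2 ha0)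
      _ = _ := one_mul _
  set b : Af F := adeleSingle v ((a : Af F) v)
  obtain ⟨η, hη⟩ := Red.exists_sub_le b hK
  have hηv : v.valuation F η = Valued.v ((a : Af F) v) := by
    have h1 := hη v
    rw [show (b - algebraMap F (Af F) η) v = b v - algebraMap F (Af F) η v from rfl,
      show b v = (a : Af F) v from adeleSingle_self _ _] at h1
    rw [← Red.valued_algebraMap]
    exact Valued.v.map_eq_of_sub_lt ((Valued.v.map_sub_swap _ _).trans_lt (h1.trans_lt hKv))
  have hηw : ∀ w, w ≠ v → w.valuation F η ≤ Valued.v ((M : Af F) w) := fun w hw ↦ by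
    have h1 := hη w
    rw [show (b - algebraMap F (Af F) η) w = b w - algebraMap F (Af F) η w from rfl,
      show b w = 0 from adeleSingle_ne _ hw, zero_sub, Valuation.map_neg,
      Red.valued_algebraMap] at h1
    refine h1.trans ?_
    simp only [K, Nat.cast_mul]
    rw [af_mul_apply, map_mul]
    exact mul_le_of_le_one_left' (by rw [← Nat.cast_mul]; exact Red.valued_natCast_le_one _ w)
  by_contra hcon
  push Not at hcon
  refine absurd (valuation_le_dualSup (ξ := ξ * η) ?_ v) (not_le.2 (by rwa [map_mul, hηv]))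
  rw [isDual_one_iff]
  intro o
  have hle : ∀ w : HeightOneSpectrum (𝓞 F), w.valuation F (η * o) ≤ w.valuation F η := fun w ↦ by
    rw [map_mul]; exact mul_le_of_le_one_right' (w.valuation_le_one o)
  obtain ⟨k, hk⟩ := (trChar_embF_eq_one_iff ξ (-(η * o))).1 (by
    have := hcon (η * o) ((hle v).trans hηv.le) fun w hw ↦ (hle w).trans (hηw w hw)
    rwa [show -embF (η * o) = embF (-(η * o)) by funext w; simp [embF]] at this)
  refine ⟨-k, ?_⟩
  rw [show ξ * η * o = -(ξ * -(η * o)) by ring, map_neg, hk]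
  push_cast; rfl

/-- Below the conductor it is trivial on small elements. -/
theorem exists_trChar_eq_one (v : HeightOneSpectrum (𝓞 F)) {ξ : F} (hξ : ξ ≠ 0)
    {γ : WithZero (Multiplicative ℤ)} (h : v.valuation F ξ * γ ≤ dualSup F v) {b : Af F}
    (hbv : Valued.v (b v) ≤ γ) (hbw : ∀ w, w ≠ v → b w = 0) {M : ℕ} (hM : 0 < M) :
    ∃ η : F, (∀ w, Valued.v ((b - algebraMap F (Af F) η) w) ≤ Valued.v ((M : Af F) w)) ∧
      trChar ξ (-embF η) = 1 := by
  obtain ⟨i, hi⟩ := exists_dualSup_eq v
  set d := dualVec F i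
  obtain ⟨n, hn, hny⟩ := Red.exists_natCast_le
    (Units.map (algebraMap F (Af F)).toMonoidHom
      (Units.mk0 (d / ξ) (div_ne_zero (dualVec_ne_zero i) hξ)))
  obtain ⟨k, hk, hkd⟩ := Red.exists_natCast_mul_le_one (algebraMap F (Af F) d)
  obtain ⟨η, hη⟩ := Red.exists_sub_le b (Nat.mul_pos (Nat.mul_pos hn hk) hM)
  refine ⟨η, fun w ↦ (hη w).trans ?_, ?_⟩
  · rw [Nat.cast_mul, af_mul_apply, map_mul]
    exact mul_le_of_le_one_left' (Red.valued_natCast_le_one _ w)
  have hny' : ∀ w : HeightOneSpectrum (𝓞 F),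
      w.valuation F ξ * w.valuation F (n : F) ≤ w.valuation F d := fun w ↦ by
    have h1 : Valued.v ((n : Af F) w) ≤ Valued.v (algebraMap F (Af F) (d / ξ) w) := hny w
    rw [← map_natCast (algebraMap F (Af F)), Red.valued_algebraMap, Red.valued_algebraMap,
      map_div₀, le_div_iff₀ (zero_lt_iff.2 ((map_ne_zero _).2 hξ))] at h1
    rwa [mul_comm]
  have hbd : ∀ w, Valued.v ((b - algebraMap F (Af F) η) w) ≤
      w.valuation F (n : F) * w.valuation F (k : F) := fun w ↦ by
    refine (hη w).trans ?_
    rw [← map_natCast (algebraMap F (Af F)), Red.valued_algebraMap]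
    push_cast
    rw [map_mul, map_mul]
    exact mul_le_of_le_one_right' (by
      rw [← map_natCast (algebraMap (𝓞 F) F)]; exact w.valuation_le_one _)
  have hdual : IsDual 1 (ξ * η) := by
    refine isDual_one_of_valuation v ?_ fun w hw ↦ ?_
    · have hη' : v.valuation F η ≤ max γ (v.valuation F (n : F)) := by
        rw [← Red.valued_algebraMap, show algebraMap F (Af F) η v =
          b v - (b - algebraMap F (Af F) η) v from (sub_sub_cancel _ _).symm]
        refine (Valued.v.map_sub _ _).trans (max_le_max hbv ((hbd v).trans ?_))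
        exact mul_le_of_le_one_right' (by
          rw [← map_natCast (algebraMap (𝓞 F) F)]; exact v.valuation_le_one _)
      rw [map_mul]
      refine (mul_le_mul' le_rfl hη').trans ?_
      rcases le_total γ (v.valuation F (n : F)) with h' | h'
      · rw [max_eq_right h']; exact (hny' v).trans hi.ge
      · rw [max_eq_left h']; exact h
    · have h1 := hbd w
      rw [show (b - algebraMap F (Af F) η) w = b w - algebraMap F (Af F) η w from rfl, hbw w hw,
        zero_sub, Valuation.map_neg, Red.valued_algebraMap] at h1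
      have h2 : w.valuation F (k : F) * w.valuation F d ≤ 1 := by
        have := hkd w
        rwa [← map_natCast (algebraMap F (Af F)), ← map_mul, Red.valued_algebraMap, map_mul] at this
      calc w.valuation F (ξ * η) ≤ w.valuation F ξ *
            (w.valuation F (n : F) * w.valuation F (k : F)) := by rw [map_mul]; gcongr
        _ ≤ w.valuation F d * w.valuation F (k : F) := by rw [← mul_assoc]; gcongr; exact hny' w
        _ ≤ 1 := by rwa [mul_comm]
  obtain ⟨j, hj⟩ := isDual_one_iff.1 hdual 1
  rw [show -embF η = embF (-η) by funext w; simp [embF], trChar_embF_eq_one_iff]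
  refine ⟨-j, ?_⟩
  rw [show ξ * -η = -(ξ * η * ((1 : 𝓞 F) : F)) by simp, map_neg, hj]
  push_cast; rfl

end FLTAgent.LT.RS
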