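import Mathlib.Analysis.SpecialFunctions.Gaussian.PoissonSummation
import Mathlib.Analysis.InnerProductSpace.Basic
import Mathlib.Analysis.Normed.Module.FiniteDimension
import Mathlib.LinearAlgebra.Matrix.Block
import Mathlib.LinearAlgebra.Matrix.Determinant.Basic
import Fermat.Agent.EisIndex.Theta.Poisson

/-!
Poisson summation for the shifted and modulated Gaussians of `‖L v‖ ^ 2`, where `L` is an
injective linear map from `ℝ ^ n` to an inner product space. The dual form is only remembered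
through the inequality `(u · v) ^ 2 ≤ ‖L v‖ ^ 2 * Qd u`, the covolume through the Gram determinant.
-/

set_option autoImplicit false

noncomputable section

namespace FLTAgent.LT.RS

open Complex FLTAgent.EisIndex.Theta
open scoped Real RealInnerProductSpace

variable {E : Type*} [NormedAddCommGroup E] [InnerProductSpace ℝ E] {n : ℕ}

/-- The Gram matrix of the images of the standard basis. -/
def gram (L : (Fin n → ℝ) →ₗ[ℝ] E) : Matrix (Fin n) (Fin n) ℝ :=
  Matrix.of fun i j ↦ ⟪L (Pi.single i 1), L (Pi.single j 1)⟫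

/-- `Qd` and `κ` satisfy Poisson summation with the form `‖L v‖ ^ 2`. -/
structure GaussDual (L : (Fin n → ℝ) →ₗ[ℝ] E) (Qd : (Fin n → ℝ) → ℝ) (κ : ℝ) : Prop where
  pos : 0 < κ
  sq_eq : κ ^ 2 = (gram L).det
  cs : ∀ u v : Fin n → ℝ, (∑ i, u i * v i) ^ 2 ≤ ‖L v‖ ^ 2 * Qd u
  nonneg : ∀ u, 0 ≤ Qd u
  zero_eq : Qd 0 = 0
  identity : ∀ t : ℝ, 0 < t → ∀ x w : Fin n → ℝ,
    ∑' v : Fin n → ℤ, cexp (-(π * t * ‖L (fun i ↦ (v i : ℝ) + x i)‖ ^ 2 : ℝ) +
        2 * π * I * ((∑ i, w i * ((v i : ℝ) + x i) : ℝ) : ℂ)) =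
      ((Real.sqrt t ^ n * κ : ℝ) : ℂ)⁻¹ *
        ∑' u : Fin n → ℤ, cexp (-(π / t * Qd (fun i ↦ (u i : ℝ) - w i) : ℝ) +
          2 * π * I * ((∑ i, (u i : ℝ) * x i : ℝ) : ℂ))

/-- The one dimensional identity. -/
theorem tsum_gauss_one {a : ℝ} (ha : 0 < a) (c w : ℝ) :
    ∑' m : ℤ, cexp (-(π * a * ((m : ℝ) + c) ^ 2 : ℝ) + 2 * π * I * ((w * ((m : ℝ) + c) : ℝ) : ℂ)) =
      ((Real.sqrt a : ℝ) : ℂ)⁻¹ *
        ∑' k : ℤ, cexp (-(π / a * ((k : ℝ) - w) ^ 2 : ℝ) + 2 * π * I * (((k : ℝ) * c : ℝ) : ℂ)) := by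
  have haC : 0 < (a : ℂ).re := by simpa using ha
  have ha0 : (a : ℂ) ≠ 0 := ofReal_ne_zero.2 ha.ne'
  have h := Complex.tsum_exp_neg_quadratic haC (-(a * c) + I * w : ℂ)
  have hs : (a : ℂ) ^ (1 / 2 : ℂ) = ((Real.sqrt a : ℝ) : ℂ) := by
    rw [Real.sqrt_eq_rpow, Complex.ofReal_cpow ha.le]
    norm_num
  rw [hs, one_div] at h
  calc _ = ∑' m : ℤ, cexp (-π * a * c ^ 2 + 2 * π * I * (w * c)) *
        cexp (-π * a * (m : ℂ) ^ 2 + 2 * π * (-(a * c) + I * w) * m) := by
        refine tsum_congr fun m ↦ ?_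
        rw [← Complex.exp_add]
        congr 1
        push_cast
        ring
    _ = _ := by
        rw [tsum_mul_left, h, ← mul_assoc, mul_comm (cexp _), mul_assoc, ← tsum_mul_left]
        congr 1
        refine tsum_congr fun k ↦ ?_
        rw [← Complex.exp_add]
        congr 1
        push_cast
        field_simp
        ring_nf
        simp only [I_sq, show (I : ℂ) ^ 3 = -I by simp [pow_succ],
          show (I : ℂ) ^ 4 = 1 by simp [pow_succ]]
        ring

theorem norm_gauss_term (r : ℝ) (s : ℝ) : ‖cexp (-(r : ℝ) + 2 * π * I * ((s : ℝ) : ℂ))‖ =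
    Real.exp (-r) := by
  rw [Complex.norm_exp]
  simp

/-- A quadratic lower bound makes the Gaussians summable. -/
theorem summable_gauss_of_le {F : (Fin n → ℤ) → ℝ} {ε C : ℝ} (hε : 0 < ε) (x : Fin n → ℝ)
    (h : ∀ v : Fin n → ℤ, ε * ∑ i, ((v i : ℝ) + x i) ^ 2 ≤ F v + C) :
    Summable fun v ↦ Real.exp (-F v) := by
  refine Summable.of_nonneg_of_le (fun _ ↦ (Real.exp_pos _).le) (fun v ↦ ?_)
    ((summable_prod_fn
      (f := fun i k ↦ Real.exp (-(ε * (k : ℝ) ^ 2) + (-2 * ε * x i) * k))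
      (fun i k ↦ (Real.exp_pos _).le) fun i ↦ summable_int_gaussian hε _).mul_left
        (Real.exp (C - ε * ∑ i, x i ^ 2)))
  rw [← Real.exp_sum, ← Real.exp_add]
  refine Real.exp_le_exp.2 ?_
  have h1 : ∑ i, (-(ε * (v i : ℝ) ^ 2) + -2 * ε * x i * (v i : ℝ)) =
      -(ε * ∑ i, ((v i : ℝ) + x i) ^ 2) + ε * ∑ i, x i ^ 2 := by
    simp only [Finset.mul_sum, ← Finset.sum_neg_distrib, ← Finset.sum_add_distrib]
    exact Finset.sum_congr rfl fun i _ ↦ by ring
  rw [h1]
  linarith [h v]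

theorem sum_sq_le_norm (L : (Fin n → ℝ) →ₗ[ℝ] E) (v : Fin n → ℝ) :
    ‖L v‖ ^ 2 ≤ (∑ i, ‖L (Pi.single i 1)‖ ^ 2) * ∑ i, v i ^ 2 := by
  have h : L v = ∑ i, v i • L (Pi.single i 1) := by
    conv_lhs => rw [← Finset.univ_sum_single v, map_sum]
    refine Finset.sum_congr rfl fun i _ ↦ ?_
    rw [← map_smul]
    congr 1
    ext j
    simp [Pi.single_apply]
  have h1 : ‖L v‖ ≤ ∑ i, |v i| * ‖L (Pi.single i 1)‖ := by
    rw [h]
    refine (norm_sum_le _ _).trans_eq (Finset.sum_congr rfl fun i _ ↦ ?_)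
    rw [norm_smul, Real.norm_eq_abs]
  refine (pow_le_pow_left₀ (norm_nonneg _) h1 2).trans ?_
  refine (Finset.sum_mul_sq_le_sq_mul_sq _ _ _).trans_eq ?_
  simp [mul_comm]

/-- The dual form is positive. -/
theorem GaussDual.lower {L : (Fin n → ℝ) →ₗ[ℝ] E} {Qd : (Fin n → ℝ) → ℝ} {κ : ℝ}
    (h : GaussDual L Qd κ) {B : ℝ} (hB0 : 0 ≤ B) (hB : ∀ v, ‖L v‖ ^ 2 ≤ B * ∑ i, v i ^ 2) (u : Fin n → ℝ) :
    ∑ i, u i ^ 2 ≤ B * Qd u := by
  rcases (Finset.sum_nonneg fun i _ ↦ sq_nonneg (u i) :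
    0 ≤ ∑ i, u i ^ 2).eq_or_lt with h0 | hs
  · rw [← h0]
    exact mul_nonneg hB0 (h.nonneg u)
  · have h1 : (∑ i, u i ^ 2) ^ 2 ≤ ‖L u‖ ^ 2 * Qd u := by
      simpa [pow_two] using h.cs u u
    have h2 := h1.trans (mul_le_mul_of_nonneg_right (hB u) (h.nonneg u))
    nlinarith [h2]

/-- An injective linear map is bounded below. -/
theorem lower_bound (L : (Fin n → ℝ) →ₗ[ℝ] E) (hL : Function.Injective L) :
    ∃ ε > 0, ∀ v, ε * ∑ i, v i ^ 2 ≤ ‖L v‖ ^ 2 := by
  obtain ⟨K, hK, hanti⟩ := LinearMap.exists_antilipschitzWith L (LinearMap.ker_eq_bot.2 hL)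
  refine ⟨1 / ((n + 1) * (K : ℝ) ^ 2), by positivity, fun v ↦ ?_⟩
  have h : ‖v‖ ≤ K * ‖L v‖ := by simpa using hanti.le_mul_dist v 0
  have h1 : ∑ i, v i ^ 2 ≤ (n + 1) * ‖v‖ ^ 2 := by
    refine (Finset.sum_le_sum fun i _ ↦ (?_ : v i ^ 2 ≤ ‖v‖ ^ 2)).trans ?_
    · rw [← sq_abs, ← Real.norm_eq_abs]
      exact pow_le_pow_left₀ (norm_nonneg _) (norm_le_pi_norm v i) 2
    · simp [add_mul]
  rw [one_div_mul_eq_div, div_le_iff₀ (by positivity)]
  nlinarith [pow_le_pow_left₀ (norm_nonneg v) h 2]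

theorem gaussDual_zero (L : (Fin 0 → ℝ) →ₗ[ℝ] E) : GaussDual L (fun _ ↦ 0) 1 where
  pos := one_pos
  sq_eq := by simp
  cs u v := by simp
  nonneg _ := le_rfl
  zero_eq := rfl
  identity t _ x w := by
    have hz : ∀ f : Fin 0 → ℝ, L f = 0 := fun f ↦ by rw [Subsingleton.elim f 0, map_zero]
    simp [hz]

/-- The last coordinates. -/
def tailIncl (n : ℕ) : (Fin n → ℝ) →ₗ[ℝ] (Fin (n + 1) → ℝ) where
  toFun v := Fin.cons 0 v
  map_add' v w := by ext i; cases i using Fin.cases <;> simp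
  map_smul' c v := by ext i; cases i using Fin.cases <;> simp

variable (L : (Fin (n + 1) → ℝ) →ₗ[ℝ] E)

/-- The image of the first basis vector. -/
def headVec : E := L (Pi.single 0 1)

/-- The component of the other coordinates along `headVec`. -/
def slope (i : Fin n) : ℝ :=
  ⟪headVec L, L (tailIncl n (Pi.single i 1))⟫ / ‖headVec L‖ ^ 2

/-- The other coordinates projected orthogonally to `headVec`. -/
def tailMap : (Fin n → ℝ) →ₗ[ℝ] E :=
  L ∘ₗ tailIncl n -
    (∑ i, slope L i • (LinearMap.proj i : (Fin n → ℝ) →ₗ[ℝ] ℝ)).smulRight (headVec L)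

theorem tailMap_apply (v : Fin n → ℝ) :
    tailMap L v = L (tailIncl n v) - (∑ i, slope L i * v i) • headVec L := by
  simp [tailMap, LinearMap.sum_apply]

theorem apply_cons (x : ℝ) (v : Fin n → ℝ) :
    L (Fin.cons x v) = (x + ∑ i, slope L i * v i) • headVec L + tailMap L v := by
  have h : (Fin.cons x v : Fin (n + 1) → ℝ) = x • Pi.single 0 1 + tailIncl n v := by
    ext i; cases i using Fin.cases <;> simp [tailIncl]
  rw [h, map_add, map_smul, tailMap_apply, add_smul]
  simp only [headVec]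
  abel

variable {L}

theorem headVec_ne_zero (hL : Function.Injective L) : headVec L ≠ 0 := fun h ↦ by
  have : (Pi.single 0 1 : Fin (n + 1) → ℝ) = 0 := hL (by simpa [headVec] using h)
  simpa using congrFun this 0

theorem inner_headVec_tailMap (hL : Function.Injective L) (v : Fin n → ℝ) :
    ⟪headVec L, tailMap L v⟫ = 0 := by
  have ha : ‖headVec L‖ ^ 2 ≠ 0 := by simpa using headVec_ne_zero hL
  have hv : ∀ w : Fin n → ℝ, ⟪headVec L, L (tailIncl n w)⟫ =
      ∑ i, w i * ⟪headVec L, L (tailIncl n (Pi.single i 1))⟫ := by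
    intro w
    conv_lhs => rw [← Finset.univ_sum_single w, map_sum, map_sum, inner_sum]
    refine Finset.sum_congr rfl fun i _ ↦ ?_
    rw [← real_inner_smul_right, ← map_smul, ← map_smul]
    congr 3
    ext j
    simp [Pi.single_apply]
  rw [tailMap_apply, inner_sub_right, real_inner_smul_right, real_inner_self_eq_norm_sq, hv,
    Finset.sum_mul, ← Finset.sum_sub_distrib]
  refine Finset.sum_eq_zero fun i _ ↦ ?_
  rw [slope]
  have ha' : ‖headVec L‖ ≠ 0 := by simpa using ha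
  field_simp
  ring

theorem tailMap_injective (hL : Function.Injective L) : Function.Injective (tailMap L) := by
  rw [injective_iff_map_eq_zero]
  intro v hv
  have h : L (Fin.cons (-∑ i, slope L i * v i) v) = 0 := by rw [apply_cons, hv]; simp
  have h2 : (Fin.cons (-∑ i, slope L i * v i) v : Fin (n + 1) → ℝ) = 0 := hL (by rw [h, map_zero])
  exact funext fun i ↦ by simpa using congrFun h2 i.succ

theorem inner_apply_cons (hL : Function.Injective L) (x y : ℝ) (v w : Fin n → ℝ) :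
    ⟪L (Fin.cons x v), L (Fin.cons y w)⟫ = ‖headVec L‖ ^ 2 * ((x + ∑ i, slope L i * v i) *
      (y + ∑ i, slope L i * w i)) + ⟪tailMap L v, tailMap L w⟫ := by
  have h1 : ⟪tailMap L v, headVec L⟫ = 0 := by
    rw [real_inner_comm]; exact inner_headVec_tailMap hL v
  simp only [apply_cons, inner_add_left, inner_add_right, real_inner_smul_left,
    real_inner_smul_right, inner_headVec_tailMap hL, h1, real_inner_self_eq_norm_sq]
  ring

theorem norm_apply_sq (hL : Function.Injective L) (v : Fin (n + 1) → ℝ) :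
    ‖L v‖ ^ 2 = ‖headVec L‖ ^ 2 * (v 0 + ∑ i, slope L i * v i.succ) ^ 2 +
      ‖tailMap L (fun i ↦ v i.succ)‖ ^ 2 := by
  rw [← real_inner_self_eq_norm_sq (L v), ← Fin.cons_self_tail v, inner_apply_cons hL,
    real_inner_self_eq_norm_sq (tailMap L (Fin.tail v))]
  simp [Fin.tail, sq]
  rfl

theorem det_gram_succ (hL : Function.Injective L) :
    (gram L).det = ‖headVec L‖ ^ 2 * (gram (tailMap L)).det := by
  classical
  let T : Matrix (Fin (n + 1)) (Fin (n + 1)) ℝ :=
    Matrix.of (Fin.cons (Fin.cons 1 (slope L)) fun k ↦ Fin.cons 0 (Pi.single k 1))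
  let D : Matrix (Fin (n + 1)) (Fin (n + 1)) ℝ :=
    Matrix.of (Fin.cons (Fin.cons (‖headVec L‖ ^ 2) 0) fun k ↦ Fin.cons 0 (gram (tailMap L) k))
  have hT : T.det = 1 := by
    have htri : Matrix.BlockTriangular T id := by
      intro i j hij
      cases i using Fin.cases with
      | zero => simp at hij
      | succ i =>
        cases j using Fin.cases with
        | zero => simp [T]
        | succ j =>
          have : j ≠ i := fun h ↦ by simp [h] at hij
          simp [T, this]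
    rw [Matrix.det_of_isUpperTriangular htri]
    refine Finset.prod_eq_one fun i _ ↦ ?_
    cases i using Fin.cases <;> simp [T]
  have hD : D.det = ‖headVec L‖ ^ 2 * (gram (tailMap L)).det := by
    rw [Matrix.det_succ_row_zero, Fin.sum_univ_succ]
    have : D.submatrix Fin.succ Fin.succ = gram (tailMap L) := by
      ext i j; simp [D]
    simp only [Fin.succAbove_zero, this]
    simp [D]
  have hG : gram L = T.transpose * D * T := by
    have hs : ∀ k : Fin n, (Pi.single k.succ 1 : Fin (n + 1) → ℝ) =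
        Fin.cons 0 (Pi.single k 1) := by
      intro k
      ext j
      cases j using Fin.cases <;> simp [Pi.single_apply, eq_comm]
    have hz : (Pi.single 0 1 : Fin (n + 1) → ℝ) = Fin.cons 1 0 := by
      ext j
      cases j using Fin.cases <;> simp
    ext i j
    cases i using Fin.cases <;> cases j using Fin.cases <;>
      simp [Matrix.mul_apply, Matrix.transpose_apply, Fin.sum_univ_succ, T, D, gram,
        inner_apply_cons hL, hs, hz, Pi.single_apply, mul_comm]
    · rw [headVec, hz]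
    · ring
  rw [hG, Matrix.det_mul, Matrix.det_mul, Matrix.det_transpose, hT, hD, one_mul, mul_one]

theorem GaussDual.succ (hL : Function.Injective L) {Qd : (Fin n → ℝ) → ℝ} {κ : ℝ}
    (h : GaussDual (tailMap L) Qd κ) :
    GaussDual L (fun u ↦ u 0 ^ 2 / ‖headVec L‖ ^ 2 + Qd (fun i ↦ u i.succ - u 0 * slope L i))
      (‖headVec L‖ * κ) where
  pos := mul_pos (norm_pos_iff.2 (headVec_ne_zero hL)) h.pos
  sq_eq := by rw [mul_pow, h.sq_eq, det_gram_succ hL]
  nonneg u := add_nonneg (by positivity) (h.nonneg _)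
  zero_eq := by simp [← Pi.zero_def, h.zero_eq]
  cs u v := by
    have hp : 0 < ‖headVec L‖ := norm_pos_iff.2 (headVec_ne_zero hL)
    rw [norm_apply_sq hL]
    set A := u 0 * (v 0 + ∑ i, slope L i * v i.succ)
    set B := ∑ i : Fin n, (u i.succ - u 0 * slope L i) * v i.succ
    have e : ∑ i, u i * v i = A + B := by
      rw [Fin.sum_univ_succ]
      simp only [A, B, mul_add, Finset.mul_sum, sub_mul, Finset.sum_sub_distrib]
      rw [Finset.sum_congr rfl fun i _ ↦ (mul_assoc (u 0) (slope L i) (v i.succ)).symm]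
      ring
    rw [e]
    have hc := h.cs (fun i ↦ u i.succ - u 0 * slope L i) (fun i ↦ v i.succ)
    set P := ‖headVec L‖ ^ 2 * (v 0 + ∑ i, slope L i * v i.succ) ^ 2
    set S := ‖tailMap L fun i ↦ v i.succ‖ ^ 2
    set R := u 0 ^ 2 / ‖headVec L‖ ^ 2
    set U := Qd fun i ↦ u i.succ - u 0 * slope L i
    have hA : A ^ 2 = P * R := by
      simp only [A, P, R]
      field_simp
    have hP : 0 ≤ P := by positivity
    have hR : 0 ≤ R := by positivity
    have hS : 0 ≤ S := by positivity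
    have hU : 0 ≤ U := h.nonneg _
    have h2 : (2 * A * B) ^ 2 ≤ (P * U + S * R) ^ 2 := by
      nlinarith [mul_le_mul_of_nonneg_left hc (mul_nonneg hP hR), sq_nonneg (P * U - S * R)]
    have h3 := abs_le_of_sq_le_sq' h2 (by positivity)
    nlinarith [h3.2]
  identity t ht x w := by
    have hp : 0 < ‖headVec L‖ := norm_pos_iff.2 (headVec_ne_zero hL)
    set a := ‖headVec L‖ ^ 2 with ha_def
    have ha : 0 < a := by positivity
    have hta : 0 < t * a := mul_pos ht ha
    set e := Fin.consEquiv fun _ : Fin (n + 1) ↦ ℤ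
    set x' : Fin n → ℝ := fun i ↦ x i.succ with hx'
    let c : (Fin n → ℤ) → ℝ := fun y ↦ x 0 + ∑ i, slope L i * ((y i : ℝ) + x' i)
    let w1 : ℤ → Fin n → ℝ := fun k i ↦ w i.succ + ((k : ℝ) - w 0) * slope L i
    let F : ℤ → (Fin n → ℤ) → ℂ := fun m y ↦
      cexp (-(π * t * ‖L (fun i ↦ (e (m, y) i : ℝ) + x i)‖ ^ 2 : ℝ) +
        2 * π * I * ((∑ i, w i * ((e (m, y) i : ℝ) + x i) : ℝ) : ℂ))
    let f : ℤ → ℂ := fun k ↦
      cexp (-(π / (t * a) * ((k : ℝ) - w 0) ^ 2 : ℝ) + 2 * π * I * (((k : ℝ) * x 0 : ℝ) : ℂ))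
    let G : ℤ → (Fin n → ℤ) → ℂ := fun k y ↦ f k *
      cexp (-(π * t * ‖tailMap L (fun i ↦ (y i : ℝ) + x' i)‖ ^ 2 : ℝ) +
        2 * π * I * ((∑ i, w1 k i * ((y i : ℝ) + x' i) : ℝ) : ℂ))
    obtain ⟨ε, hε, hεL⟩ : ∃ ε > 0, ∀ v, ε * ∑ i, v i ^ 2 ≤ ‖L v‖ ^ 2 := lower_bound L hL
    have hF : Summable (Function.uncurry F) := by
      refine Summable.of_norm ((e.summable_iff.2 (summable_gauss_of_le
        (F := fun v ↦ π * t * ‖L (fun i ↦ (v i : ℝ) + x i)‖ ^ 2) (C := 0)
        (mul_pos (mul_pos Real.pi_pos ht) hε) x fun v ↦ ?_)).congr fun p ↦ ?_)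
      · rw [add_zero, mul_assoc]
        exact mul_le_mul_of_nonneg_left (hεL _) (by positivity)
      · simp only [Function.comp_apply, Function.uncurry, F, norm_gauss_term]
    have hf : Summable fun k : ℤ ↦ ‖f k‖ := by
      refine (((summable_int_gaussian (div_pos Real.pi_pos hta)
        (2 * π / (t * a) * w 0)).mul_left (Real.exp (-(π / (t * a) * w 0 ^ 2))))).congr fun k ↦ ?_
      simp only [f, norm_gauss_term, ← Real.exp_add]
      congr 1
      ring
    obtain ⟨ε', hε', hεT⟩ : ∃ ε > 0, ∀ v, ε * ∑ i, v i ^ 2 ≤ ‖tailMap L v‖ ^ 2 :=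
      lower_bound _ (tailMap_injective hL)
    have hG : Summable (Function.uncurry G) := by
      refine Summable.of_norm ((hf.mul_of_nonneg (summable_gauss_of_le
        (F := fun y ↦ π * t * ‖tailMap L (fun i ↦ (y i : ℝ) + x' i)‖ ^ 2) (C := 0)
        (mul_pos (mul_pos Real.pi_pos ht) hε') x' fun y ↦ ?_)
        (fun _ ↦ norm_nonneg _) (fun _ ↦ (Real.exp_pos _).le)).congr fun p ↦ ?_)
      · rw [add_zero, mul_assoc]
        exact mul_le_mul_of_nonneg_left (hεT _) (by positivity)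
      · simp only [Function.uncurry, G, norm_mul, norm_gauss_term]
    have hnorm : ∀ (m : ℤ) (y : Fin n → ℤ), ‖L (fun i ↦ (e (m, y) i : ℝ) + x i)‖ ^ 2 =
        a * ((m : ℝ) + c y) ^ 2 + ‖tailMap L (fun i ↦ (y i : ℝ) + x' i)‖ ^ 2 := by
      intro m y
      rw [norm_apply_sq hL, ← ha_def]
      simp only [e, Fin.consEquiv, Equiv.coe_fn_mk, Fin.cons_zero, Fin.cons_succ, x', c]
      ring
    have hinner : ∀ y, ∑' m, F m y = ((Real.sqrt (t * a) : ℝ) : ℂ)⁻¹ * ∑' k, G k y := by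
      intro y
      have hsplit : ∀ m : ℤ, F m y =
          cexp (-(π * t * ‖tailMap L (fun i ↦ (y i : ℝ) + x' i)‖ ^ 2 : ℝ) + 2 * π * I *
            ((∑ i : Fin n, (w i.succ - w 0 * slope L i) * ((y i : ℝ) + x' i) : ℝ) : ℂ)) *
          cexp (-(π * (t * a) * ((m : ℝ) + c y) ^ 2 : ℝ) +
            2 * π * I * ((w 0 * ((m : ℝ) + c y) : ℝ) : ℂ)) := by
        intro m
        simp only [F]
        rw [hnorm, ← Complex.exp_add]
        have es : ∑ i, w i * ((e (m, y) i : ℝ) + x i) =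
            (∑ i : Fin n, (w i.succ - w 0 * slope L i) * ((y i : ℝ) + x' i)) +
              w 0 * ((m : ℝ) + c y) := by
          simp only [Fin.sum_univ_succ, e, Fin.consEquiv, Equiv.coe_fn_mk, Fin.cons_zero,
            Fin.cons_succ, c, x', mul_add, Finset.mul_sum, sub_mul, Finset.sum_sub_distrib,
            Finset.sum_add_distrib]
          ring_nf
        rw [es]
        congr 1
        push_cast
        ring
      rw [tsum_congr hsplit, tsum_mul_left, tsum_gauss_one hta, mul_left_comm, ← tsum_mul_left]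
      congr 1
      refine tsum_congr fun k ↦ ?_
      simp only [G, f, ← Complex.exp_add]
      congr 1
      have es : (k : ℝ) * c y +
            ∑ i : Fin n, (w i.succ - w 0 * slope L i) * ((y i : ℝ) + x' i) =
          (k : ℝ) * x 0 + ∑ i, w1 k i * ((y i : ℝ) + x' i) := by
        simp only [c, w1, add_mul, sub_mul, Finset.sum_add_distrib, Finset.sum_sub_distrib,
          mul_assoc, ← Finset.mul_sum]
        ring
      have es' := congrArg (fun r : ℝ ↦ (r : ℂ)) es
      push_cast at es' ⊢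
      linear_combination (2 * π * I : ℂ) * es' 
    have hrhs : ∀ k, ∑' y, G k y = ((Real.sqrt t ^ n * κ : ℝ) : ℂ)⁻¹ *
        ∑' y : Fin n → ℤ, cexp (-(π / t * ((((e (k, y)) 0 : ℤ) : ℝ) - w 0) ^ 2 / a +
            π / t * Qd (fun i ↦ ((e (k, y) i.succ : ℝ) - w i.succ) -
              ((e (k, y) 0 : ℝ) - w 0) * slope L i) : ℝ) +
          2 * π * I * ((∑ i, (e (k, y) i : ℝ) * x i : ℝ) : ℂ)) := by
      intro k
      simp only [G]
      rw [tsum_mul_left, h.identity t ht x' (w1 k), mul_left_comm, ← tsum_mul_left]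
      congr 1
      refine tsum_congr fun y ↦ ?_
      simp only [f, ← Complex.exp_add, e, Fin.consEquiv, Equiv.coe_fn_mk, Fin.cons_zero,
        Fin.cons_succ, Fin.sum_univ_succ, w1, x']
      congr 1
      have eQ : (fun i ↦ (y i : ℝ) - (w i.succ + ((k : ℝ) - w 0) * slope L i)) =
          fun i ↦ ((y i : ℝ) - w i.succ) - ((k : ℝ) - w 0) * slope L i := by
        funext i; ring
      rw [eQ]
      push_cast
      field_simp
      ring
    set T : (Fin (n + 1) → ℤ) → ℂ := fun u ↦ cexp (-(π / t * (((u 0 : ℝ) - w 0) ^ 2 / a +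
        Qd (fun i ↦ ((u i.succ : ℝ) - w i.succ) - ((u 0 : ℝ) - w 0) * slope L i)) : ℝ) +
      2 * π * I * ((∑ i, (u i : ℝ) * x i : ℝ) : ℂ)) with hT
    have hTsum : Summable (T ∘ e) := by
      obtain ⟨ε'', hε'', hεD⟩ : ∃ ε > 0, ∀ u : Fin (n + 1) → ℝ, ε * ∑ i, u i ^ 2 ≤
          u 0 ^ 2 / a + Qd (fun i ↦ u i.succ - u 0 * slope L i) := by
        set B' := (∑ i, ‖tailMap L (Pi.single i 1)‖ ^ 2) + 1
        have hB' : 0 < B' := by positivity
        have hlow := h.lower (B := B') hB'.le fun v ↦ (sum_sq_le_norm _ v).trans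
          (mul_le_mul_of_nonneg_right (by simp [B']) (by positivity))
        set S := ∑ i, slope L i ^ 2
        have hS : 0 ≤ S := Finset.sum_nonneg fun i _ ↦ sq_nonneg _
        refine ⟨1 / (a * (1 + 2 * S) + 2 * B'), by positivity, fun u ↦ ?_⟩
        have h1 := hlow (fun i ↦ u i.succ - u 0 * slope L i)
        set W := ∑ i : Fin n, (u i.succ - u 0 * slope L i) ^ 2
        set U := Qd fun i ↦ u i.succ - u 0 * slope L i
        have hU : 0 ≤ U := h.nonneg _
        have h2 : ∑ i : Fin n, u i.succ ^ 2 ≤ 2 * W + 2 * S * u 0 ^ 2 := by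
          simp only [W, S, Finset.mul_sum, Finset.sum_mul, ← Finset.sum_add_distrib]
          exact Finset.sum_le_sum fun i _ ↦ by
            nlinarith [sq_nonneg (u i.succ - 2 * (u 0 * slope L i))]
        have h3 : (u 0 ^ 2 / a) * a = u 0 ^ 2 := by field_simp
        rw [Fin.sum_univ_succ, one_div_mul_eq_div, div_le_iff₀ (by positivity)]
        nlinarith [mul_nonneg (div_nonneg (sq_nonneg (u 0)) ha.le) hB'.le,
          mul_nonneg hU (by positivity : 0 ≤ a * (1 + 2 * S))]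
      refine e.summable_iff.2 (Summable.of_norm ((summable_gauss_of_le
        (F := fun u ↦ π / t * (((u 0 : ℝ) - w 0) ^ 2 / a +
          Qd (fun i ↦ ((u i.succ : ℝ) - w i.succ) - ((u 0 : ℝ) - w 0) * slope L i))) (C := 0)
        (mul_pos (div_pos Real.pi_pos ht) hε'') (fun i ↦ -w i) fun u ↦ ?_).congr fun u ↦ ?_))
      · rw [add_zero, mul_assoc]
        refine mul_le_mul_of_nonneg_left ?_ (by positivity)
        simpa [sub_eq_add_neg] using hεD (fun i ↦ (u i : ℝ) - w i)
      · simp only [T, norm_gauss_term]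
    calc _ = ∑' m : ℤ, ∑' y : Fin n → ℤ, F m y := by
          rw [← e.tsum_eq]
          exact hF.tsum_prod
      _ = ∑' y : Fin n → ℤ, ∑' m : ℤ, F m y := hF.tsum_comm.symm
      _ = ((Real.sqrt (t * a) : ℝ) : ℂ)⁻¹ * ∑' y : Fin n → ℤ, ∑' k : ℤ, G k y := by
          rw [tsum_congr hinner, tsum_mul_left]
      _ = ((Real.sqrt (t * a) : ℝ) : ℂ)⁻¹ * ∑' k : ℤ, ∑' y : Fin n → ℤ, G k y := by
          rw [hG.tsum_comm]
      _ = _ := by
          rw [tsum_congr hrhs, tsum_mul_left, ← mul_assoc]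
          have hsq : Real.sqrt (t * a) * (Real.sqrt t ^ n * κ) =
              Real.sqrt t ^ (n + 1) * (‖headVec L‖ * κ) := by
            rw [Real.sqrt_mul ht.le, ha_def, Real.sqrt_sq hp.le]
            ring
          rw [← mul_inv, ← ofReal_mul, hsq]
          congr 1
          rw [← e.tsum_eq]
          show _ = ∑' p, (T ∘ e) p
          rw [hTsum.tsum_prod]
          refine tsum_congr fun k ↦ tsum_congr fun y ↦ ?_
          simp only [Function.comp_apply, T]
          congr 3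
          push_cast
          ring

/-- Every form `‖L v‖ ^ 2` has a dual. -/
theorem exists_gaussDual : ∀ {n : ℕ} (L : (Fin n → ℝ) →ₗ[ℝ] E), Function.Injective L →
    ∃ Qd κ, GaussDual L Qd κ
  | 0, L, _ => ⟨_, _, gaussDual_zero L⟩
  | _ + 1, _, hL =>
    let ⟨_, _, h⟩ := exists_gaussDual _ (tailMap_injective hL)
    ⟨_, _, h.succ hL⟩

end FLTAgent.LT.RS
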