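import Mathlib.Analysis.Fourier.AddCircleMulti
import Mathlib.Dynamics.Ergodic.AddCircle
import Fermat.Agent.LT.Theta31.Poisson

/-!
Fourier coefficients of continuous periodic functions on `ℝ ^ d`, computed on a unit box.
-/

set_option autoImplicit false

noncomputable section

namespace FLTAgent.LT.RS

open MeasureTheory Complex UnitAddTorus Set
open FLTAgent.LT.Theta31 (rvec toTorus echar toTorus_eq_iff isOpenQuotientMap_toTorus
  mFourier_toTorus)
open scoped Real ComplexConjugate

variable {d : Type*} [Fintype d]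

/-- The probability measure on the circle. -/
local instance : MeasureSpace UnitAddCircle := ⟨AddCircle.haarAddCircle⟩

local instance : Measure.IsAddHaarMeasure (volume : Measure UnitAddCircle) :=
  inferInstanceAs (Measure.IsAddHaarMeasure AddCircle.haarAddCircle)

local instance : IsProbabilityMeasure (volume : Measure UnitAddCircle) :=
  inferInstanceAs (IsProbabilityMeasure AddCircle.haarAddCircle)

/-- The unit box. -/
def boxSet (d : Type*) : Set (d → ℝ) := Set.pi Set.univ fun _ ↦ Set.Ico (0 : ℝ) 1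

/-- Continuous and invariant under integral translations. -/
structure ZPeriodic (f : (d → ℝ) → ℂ) : Prop where
  cont : Continuous f
  per : ∀ (x : d → ℝ) (v : d → ℤ), f (x + rvec v) = f x

/-- The Fourier coefficient. -/
def fc (f : (d → ℝ) → ℂ) (k : d → ℤ) : ℂ := ∫ y in boxSet d, echar (-k) y * f y

theorem norm_echar' (k : d → ℤ) (x : d → ℝ) : ‖echar k x‖ = 1 := by
  rw [echar, show (2 * π * I * ∑ i, (k i : ℂ) * (x i : ℂ) : ℂ) =
    ((2 * π * ∑ i, (k i : ℝ) * x i : ℝ) : ℂ) * I by push_cast; ring]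
  exact Complex.norm_exp_ofReal_mul_I _

theorem echar_add (k : d → ℤ) (x y : d → ℝ) : echar k (x + y) = echar k x * echar k y := by
  simp only [echar, ← Complex.exp_add, ← mul_add, ← Finset.sum_add_distrib]
  push_cast [Pi.add_apply]
  simp only [mul_add]

theorem echar_neg_mul (k : d → ℤ) (x : d → ℝ) : echar (-k) x * echar k x = 1 := by
  simp [echar, ← Complex.exp_add, ← mul_add, ← Finset.sum_add_distrib]

theorem continuous_echar (k : d → ℤ) : Continuous (echar (d := d) k) := by
  unfold echar; fun_prop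

theorem echar_rvec (k v : d → ℤ) : echar k (rvec v) = 1 := by
  rw [echar, ← Complex.exp_int_mul_two_pi_mul_I (∑ i, k i * v i)]
  congr 1
  push_cast [rvec]
  ring

theorem measurableSet_boxSet : MeasurableSet (boxSet d) :=
  MeasurableSet.univ_pi fun _ ↦ measurableSet_Ico

theorem volume_boxSet : volume (boxSet d) = 1 := by
  rw [boxSet, volume_pi_pi]
  simp

theorem boxSet_ae_eq : boxSet d =ᵐ[volume] {x : d → ℝ | ∀ i, x i ∈ Ioc ((0 : d → ℝ) i) ((0 : d → ℝ) i + 1)} := by
  have h1 : boxSet d =ᵐ[volume] Icc (fun _ : d ↦ (0 : ℝ)) fun _ ↦ 1 :=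
    Measure.univ_pi_Ico_ae_eq_Icc
  have h2 : (Set.pi Set.univ fun _ : d ↦ Ioc (0 : ℝ) 1) =ᵐ[volume]
      Icc (fun _ : d ↦ (0 : ℝ)) fun _ ↦ 1 := Measure.univ_pi_Ioc_ae_eq_Icc
  refine h1.trans (h2.symm.trans (Filter.EventuallyEq.of_eq ?_))
  ext x
  show x ∈ Set.pi Set.univ (fun _ : d ↦ Ioc (0 : ℝ) 1) ↔
    x ∈ {x : d → ℝ | ∀ i, x i ∈ Ioc ((0 : d → ℝ) i) ((0 : d → ℝ) i + 1)}
  simp

/-- The function on the torus. -/
def torusFun (f : (d → ℝ) → ℂ) (q : UnitAddTorus d) : ℂ :=
  f (Function.surjInv isOpenQuotientMap_toTorus.surjective q)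

variable {f g : (d → ℝ) → ℂ}

theorem torusFun_toTorus (hf : ZPeriodic f) (x : d → ℝ) : torusFun f (toTorus x) = f x := by
  obtain ⟨v, hv⟩ := toTorus_eq_iff.1
    (Function.surjInv_eq isOpenQuotientMap_toTorus.surjective (toTorus x))
  rw [torusFun]
  conv_rhs => rw [hv, hf.per]

/-- The continuous function on the torus. -/
def torusMap (hf : ZPeriodic f) : C(UnitAddTorus d, ℂ) :=
  ⟨torusFun f, by
    rw [isOpenQuotientMap_toTorus.isQuotientMap.continuous_iff]
    exact hf.cont.congr fun x ↦ (torusFun_toTorus hf x).symm⟩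

theorem integral_torus (F : C(UnitAddTorus d, ℂ)) :
    ∫ q, F q = ∫ y in boxSet d, F (toTorus y) := by
  rw [setIntegral_congr_set boxSet_ae_eq, UnitAddTorus.integral_preimage (fun q ↦ F q) 0]
  rfl

theorem fc_eq_mFourierCoeff (hf : ZPeriodic f) (k : d → ℤ) :
    fc f k = mFourierCoeff (torusMap hf) k := by
  rw [mFourierCoeff_eq_integral _ _ 0, fc, setIntegral_congr_set boxSet_ae_eq]
  refine setIntegral_congr_fun
    (MeasurableSet.univ_pi' fun _ ↦ measurableSet_Ioc) fun y _ ↦ ?_
  show _ = mFourier (-k) (toTorus y) • torusMap hf (toTorus y)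
  rw [mFourier_toTorus, smul_eq_mul]
  exact congrArg _ (torusFun_toTorus hf y).symm

/-- Parseval. -/
theorem hasSum_mul_fc (hf : ZPeriodic f) (hg : ZPeriodic g) :
    HasSum (fun k ↦ fc f k * conj (fc g k)) (∫ y in boxSet d, f y * conj (g y)) := by
  have h := hasSum_prod_mFourierCoeff ((torusMap hg).toLp 2 volume ℂ)
    ((torusMap hf).toLp 2 volume ℂ)
  have e1 : ∀ k, fc f k * conj (fc g k) =
      conj (mFourierCoeff ((torusMap hg).toLp 2 volume ℂ) k) *
        mFourierCoeff ((torusMap hf).toLp 2 volume ℂ) k := fun k ↦ by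
    rw [mFourierCoeff_toLp, mFourierCoeff_toLp, ← fc_eq_mFourierCoeff, ← fc_eq_mFourierCoeff,
      mul_comm]
  refine (h.congr_fun e1).congr_fun (fun k ↦ rfl) |> fun h' ↦ ?_
  convert h' using 1
  symm
  calc ∫ t, conj ((torusMap hg).toLp 2 volume ℂ t) * (torusMap hf).toLp 2 volume ℂ t
      = ∫ t, conj (torusMap hg t) * torusMap hf t := by
        refine integral_congr_ae ?_
        filter_upwards [(torusMap hg).coeFn_toLp (p := 2) (𝕜 := ℂ) volume,
          (torusMap hf).coeFn_toLp (p := 2) (𝕜 := ℂ) volume] with t h1 h2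
        rw [h1, h2]
    _ = ∫ y in boxSet d, f y * conj (g y) := by
        refine (integral_torus ⟨fun t ↦ conj (torusMap hg t) * torusMap hf t,
          (Complex.continuous_conj.comp (torusMap hg).continuous).mul
            (torusMap hf).continuous⟩).trans ?_
        refine setIntegral_congr_fun measurableSet_boxSet fun y _ ↦ ?_
        show conj (torusFun g (toTorus y)) * torusFun f (toTorus y) = _
        rw [torusFun_toTorus hf, torusFun_toTorus hg, mul_comm]

/-- Parseval for norms. -/
theorem hasSum_sq_fc (hf : ZPeriodic f) :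
    HasSum (fun k ↦ ‖fc f k‖ ^ 2) (∫ y in boxSet d, ‖f y‖ ^ 2) := by
  have h := RCLike.hasSum_re ℂ (hasSum_mul_fc hf hf)
  simp only [Complex.mul_conj', RCLike.re_to_complex, ← Complex.ofReal_pow, Complex.ofReal_re] at h
  have e : ∫ y in boxSet d, ((‖f y‖ ^ 2 : ℝ) : ℂ) =
      ((∫ y in boxSet d, ‖f y‖ ^ 2 : ℝ) : ℂ) := integral_ofReal
  rw [e, Complex.ofReal_re] at h
  exact h

/-- Coefficients are bounded by a bound of the function. -/
theorem norm_fc_le {C : ℝ} (hC : ∀ y, ‖f y‖ ≤ C) (k : d → ℤ) : ‖fc f k‖ ≤ C := by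
  refine (norm_setIntegral_le_of_norm_le_const (C := C)
    (by rw [volume_boxSet]; exact ENNReal.one_lt_top)
    fun y _ ↦ ?_).trans_eq (by simp [measureReal_def, volume_boxSet])
  rw [norm_mul, norm_echar', one_mul]
  exact hC y

/-- A continuous periodic function with vanishing coefficients vanishes. -/
theorem eq_zero_of_fc_eq_zero (hf : ZPeriodic f) (h : ∀ k, fc f k = 0) (y : d → ℝ) : f y = 0 := by
  have h0 : torusMap hf = 0 := by
    have hc : ∀ k, mFourierCoeff (torusMap hf) k = 0 := fun k ↦ by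
      rw [← fc_eq_mFourierCoeff hf, h]
    have hs : Summable (mFourierCoeff (torusMap hf)) := summable_zero.congr fun k ↦ (hc k).symm
    refine (hasSum_mFourier_series_of_summable hs).unique ?_
    exact (hasSum_zero (β := d → ℤ) (α := C(UnitAddTorus d, ℂ))).congr_fun fun k ↦ by
      rw [hc k]; exact zero_smul ℂ (mFourier k)
  rw [← torusFun_toTorus hf y]
  exact congrArg (fun F : C(UnitAddTorus d, ℂ) ↦ F (toTorus y)) h0

theorem integral_box_add (hf : ZPeriodic f) (a : d → ℝ) :
    ∫ y in boxSet d, f (y + a) = ∫ y in boxSet d, f y := by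
  have h1 := (integral_torus ⟨fun q ↦ torusMap hf (q + toTorus a),
    (torusMap hf).continuous.comp (continuous_id.add continuous_const)⟩).symm
  have h2 := (integral_torus (torusMap hf)).symm
  have e : ∀ y : d → ℝ, toTorus y + toTorus a = toTorus (y + a) := fun y ↦ by
    funext i; simp [toTorus]
  simp only [ContinuousMap.coe_mk, e] at h1
  simp only [show ∀ y, torusMap hf (toTorus y) = f y from torusFun_toTorus hf] at h1 h2
  rw [h1, h2]
  exact integral_add_right_eq_self (fun q ↦ torusMap hf q) (toTorus a)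

theorem ZPeriodic.echar_mul (hf : ZPeriodic f) (k : d → ℤ) :
    ZPeriodic fun y ↦ echar k y * f y :=
  ⟨(continuous_echar k).mul hf.cont, fun x v ↦ by
    simp only [echar_add, echar_rvec, mul_one, hf.per]⟩

theorem ZPeriodic.shift (hf : ZPeriodic f) (a : d → ℝ) : ZPeriodic fun y ↦ f (y + a) :=
  ⟨hf.cont.comp (continuous_id.add continuous_const), fun x v ↦ by
    simp only [add_right_comm x (rvec v) a, hf.per]⟩

/-- Coefficients of a translate. -/
theorem fc_shift (hf : ZPeriodic f) (a : d → ℝ) (k : d → ℤ) :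
    fc (fun y ↦ f (y + a)) k = echar k a * fc f k := by
  rw [fc, fc, ← integral_box_add (hf.echar_mul (-k)) a, ← integral_const_mul]
  refine setIntegral_congr_fun measurableSet_boxSet fun y _ ↦ ?_
  rw [echar_add, show echar k a * (echar (-k) y * echar (-k) a * f (y + a)) =
    (echar (-k) a * echar k a) * (echar (-k) y * f (y + a)) by ring, echar_neg_mul, one_mul]

theorem ZPeriodic.dilate (hf : ZPeriodic f) (n : ℕ) : ZPeriodic fun y ↦ f ((n : ℝ) • y) :=
  ⟨hf.cont.comp (continuous_const_smul (n : ℝ)), fun x v ↦ by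
    simp only [smul_add]
    rw [show (n : ℝ) • rvec v = rvec ((n : ℤ) • v) by funext i; simp [rvec], hf.per]⟩

/-- Coefficients of a dilate at multiples. -/
theorem fc_dilate (hf : ZPeriodic f) {n : ℕ} (hn : 0 < n) (k : d → ℤ) :
    fc (fun y ↦ f ((n : ℝ) • y)) ((n : ℤ) • k) = fc f k := by
  set F := torusMap (hf.echar_mul (-k))
  have hp : MeasurePreserving (fun q : UnitAddTorus d ↦ fun i ↦ (n : ℤ) • q i) volume volume :=
    measurePreserving_pi _ _ fun _ ↦
      MeasureTheory.Measure.measurePreserving_zsmul _ (by exact_mod_cast hn.ne')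
  have h1 := (integral_torus (F.comp ⟨fun q : UnitAddTorus d ↦ fun i ↦ (n : ℤ) • q i,
    continuous_pi fun i ↦ (continuous_zsmul (n : ℤ)).comp (continuous_apply i)⟩)).symm
  have h2 := (integral_torus F).symm
  rw [fc, fc]
  have key : ∀ y : d → ℝ, (fun i ↦ (n : ℤ) • toTorus y i) = toTorus ((n : ℝ) • y) := fun y ↦ by
    funext i
    simp [toTorus]
  simp only [ContinuousMap.comp_apply, ContinuousMap.coe_mk, key] at h1
  simp only [F, show ∀ y, torusMap (hf.echar_mul (-k)) (toTorus y) = echar (-k) y * f y from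
    torusFun_toTorus (hf.echar_mul (-k))] at h1 h2
  rw [h2, ← hp.map_eq]
  rw [integral_map hp.measurable.aemeasurable
    F.continuous.aestronglyMeasurable, ← h1]
  refine setIntegral_congr_fun measurableSet_boxSet fun y _ ↦ ?_
  congr 1
  simp only [echar, Pi.neg_apply, Pi.smul_apply, smul_eq_mul]
  congr 2
  refine Finset.sum_congr rfl fun i _ ↦ ?_
  push_cast
  ring

/-- Coefficients of a dilate away from multiples vanish. -/
theorem fc_dilate_eq_zero (hf : ZPeriodic f) {n : ℕ} (hn : 0 < n) {k : d → ℤ}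
    {i : d} (hi : ¬ ((n : ℤ) ∣ k i)) : fc (fun y ↦ f ((n : ℝ) • y)) k = 0 := by
  classical
  set a : d → ℝ := Pi.single i (1 / n)
  have hshift : (fun y ↦ f ((n : ℝ) • (y + a))) = fun y ↦ f ((n : ℝ) • y) := by
    funext y
    rw [smul_add, show (n : ℝ) • a = rvec (Pi.single i 1) by
      funext j
      by_cases hj : j = i
      · subst hj; simp [a, rvec, hn.ne']
      · simp [a, rvec, hj], hf.per]
  have h := fc_shift (hf.dilate n) a k
  simp only [hshift] at h
  have hne : echar k a ≠ 1 := by
    intro he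
    rw [echar, Complex.exp_eq_one_iff] at he
    obtain ⟨m, hm⟩ := he
    rw [Finset.sum_eq_single i (fun j _ hj ↦ by simp [a, hj]) (by simp), mul_comm (m : ℂ)] at hm
    have hm' := mul_left_cancel₀ Complex.two_pi_I_ne_zero hm
    have hm'' : (k i : ℝ) / n = m := by
      simp only [a, Pi.single_eq_same] at hm'
      have : ((k i : ℝ) : ℂ) * ((1 / n : ℝ) : ℂ) = ((m : ℝ) : ℂ) := by exact_mod_cast hm'
      rw [← Complex.ofReal_mul, Complex.ofReal_inj] at this
      rw [← this]; ring
    refine hi ⟨m, ?_⟩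
    rw [div_eq_iff (by positivity)] at hm''
    exact_mod_cast (by linarith : (k i : ℝ) = n * m)
  by_contra h0
  exact hne ((mul_eq_right₀ h0).1 h.symm)

/-- An integral matrix acting on real vectors. -/
def intLin (A : d → d → ℤ) (y : d → ℝ) : d → ℝ := fun i ↦ ∑ j, (A i j : ℝ) * y j

theorem continuous_intLin (A : d → d → ℤ) : Continuous (intLin A) := by
  unfold intLin; fun_prop

theorem ZPeriodic.comp_intLin (hf : ZPeriodic f) (A : d → d → ℤ) :
    ZPeriodic fun y ↦ f (intLin A y) :=
  ⟨hf.cont.comp (continuous_intLin A), fun x v ↦ by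
    have e : intLin A (x + rvec v) = intLin A x + rvec (fun i ↦ ∑ j, A i j * v j) := by
      funext i
      simp [intLin, rvec, mul_add, Finset.sum_add_distrib]
    simp only [e, hf.per]⟩

/-- Coefficients of the composition with a surjective integral matrix. -/
theorem fc_intLin (hf : ZPeriodic f) (A : d → d → ℤ) (hA : Function.Surjective (intLin A))
    (k : d → ℤ) : fc (fun y ↦ f (intLin A y)) (fun j ↦ ∑ i, A i j * k i) = fc f k := by
  set T : UnitAddTorus d →+ UnitAddTorus d :=
    { toFun := fun q i ↦ ∑ j, A i j • q j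
      map_zero' := by funext i; simp
      map_add' := fun p q ↦ by funext i; simp [smul_add, Finset.sum_add_distrib] }
  have hTc : Continuous T := continuous_pi fun i ↦
    continuous_finsetSum _ fun j _ ↦ (continuous_zsmul (A i j)).comp (continuous_apply j)
  have key : ∀ y : d → ℝ, T (toTorus y) = toTorus (intLin A y) := fun y ↦ by
    funext i
    show ∑ j, A i j • ((y j : ℝ) : UnitAddCircle) = ((intLin A y i : ℝ) : UnitAddCircle)
    simp only [intLin, ← zsmul_eq_mul]
    exact (map_sum (QuotientAddGroup.mk' (AddSubgroup.zmultiples (1 : ℝ))) _ _).symm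
  have hTs : Function.Surjective T := fun q ↦ by
    obtain ⟨z, rfl⟩ := isOpenQuotientMap_toTorus.surjective q
    obtain ⟨y, rfl⟩ := hA z
    exact ⟨toTorus y, key y⟩
  have hp : MeasurePreserving T volume volume := AddMonoidHom.measurePreserving hTc hTs rfl
  set F := torusMap (hf.echar_mul (-k))
  have hF : ∀ y, F (toTorus y) = echar (-k) y * f y := torusFun_toTorus (hf.echar_mul (-k))
  have h1 := integral_torus (F.comp ⟨T, hTc⟩)
  simp only [ContinuousMap.comp_apply, ContinuousMap.coe_mk, key, hF] at h1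
  have h2 : ∫ y in boxSet d, echar (-k) y * f y = ∫ q, F (T q) := by
    rw [← setIntegral_congr_fun measurableSet_boxSet (fun y _ ↦ hF y), ← integral_torus F]
    conv_lhs => rw [← hp.map_eq]
    exact integral_map hTc.measurable.aemeasurable F.continuous.aestronglyMeasurable
  rw [fc, fc, h2, h1]
  refine setIntegral_congr_fun measurableSet_boxSet fun y _ ↦ ?_
  congr 1
  simp only [echar, Pi.neg_apply, intLin]
  congr 2
  push_cast
  simp only [← Finset.sum_neg_distrib, Finset.sum_mul, Finset.mul_sum, neg_mul, mul_assoc]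
  rw [Finset.sum_comm]
  exact Finset.sum_congr rfl fun i _ ↦ Finset.sum_congr rfl fun j _ ↦ by ring

end FLTAgent.LT.RS
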