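import Fermat.Agent.LT.Defs
import Fermat.Agent.LT.RS.Torus

/-!
The period lattices `m · O_F` at the complex places and their dual lattices.
-/

set_option autoImplicit false

noncomputable section

namespace FLTAgent.LT.RS

open NumberField Complex Module
open FLTAgent.LT.Theta31 (echar)
open scoped Real ComplexConjugate

variable {F : Type*} [Field F] [NumberField F]

/-- The index type of the integral basis. -/
abbrev Idx (F : Type*) [Field F] [NumberField F] := Free.ChooseBasisIndex ℤ (𝓞 F)

/-- `Σ_w 2 Re (σ_w ξ · z_w)`. -/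
def trPair (ξ : F) (z : InfinitePlace F → ℂ) : ℝ := ∑ w, 2 * (w.embedding ξ * z w).re

/-- The additive character. -/
def trChar (ξ : F) (z : InfinitePlace F → ℂ) : ℂ := cexp (((2 * π * trPair ξ z : ℝ) : ℂ) * I)

/-- The image of a field element at the infinite places. -/
def embF (x : F) : InfinitePlace F → ℂ := fun w ↦ w.embedding x

theorem norm_trChar (ξ : F) (z : InfinitePlace F → ℂ) : ‖trChar ξ z‖ = 1 :=
  Complex.norm_exp_ofReal_mul_I _

theorem trPair_add (ξ : F) (z z' : InfinitePlace F → ℂ) :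
    trPair ξ (z + z') = trPair ξ z + trPair ξ z' := by
  simp only [trPair, ← Finset.sum_add_distrib, Pi.add_apply, mul_add, Complex.add_re]

theorem trChar_add (ξ : F) (z z' : InfinitePlace F → ℂ) :
    trChar ξ (z + z') = trChar ξ z * trChar ξ z' := by
  rw [trChar, trChar, trChar, ← Complex.exp_add, trPair_add]
  push_cast
  ring_nf

theorem trPair_neg (ξ : F) (z : InfinitePlace F → ℂ) : trPair ξ (-z) = -trPair ξ z := by
  rw [eq_neg_iff_add_eq_zero, ← trPair_add, neg_add_cancel]
  simp [trPair]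

theorem trChar_zero (ξ : F) : trChar ξ 0 = 1 := by simp [trChar, trPair]

theorem continuous_trChar (ξ : F) : Continuous (trChar ξ) := by
  unfold trChar trPair; fun_prop

theorem trPair_mul (ξ η : F) (z : InfinitePlace F → ℂ) :
    trPair (ξ * η) z = trPair ξ fun w ↦ w.embedding η * z w := by
  simp [trPair, mul_assoc]

/-- The trace as a sum over the complex places. -/
theorem trace_eq_sum_places [IsTotallyComplex F] (x : F) :
    ((Algebra.trace ℚ F x : ℚ) : ℝ) = ∑ w : InfinitePlace F, 2 * (w.embedding x).re := by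
  classical
  apply Complex.ofReal_injective
  have h := trace_eq_sum_embeddings (K := ℚ) (L := F) ℂ (x := x)
  rw [← Equiv.sum_comp (RingHom.equivRatAlgHom (R := F) (S := ℂ))] at h
  calc ((((Algebra.trace ℚ F x : ℚ) : ℝ)) : ℂ)
      = algebraMap ℚ ℂ (Algebra.trace ℚ F x) := by simp
    _ = ∑ φ : F →+* ℂ, φ x := h
    _ = ∑ w : InfinitePlace F, ∑ φ ∈ Finset.univ.filter (fun φ ↦ InfinitePlace.mk φ = w), φ x :=
        (Finset.sum_fiberwise _ _ _).symm
    _ = _ := by
        push_cast
        refine Finset.sum_congr rfl fun w _ ↦ ?_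
        have hne : ComplexEmbedding.conjugate w.embedding ≠ w.embedding := fun h' ↦
          IsTotallyComplex.complexEmbedding_not_isReal w.embedding
            (ComplexEmbedding.isReal_iff.2 h')
        have hset : Finset.univ.filter (fun φ : F →+* ℂ ↦ InfinitePlace.mk φ = w) =
            {w.embedding, ComplexEmbedding.conjugate w.embedding} := by
          ext φ
          simp only [Finset.mem_filter, Finset.mem_univ, true_and, Finset.mem_insert,
            Finset.mem_singleton]
          conv_lhs => rw [← InfinitePlace.mk_embedding w, InfinitePlace.mk_eq_iff]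
          constructor
          · rintro (h1 | h1)
            · exact Or.inl h1
            · exact Or.inr (by rw [← h1]; exact (star_star φ).symm)
          · rintro (rfl | rfl)
            · exact Or.inl rfl
            · exact Or.inr (star_star _)
        rw [hset, Finset.sum_pair hne.symm, ComplexEmbedding.conjugate_coe_eq,
          Complex.add_conj]
        push_cast
        ring

theorem trPair_embF [IsTotallyComplex F] (ξ x : F) :
    trPair ξ (embF x) = ((Algebra.trace ℚ F (ξ * x) : ℚ) : ℝ) := by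
  rw [trace_eq_sum_places]
  simp [trPair, embF]

/-- The coordinates at the complex places. -/
def placeVec (F : Type*) [Field F] [IsTotallyComplex F] :
    mixedEmbedding.mixedSpace F ≃ₗ[ℝ] (InfinitePlace F → ℂ) where
  toFun x w := x.2 ⟨w, IsTotallyComplex.isComplex w⟩
  map_add' _ _ := rfl
  map_smul' _ _ := rfl
  invFun z := (0, fun w ↦ z w.1)
  left_inv x := Prod.ext (funext fun w ↦ absurd w.2
    (InfinitePlace.not_isReal_iff_isComplex.2 (IsTotallyComplex.isComplex w.1))) rfl
  right_inv z := rfl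

variable (F) in
/-- The box coordinates. -/
def boxEquiv [IsTotallyComplex F] : (Idx F → ℝ) ≃ₗ[ℝ] (InfinitePlace F → ℂ) :=
  (mixedEmbedding.latticeBasis F).equivFun.symm ≪≫ₗ placeVec F

theorem boxEquiv_apply [IsTotallyComplex F] (y : Idx F → ℝ) : boxEquiv F y = boxVec 1 y := by
  funext w
  simp [boxEquiv, placeVec, boxVec, Module.Basis.equivFun_symm_apply,
    mixedEmbedding.mixedEmbedding_apply_isComplex, integralBasis_apply, Prod.snd_sum,
    Complex.real_smul]

theorem boxVec_eq_smul (m : ℕ) (y : Idx F → ℝ) : boxVec m y = (m : ℝ) • boxVec 1 y := by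
  funext w; simp [boxVec]

theorem boxVec_add (m : ℕ) (y y' : Idx F → ℝ) :
    boxVec m (y + y') = boxVec m y + boxVec m y' := by
  funext w
  simp [boxVec, ← mul_add, ← Finset.sum_add_distrib, add_mul]

theorem boxVec_smul (m : ℕ) (k : ℕ) (y : Idx F → ℝ) :
    boxVec (m * k) y = boxVec m ((k : ℝ) • y) := by
  funext w
  simp [boxVec, mul_assoc, Finset.mul_sum]

theorem continuous_boxVec (m : ℕ) : Continuous (boxVec (F := F) m) := by
  unfold boxVec; fun_prop

/-- The algebraic integer with given coordinates. -/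
def intOf (v : Idx F → ℤ) : 𝓞 F := ∑ i, v i • RingOfIntegers.basis F i

theorem boxVec_rvec (m : ℕ) (v : Idx F → ℤ) :
    boxVec m (Theta31.rvec v) = fun w ↦ (m : ℂ) * w.embedding (intOf v : F) := by
  funext w
  simp [boxVec, intOf, Theta31.rvec, map_sum]

theorem exists_intOf (β : 𝓞 F) : ∃ v, intOf v = β :=
  ⟨fun i ↦ (RingOfIntegers.basis F).repr β i, (RingOfIntegers.basis F).sum_repr β⟩

/-- The frequency of `ξ` on the lattice `m · O_F`. -/
def freq (m : ℕ) (ξ : F) (i : Idx F) : ℚ :=
  (m : ℚ) * Algebra.trace ℚ F (ξ * (RingOfIntegers.basis F i : F))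

/-- `ξ` is in the dual of the lattice `m · O_F`. -/
def IsDual (m : ℕ) (ξ : F) : Prop := ∀ i, ∃ k : ℤ, freq m ξ i = k

/-- The integral frequency. -/
def kvec (m : ℕ) (ξ : F) : Idx F → ℤ := fun i ↦ ⌊freq m ξ i⌋

theorem kvec_cast {m : ℕ} {ξ : F} (h : IsDual m ξ) (i : Idx F) :
    (kvec m ξ i : ℚ) = freq m ξ i := by
  obtain ⟨k, hk⟩ := h i
  simp [kvec, hk]

theorem echar_kvec [IsTotallyComplex F] {m : ℕ} {ξ : F} (h : IsDual m ξ) (y : Idx F → ℝ) :
    echar (kvec m ξ) y = trChar ξ (boxVec m y) := by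
  rw [echar, trChar]
  congr 1
  have hw : trPair ξ (boxVec m y) =
      ∑ i, y i * ((m : ℝ) * trPair ξ (embF (RingOfIntegers.basis F i : F))) := by
    simp only [trPair, boxVec, embF, Finset.mul_sum, Complex.re_sum]
    rw [Finset.sum_comm]
    refine Finset.sum_congr rfl fun i _ ↦ Finset.sum_congr rfl fun w _ ↦ ?_
    simp [Complex.mul_re, Complex.mul_im]
    ring
  rw [hw]
  simp only [trPair_embF]
  have hk : ∀ i, ((m : ℝ) * ((Algebra.trace ℚ F (ξ * (RingOfIntegers.basis F i : F)) : ℚ) : ℝ)) =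
      (kvec m ξ i : ℝ) := fun i ↦ by
    have := congrArg (fun q : ℚ ↦ (q : ℝ)) (kvec_cast h i)
    simp only [freq] at this
    push_cast at this ⊢
    exact this.symm
  simp only [hk]
  push_cast
  rw [Finset.mul_sum, Finset.mul_sum, Finset.sum_mul]
  exact Finset.sum_congr rfl fun i _ ↦ by ring

variable (F) in
/-- The integral basis as a rational basis. -/
def ratBasis : Module.Basis (Idx F) ℚ F := integralBasis F

theorem ratBasis_apply (i : Idx F) : ratBasis F i = (RingOfIntegers.basis F i : F) :=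
  integralBasis_apply F i

/-- The element with given frequencies. -/
def xiOf (m : ℕ) (k : Idx F → ℤ) : F :=
  open Classical in
  ∑ i, ((k i : ℚ) / m) •
    (Algebra.traceForm ℚ F).dualBasis (traceForm_nondegenerate ℚ F) (ratBasis F) i

theorem freq_xiOf {m : ℕ} (hm : 0 < m) (k : Idx F → ℤ) (j : Idx F) : freq m (xiOf m k) j = k j := by
  classical
  rw [freq, ← ratBasis_apply,
    ← Algebra.traceForm_apply (R := ℚ) (S := F) (xiOf m k) (ratBasis F j), xiOf,
    LinearMap.map_sum₂]
  simp only [LinearMap.map_smul₂, LinearMap.BilinForm.apply_dualBasis_left, smul_eq_mul,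
    mul_ite, mul_one, mul_zero, Finset.sum_ite_eq, Finset.mem_univ, if_true]
  rw [mul_div_cancel₀ _ (Nat.cast_ne_zero.2 hm.ne')]

theorem isDual_xiOf {m : ℕ} (hm : 0 < m) (k : Idx F → ℤ) : IsDual m (xiOf m k) :=
  fun i ↦ ⟨k i, freq_xiOf hm k i⟩

theorem kvec_xiOf {m : ℕ} (hm : 0 < m) (k : Idx F → ℤ) : kvec m (xiOf m k) = k :=
  funext fun i ↦ by simp [kvec, freq_xiOf hm k i]

theorem freq_injective {m : ℕ} (hm : 0 < m) {ξ η : F} (h : freq m ξ = freq m η) : ξ = η := by
  have hz : ∀ i, Algebra.traceForm ℚ F (ξ - η) (ratBasis F i) = 0 := fun i ↦ by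
    have := congrFun h i
    simp only [freq] at this
    have hm' : (m : ℚ) ≠ 0 := Nat.cast_ne_zero.2 hm.ne'
    rw [Algebra.traceForm_apply, ratBasis_apply, sub_mul, map_sub,
      mul_left_cancel₀ hm' this, sub_self]
  have := (ratBasis F).ext (f₁ := Algebra.traceForm ℚ F (ξ - η)) (f₂ := 0) fun i ↦ hz i
  exact sub_eq_zero.1 ((traceForm_nondegenerate ℚ F).1 (ξ - η) fun y ↦ by rw [this]; rfl)

theorem xiOf_kvec {m : ℕ} (hm : 0 < m) {ξ : F} (h : IsDual m ξ) : xiOf m (kvec m ξ) = ξ :=
  freq_injective hm (funext fun i ↦ by rw [freq_xiOf hm, kvec_cast h])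

theorem xiOf_zero (m : ℕ) : xiOf (F := F) m 0 = 0 := by simp [xiOf]

theorem xiOf_mul {m : ℕ} (hm : 0 < m) {n : ℕ} (hn : 0 < n) (k : Idx F → ℤ) :
    xiOf (m * n) ((n : ℤ) • k) = xiOf m k := by
  refine freq_injective hm (funext fun i ↦ ?_)
  rw [freq_xiOf hm]
  have h := freq_xiOf (Nat.mul_pos hm hn) ((n : ℤ) • k) i
  have hn' : (n : ℚ) ≠ 0 := Nat.cast_ne_zero.2 hn.ne'
  refine mul_left_cancel₀ hn' ?_
  simp only [freq] at h ⊢
  push_cast [Pi.smul_apply, smul_eq_mul] at h ⊢
  linarith

/-- Being dual to a coarser lattice detects divisibility of the frequencies. -/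
theorem isDual_xiOf_iff {m : ℕ} (hm : 0 < m) {n : ℕ} (hn : 0 < n) (k : Idx F → ℤ) :
    IsDual m (xiOf (m * n) k) ↔ ∀ i, (n : ℤ) ∣ k i := by
  constructor
  · intro h i
    obtain ⟨j, hj⟩ := h i
    refine ⟨j, ?_⟩
    have h2 := freq_xiOf (Nat.mul_pos hm hn) k i
    simp only [freq] at h2 hj
    push_cast at h2
    exact_mod_cast (show (k i : ℚ) = n * j by rw [← h2, ← hj]; ring)
  · intro h
    choose j hj using h
    rw [show k = (n : ℤ) • j from funext fun i ↦ by simpa using hj i, xiOf_mul hm hn]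
    exact isDual_xiOf hm j

end FLTAgent.LT.RS
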