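import Mathlib.Analysis.SpecialFunctions.ImproperIntegrals
import Mathlib.MeasureTheory.Constructions.BorelSpace.Real
import Fermat.Agent.LT.RS.Gauss

/-!
The Mellin transform of the Gaussian sum of a shifted lattice, minus its vanishing term, near
the edge of absolute convergence: it differs from the polar term by a bound that is polynomial
in the shape of the form.
-/

set_option autoImplicit false

noncomputable section

namespace FLTAgent.LT.RS

open MeasureTheory FLTAgent.EisIndex.Theta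
open scoped Real RealInnerProductSpace

variable {E : Type*} [NormedAddCommGroup E] [InnerProductSpace ℝ E] {n : ℕ}

theorem measurable_tsum_of_nonneg {α ι : Type*} [MeasurableSpace α] [Countable ι]
    {f : ι → α → ℝ} (h0 : ∀ i a, 0 ≤ f i a) (hm : ∀ i, Measurable (f i)) :
    Measurable fun a ↦ ∑' i, f i a := by
  have h : (fun a ↦ ∑' i, f i a) = fun a ↦ ((∑' i, Real.toNNReal (f i a) : NNReal) : ℝ) := by
    funext a
    rw [NNReal.coe_tsum]
    exact tsum_congr fun i ↦ (Real.coe_toNNReal _ (h0 i a)).symm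
  rw [h]
  have hm' := Measurable.nnreal_tsum (f := fun i a ↦ Real.toNNReal (f i a))
    fun i ↦ (hm i).real_toNNReal
  exact hm'.coe_nnreal_real

/-- The shifted lattice point. -/
def latPt (x : Fin n → ℝ) (v : Fin n → ℤ) : Fin n → ℝ := fun i ↦ (v i : ℝ) + x i

theorem latPt_injective (x : Fin n → ℝ) : Function.Injective (latPt x) := fun v w h ↦
  funext fun i ↦ by simpa [latPt] using congrFun h i

/-- The number (zero or one) of lattice points at the origin. -/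
def vanishCount (x : Fin n → ℝ) : ℝ :=
  open Classical in if ∃ v, latPt x v = 0 then 1 else 0

/-- The Gaussian sum without its vanishing term. -/
def thetaStar (L : (Fin n → ℝ) →ₗ[ℝ] E) (x : Fin n → ℝ) (ρ : ℝ) : ℝ :=
  open Classical in
  ∑' v, if latPt x v = 0 then 0 else Real.exp (-(π * ρ * ‖L (latPt x v)‖ ^ 2))

theorem thetaStar_nonneg (L : (Fin n → ℝ) →ₗ[ℝ] E) (x : Fin n → ℝ) (ρ : ℝ) :
    0 ≤ thetaStar L x ρ :=
  tsum_nonneg fun v ↦ by split_ifs <;> positivity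

theorem measurable_thetaStar (L : (Fin n → ℝ) →ₗ[ℝ] E) (x : Fin n → ℝ) :
    Measurable (thetaStar L x) := by
  classical
  refine measurable_tsum_of_nonneg (fun v ρ ↦ by split_ifs <;> positivity) fun v ↦ ?_
  split_ifs
  · exact measurable_const
  · fun_prop

theorem exists_gap (x : Fin n → ℝ) :
    ∃ δ > 0, ∀ v, latPt x v ≠ 0 → δ ≤ ∑ i, latPt x v i ^ 2 := by
  classical
  set m : Fin n → ℝ := fun i ↦ if x i = (round (x i) : ℝ) then 1 else |x i - round (x i)| with hm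
  have hpos : ∀ i, 0 < m i := fun i ↦ by
    simp only [hm]; split_ifs with h
    · exact one_pos
    · exact abs_pos.2 (sub_ne_zero.2 h)
  have hlow : ∀ i (k : ℤ), (k : ℝ) + x i ≠ 0 → m i ≤ |(k : ℝ) + x i| := by
    intro i k hk
    simp only [hm]; split_ifs with h
    · rw [h] at hk ⊢
      have : k + round (x i) ≠ 0 := fun e ↦ hk (by exact_mod_cast e)
      exact_mod_cast Int.one_le_abs this
    · have := round_le (x i) (-k)
      simpa [add_comm] using this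
  rcases isEmpty_or_nonempty (Fin n) with he | he
  · exact ⟨1, one_pos, fun v hv ↦ absurd (Subsingleton.elim _ _) hv⟩
  obtain ⟨j, -, hj⟩ := Finset.exists_min_image Finset.univ m Finset.univ_nonempty
  refine ⟨m j ^ 2, pow_pos (hpos j) 2, fun v hv ↦ ?_⟩
  obtain ⟨i, hi⟩ : ∃ i, latPt x v i ≠ 0 := Function.ne_iff.1 hv
  refine le_trans ?_ (Finset.single_le_sum (fun k _ ↦ sq_nonneg (latPt x v k)) (Finset.mem_univ i))
  rw [← sq_abs (latPt x v i)]
  exact pow_le_pow_left₀ (hpos j).le ((hj i (Finset.mem_univ i)).trans (hlow i (v i) hi)) 2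

theorem summable_int_inv_one_add_sq (x : ℝ) :
    Summable fun k : ℤ ↦ (1 + ((k : ℝ) + x) ^ 2)⁻¹ := by
  have h : Summable fun k : ℤ ↦ (1 + (k : ℝ) ^ 2)⁻¹ := by
    refine Summable.of_norm_bounded_eventually
      (Real.summable_one_div_int_pow.2 (one_lt_two : 1 < 2)) ?_
    filter_upwards [(Set.finite_singleton (0 : ℤ)).compl_mem_cofinite] with k hk
    have hk0 : (k : ℝ) ≠ 0 := by simpa using hk
    rw [Real.norm_eq_abs, abs_of_pos (by positivity), one_div]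
    exact inv_anti₀ (by positivity) (by linarith)
  refine Summable.of_nonneg_of_le (fun _ ↦ by positivity) (fun k ↦ ?_)
    (h.mul_left (2 + 2 * x ^ 2))
  rw [← div_eq_mul_inv, le_div_iff₀ (by positivity), inv_mul_eq_div, div_le_iff₀ (by positivity)]
  nlinarith [sq_nonneg ((k : ℝ) + 2 * x), sq_nonneg (x * ((k : ℝ) + x)), sq_nonneg x]

/-- The lattice zeta value. -/
def latSum (x : Fin n → ℝ) : ℝ :=
  open Classical in
  ∑' v, if latPt x v = 0 then 0 else (∑ i, latPt x v i ^ 2)⁻¹ ^ (n + 1)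

theorem summable_latSum (x : Fin n → ℝ) :
    Summable fun v ↦ (open Classical in
      if latPt x v = 0 then 0 else (∑ i, latPt x v i ^ 2)⁻¹ ^ (n + 1) : ℝ) := by
  classical
  obtain ⟨δ, hδ, hgap⟩ := exists_gap x
  set c : ℝ := 1 + δ⁻¹
  refine Summable.of_nonneg_of_le (fun v ↦ by split_ifs <;> positivity) (fun v ↦ ?_)
    ((summable_prod_fn (f := fun i (k : ℤ) ↦ (1 + ((k : ℝ) + x i) ^ 2)⁻¹)
      (fun i k ↦ by positivity) fun i ↦ summable_int_inv_one_add_sq (x i)).mul_left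
        (δ⁻¹ * c ^ n))
  split_ifs with hv
  · positivity
  set S := ∑ i, latPt x v i ^ 2
  have hS : δ ≤ S := hgap v hv
  have hS0 : 0 < S := hδ.trans_le hS
  rw [pow_succ', mul_assoc]
  refine mul_le_mul (inv_anti₀ hδ hS) ?_ (by positivity) (by positivity)
  calc S⁻¹ ^ n = ∏ _i : Fin n, S⁻¹ := by simp
    _ ≤ ∏ i, c * (1 + ((v i : ℝ) + x i) ^ 2)⁻¹ := by
        refine Finset.prod_le_prod (fun i _ ↦ by positivity) fun i _ ↦ ?_
        have hi : ((v i : ℝ) + x i) ^ 2 ≤ S :=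
          Finset.single_le_sum (f := fun k ↦ latPt x v k ^ 2) (fun k _ ↦ sq_nonneg _)
            (Finset.mem_univ i)
        have h1 : 1 + ((v i : ℝ) + x i) ^ 2 ≤ c * S := by
          have : 1 ≤ δ⁻¹ * S := by rw [inv_mul_eq_div, one_le_div hδ]; exact hS
          rw [add_mul, one_mul]; linarith
        rw [← div_eq_mul_inv, le_div_iff₀ (by positivity), inv_mul_eq_div,
          div_le_iff₀ hS0]
        exact h1
    _ = c ^ n * ∏ i, (1 + ((v i : ℝ) + x i) ^ 2)⁻¹ := by simp [Finset.prod_mul_distrib]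

/-- The constant in the rapid decay. -/
def decayConst (x : Fin n → ℝ) : ℝ := (n + 1).factorial / π ^ (n + 1) * latSum x

theorem decayConst_nonneg (x : Fin n → ℝ) : 0 ≤ decayConst x :=
  mul_nonneg (by positivity) (tsum_nonneg fun v ↦ by split_ifs <;> positivity)

theorem exp_neg_le {y : ℝ} (hy : 0 < y) (k : ℕ) :
    Real.exp (-y) ≤ k.factorial * y⁻¹ ^ k := by
  have hk : (0 : ℝ) < k.factorial := by exact_mod_cast k.factorial_pos
  have h := Real.pow_div_factorial_le_exp y hy.le k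
  rw [Real.exp_neg, inv_pow, ← div_eq_mul_inv, inv_eq_one_div,
    div_le_div_iff₀ (Real.exp_pos y) (pow_pos hy k), one_mul, mul_comm]
  exact (div_le_iff₀ hk).1 h

/-- Rapid decay of Gaussians of a form bounded below. -/
theorem tsum_gauss_le (x : Fin n → ℝ) {F : (Fin n → ℝ) → ℝ} {a : ℝ} (ha : 0 < a)
    (hF : ∀ w, a * ∑ i, w i ^ 2 ≤ F w) {ρ : ℝ} (hρ : 0 < ρ) :
    Summable (fun v ↦ (open Classical in
      if latPt x v = 0 then 0 else Real.exp (-(π * ρ * F (latPt x v))) : ℝ)) ∧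
    (∑' v, (open Classical in
      if latPt x v = 0 then 0 else Real.exp (-(π * ρ * F (latPt x v))) : ℝ)) ≤
      decayConst x * (ρ * a)⁻¹ ^ (n + 1) := by
  classical
  have hle : ∀ v, (if latPt x v = 0 then 0 else Real.exp (-(π * ρ * F (latPt x v)))) ≤
      ((n + 1).factorial / π ^ (n + 1) * (ρ * a)⁻¹ ^ (n + 1)) *
        (if latPt x v = 0 then 0 else (∑ i, latPt x v i ^ 2)⁻¹ ^ (n + 1)) := by
    intro v
    split_ifs with hv
    · simp
    · obtain ⟨i, hi⟩ : ∃ i, latPt x v i ≠ 0 := Function.ne_iff.1 hv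
      have hS : 0 < ∑ i, latPt x v i ^ 2 :=
        lt_of_lt_of_le (by positivity)
          (Finset.single_le_sum (fun k _ ↦ sq_nonneg (latPt x v k)) (Finset.mem_univ i))
      have hy : 0 < π * ρ * (a * ∑ i, latPt x v i ^ 2) := by positivity
      refine (Real.exp_le_exp.2 (neg_le_neg
        (mul_le_mul_of_nonneg_left (hF _) (by positivity)))).trans
          ((exp_neg_le hy (n + 1)).trans_eq ?_)
      simp only [mul_inv, mul_pow, div_eq_mul_inv, inv_pow]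
      ring
  have hsum := (summable_latSum x).mul_left
    ((n + 1).factorial / π ^ (n + 1) * (ρ * a)⁻¹ ^ (n + 1) : ℝ)
  have h1 := Summable.of_nonneg_of_le (fun v ↦ by split_ifs <;> positivity) hle hsum
  refine ⟨h1, (h1.tsum_le_tsum hle hsum).trans_eq ?_⟩
  rw [tsum_mul_left, decayConst, latSum]
  ring

variable (L : (Fin n → ℝ) →ₗ[ℝ] E)

theorem thetaStar_le {x : Fin n → ℝ} {a : ℝ} (ha : 0 < a)
    (hlow : ∀ w, a * ∑ i, w i ^ 2 ≤ ‖L w‖ ^ 2) {ρ : ℝ} (hρ : 0 < ρ) :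
    thetaStar L x ρ ≤ decayConst x * (ρ * a)⁻¹ ^ (n + 1) :=
  (tsum_gauss_le x (F := fun w ↦ ‖L w‖ ^ 2) ha hlow hρ).2

variable {L}

/-- Poisson summation: the behaviour at small parameters. -/
theorem abs_thetaStar_sub_le {Qd : (Fin n → ℝ) → ℝ} {κ : ℝ} (h : GaussDual L Qd κ)
    (x : Fin n → ℝ) {a b : ℝ} (ha : 0 < a) (hb : 0 < b)
    (hlow : ∀ w, a * ∑ i, w i ^ 2 ≤ ‖L w‖ ^ 2) (hup : ∀ w, ‖L w‖ ^ 2 ≤ b * ∑ i, w i ^ 2)
    {ρ : ℝ} (hρ : 0 < ρ) :
    |thetaStar L x ρ - (Real.sqrt ρ ^ n * κ)⁻¹| ≤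
      1 + (Real.sqrt ρ ^ n * κ)⁻¹ * (decayConst (0 : Fin n → ℝ) * (ρ * b) ^ (n + 1)) := by
  classical
  set K := (Real.sqrt ρ ^ n * κ)⁻¹
  have hK : 0 ≤ K := inv_nonneg.2 (mul_nonneg (by positivity) h.pos.le)
  -- the dual sum
  have hdual : ∀ u : Fin n → ℝ, b⁻¹ * ∑ i, u i ^ 2 ≤ Qd u := fun u ↦ by
    rw [inv_mul_le_iff₀ hb]; exact h.lower hb.le hup u
  obtain ⟨hsd, hled⟩ := tsum_gauss_le (0 : Fin n → ℝ) (F := Qd) (inv_pos.2 hb) hdual
    (inv_pos.2 hρ)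
  -- the full sum
  have hid := h.identity ρ hρ x 0
  have hfull : Summable fun v ↦ Real.exp (-(π * ρ * ‖L (latPt x v)‖ ^ 2)) :=
    summable_gauss_of_le (F := fun v ↦ π * ρ * ‖L (latPt x v)‖ ^ 2) (C := 0)
      (mul_pos (mul_pos Real.pi_pos hρ) ha) x fun v ↦ by
        rw [add_zero, mul_assoc]; exact mul_le_mul_of_nonneg_left (hlow _) (by positivity)
  set T : (Fin n → ℤ) → ℂ := fun u ↦ Complex.exp (-(π / ρ * Qd (fun i ↦ (u i : ℝ)) : ℝ) +
    2 * π * Complex.I * ((∑ i, (u i : ℝ) * x i : ℝ) : ℂ))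
  have hTnorm : ∀ u, u ≠ 0 → ‖T u‖ =
      if latPt 0 u = 0 then 0 else Real.exp (-(π * ρ⁻¹ * Qd (latPt 0 u))) := fun u hu ↦ by
    have : latPt (0 : Fin n → ℝ) u ≠ 0 := fun e ↦ hu (funext fun i ↦ by
      simpa [latPt] using congrFun e i)
    rw [if_neg this, norm_gauss_term]
    unfold latPt
    simp [div_eq_mul_inv]
  have hid' : ((∑' v, Real.exp (-(π * ρ * ‖L (latPt x v)‖ ^ 2)) : ℝ) : ℂ) =
      (K : ℂ) * ∑' u, T u := by
    rw [Complex.ofReal_tsum]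
    unfold latPt
    simpa [T, K] using hid
  have hT : Summable T := by
    refine Summable.of_norm_bounded_eventually hsd ?_
    filter_upwards [(Set.finite_singleton (0 : Fin n → ℤ)).compl_mem_cofinite] with u hu
    rw [hTnorm u (by simpa using hu)]
  have h0 : T 0 = 1 := by
    have hz : Qd 0 = 0 := h.zero_eq
    simp [T, ← Pi.zero_def, hz]
  have hrest : ‖∑' u, if u = 0 then 0 else T u‖ ≤
      decayConst (0 : Fin n → ℝ) * (ρ * b) ^ (n + 1) := by
    have hle : ∀ u, ‖if u = 0 then 0 else T u‖ ≤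
        if latPt 0 u = 0 then 0 else Real.exp (-(π * ρ⁻¹ * Qd (latPt 0 u))) := fun u ↦ by
      by_cases hu : u = 0
      · rw [if_pos hu, norm_zero]; split_ifs <;> positivity
      · rw [if_neg hu, hTnorm u hu]
    refine (tsum_of_norm_bounded hsd.hasSum hle).trans (hled.trans_eq ?_)
    rw [← mul_inv, inv_inv]
  -- splitting off the vanishing term
  have hsplit : ∑' v, Real.exp (-(π * ρ * ‖L (latPt x v)‖ ^ 2)) =
      vanishCount x + thetaStar L x ρ := by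
    rw [vanishCount]
    split_ifs with hex
    · obtain ⟨v0, hv0⟩ := hex
      rw [hfull.tsum_eq_add_tsum_ite v0, hv0, thetaStar]
      simp only [map_zero, norm_zero, ne_eq, OfNat.ofNat_ne_zero, not_false_eq_true, zero_pow,
        mul_zero, neg_zero, Real.exp_zero, add_right_inj]
      refine tsum_congr fun v ↦ ?_
      have : latPt x v = 0 ↔ v = v0 :=
        ⟨fun e ↦ latPt_injective x (e.trans hv0.symm), fun e ↦ e ▸ hv0⟩
      simp [this]
    · rw [zero_add, thetaStar]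
      exact tsum_congr fun v ↦ by rw [if_neg fun e ↦ hex ⟨v, e⟩]
  have hkey : ((thetaStar L x ρ - K : ℝ) : ℂ) =
      (K : ℂ) * (∑' u, if u = 0 then 0 else T u) - (vanishCount x : ℂ) := by
    rw [hT.tsum_eq_add_tsum_ite 0, h0] at hid'
    rw [hsplit] at hid'
    push_cast at hid' ⊢
    linear_combination hid'
  have hv1 : ‖(vanishCount x : ℂ)‖ ≤ 1 := by
    rw [Complex.norm_real, Real.norm_eq_abs, vanishCount]; split_ifs <;> simp
  calc |thetaStar L x ρ - K| = ‖((thetaStar L x ρ - K : ℝ) : ℂ)‖ := by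
        rw [Complex.norm_real, Real.norm_eq_abs]
    _ ≤ ‖(K : ℂ) * ∑' u, if u = 0 then 0 else T u‖ + ‖(vanishCount x : ℂ)‖ := by
        rw [hkey]; exact norm_sub_le _ _
    _ ≤ K * (decayConst (0 : Fin n → ℝ) * (ρ * b) ^ (n + 1)) + 1 := by
        rw [norm_mul, Complex.norm_real, Real.norm_eq_abs, abs_of_nonneg hK]
        gcongr
    _ = _ := add_comm _ _

/-- The Mellin transform near the edge of absolute convergence. -/
theorem exists_mellin_bound (x : Fin n → ℝ) :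
    ∃ C, 0 ≤ C ∧ ∀ (L : (Fin n → ℝ) →ₗ[ℝ] E) (Qd : (Fin n → ℝ) → ℝ) (κ a b : ℝ),
      GaussDual L Qd κ → 0 < a → 0 < b → (∀ w, a * ∑ i, w i ^ 2 ≤ ‖L w‖ ^ 2) →
      (∀ w, ‖L w‖ ^ 2 ≤ b * ∑ i, w i ^ 2) → ∀ σ : ℝ, (n : ℝ) / 2 < σ → σ ≤ n →
      IntegrableOn (fun ρ ↦ ρ ^ (σ - 1) * thetaStar L x ρ) (Set.Ioi 0) ∧
      |(∫ ρ in Set.Ioi 0, ρ ^ (σ - 1) * thetaStar L x ρ) - κ⁻¹ / (σ - n / 2)| ≤
        C * (1 + a⁻¹ ^ (n + 1) + κ⁻¹ * b ^ (n + 1)) := by
  set D := decayConst x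
  set D0 := decayConst (0 : Fin n → ℝ)
  have hD : 0 ≤ D := decayConst_nonneg x
  have hD0 : 0 ≤ D0 := decayConst_nonneg _
  refine ⟨2 + D + D0, by positivity, fun L Qd κ a b h ha hb hlow hup σ hσ hσn ↦ ?_⟩
  set m : ℕ := n + 1
  set e : ℝ := σ - 1 - n / 2 with he
  set f : ℝ → ℝ := fun ρ ↦ ρ ^ (σ - 1) * thetaStar L x ρ
  have hfm : Measurable f := (measurable_id.pow_const _).mul (measurable_thetaStar L x)
  have hκ : 0 ≤ κ⁻¹ := inv_nonneg.2 h.pos.le
  have hn : (1 : ℝ) ≤ n := by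
    have h2 : (0 : ℝ) < n := by linarith [n.cast_nonneg (α := ℝ)]
    exact_mod_cast Nat.one_le_iff_ne_zero.2 fun e ↦ by simp [e] at h2
  -- large parameters
  have hbig : ∀ ρ ∈ Set.Ioi (1 : ℝ), |f ρ| ≤ D * a⁻¹ ^ m * ρ ^ (-2 : ℝ) := by
    intro ρ (hρ : 1 < ρ)
    have hρ0 : 0 < ρ := one_pos.trans hρ
    rw [abs_of_nonneg (mul_nonneg (Real.rpow_nonneg hρ0.le _) (thetaStar_nonneg _ _ _))]
    refine (mul_le_mul_of_nonneg_left (thetaStar_le L ha hlow hρ0)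
      (Real.rpow_nonneg hρ0.le _)).trans ?_
    rw [mul_inv, mul_pow, ← Real.rpow_natCast ρ⁻¹, Real.inv_rpow hρ0.le,
      ← Real.rpow_neg hρ0.le]
    have : ρ ^ (σ - 1) * ρ ^ (-((m : ℕ) : ℝ)) ≤ ρ ^ (-2 : ℝ) := by
      rw [← Real.rpow_add hρ0]
      exact Real.rpow_le_rpow_of_exponent_le hρ.le (by simp only [m]; push_cast; linarith)
    calc ρ ^ (σ - 1) * (D * (ρ ^ (-((n + 1 : ℕ) : ℝ)) * a⁻¹ ^ (n + 1)))
        = D * a⁻¹ ^ m * (ρ ^ (σ - 1) * ρ ^ (-((m : ℕ) : ℝ))) := by ring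
      _ ≤ _ := mul_le_mul_of_nonneg_left this (by positivity)
  have hint2 : IntegrableOn (fun ρ : ℝ ↦ D * a⁻¹ ^ m * ρ ^ (-2 : ℝ)) (Set.Ioi 1) :=
    (integrableOn_Ioi_rpow_of_lt (by norm_num) one_pos).const_mul _
  have hfi1 : IntegrableOn f (Set.Ioi 1) := hint2.mono' hfm.aestronglyMeasurable
    ((ae_restrict_mem measurableSet_Ioi).mono fun ρ hρ ↦ by simpa using hbig ρ hρ)
  have hI1 : |∫ ρ in Set.Ioi 1, f ρ| ≤ D * a⁻¹ ^ m := by
    rw [← Real.norm_eq_abs]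
    refine (norm_integral_le_of_norm_le hint2
      ((ae_restrict_mem measurableSet_Ioi).mono fun ρ hρ ↦ by simpa using hbig ρ hρ)).trans_eq ?_
    rw [integral_const_mul, integral_Ioi_rpow_of_lt (by norm_num) one_pos]
    norm_num
  -- small parameters
  set g : ℝ → ℝ := fun ρ ↦ f ρ - κ⁻¹ * ρ ^ e
  set B : ℝ := κ⁻¹ * (D0 * b ^ m)
  have hsmall : ∀ ρ ∈ Set.Ioc (0 : ℝ) 1, |g ρ| ≤ ρ ^ (σ - 1) + B := by
    rintro ρ ⟨hρ, hρ1⟩
    have hse : ρ ^ (σ - 1) * (Real.sqrt ρ ^ n * κ)⁻¹ = κ⁻¹ * ρ ^ e := by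
      rw [Real.sqrt_eq_rpow, ← Real.rpow_natCast (ρ ^ (1 / 2 : ℝ)), ← Real.rpow_mul hρ.le,
        mul_inv, ← Real.rpow_neg hρ.le, ← mul_assoc, ← Real.rpow_add hρ, mul_comm]
      congr 2
      rw [he]; ring
    have hg : g ρ = ρ ^ (σ - 1) * (thetaStar L x ρ - (Real.sqrt ρ ^ n * κ)⁻¹) := by
      simp only [g, f]; rw [mul_sub, hse]
    rw [hg, abs_mul, abs_of_pos (Real.rpow_pos_of_pos hρ _)]
    refine (mul_le_mul_of_nonneg_left (abs_thetaStar_sub_le h x ha hb hlow hup hρ)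
      (Real.rpow_nonneg hρ.le _)).trans ?_
    rw [mul_add, mul_one, ← mul_assoc, hse]
    have h1 : ρ ^ e * ρ ^ m ≤ 1 := by
      rw [← Real.rpow_natCast ρ m, ← Real.rpow_add hρ]
      exact Real.rpow_le_one hρ.le hρ1 (by simp only [m, he]; push_cast; linarith)
    calc ρ ^ (σ - 1) + κ⁻¹ * ρ ^ e * (D0 * (ρ * b) ^ (n + 1))
        = ρ ^ (σ - 1) + B * (ρ ^ e * ρ ^ m) := by simp only [B, m, mul_pow]; ring
      _ ≤ ρ ^ (σ - 1) + B * 1 := by
          gcongr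
      _ = _ := by rw [mul_one]
  have hpow : ∀ r : ℝ, -1 < r → IntegrableOn (fun ρ : ℝ ↦ ρ ^ r) (Set.Ioc 0 1) := fun r hr ↦
    (intervalIntegrable_iff_integrableOn_Ioc_of_le zero_le_one).1
      (intervalIntegral.intervalIntegrable_rpow' hr)
  have hpowi : ∀ r : ℝ, -1 < r → ∫ ρ in Set.Ioc (0 : ℝ) 1, ρ ^ r = (r + 1)⁻¹ := fun r hr ↦ by
    rw [← intervalIntegral.integral_of_le zero_le_one, integral_rpow (Or.inl hr),
      Real.one_rpow, Real.zero_rpow (by linarith)]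
    simp
  have hbd : IntegrableOn (fun ρ : ℝ ↦ ρ ^ (σ - 1) + B) (Set.Ioc 0 1) :=
    (hpow _ (by linarith)).add (integrableOn_const (by simp))
  have hgm : Measurable g := hfm.sub ((measurable_id.pow_const e).const_mul _)
  have hgi : IntegrableOn g (Set.Ioc 0 1) := hbd.mono' hgm.aestronglyMeasurable
    ((ae_restrict_mem measurableSet_Ioc).mono fun ρ hρ ↦ by simpa using hsmall ρ hρ)
  have hei : IntegrableOn (fun ρ : ℝ ↦ κ⁻¹ * ρ ^ e) (Set.Ioc 0 1) :=
    (hpow e (by rw [he]; linarith)).const_mul _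
  have hfi0 : IntegrableOn f (Set.Ioc 0 1) :=
    (hgi.add hei).congr_fun (fun ρ _ ↦ by simp [g]) measurableSet_Ioc
  have hI0 : |∫ ρ in Set.Ioc 0 1, g ρ| ≤ σ⁻¹ + B := by
    rw [← Real.norm_eq_abs]
    refine (norm_integral_le_of_norm_le hbd
      ((ae_restrict_mem measurableSet_Ioc).mono fun ρ hρ ↦ by simpa using hsmall ρ hρ)).trans_eq ?_
    rw [integral_add (hpow _ (by linarith)) (integrableOn_const (by simp)),
      hpowi _ (by linarith)]
    simp
  have hmain : ∫ ρ in Set.Ioc 0 1, f ρ =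
      (∫ ρ in Set.Ioc 0 1, g ρ) + κ⁻¹ / (σ - n / 2) := by
    have : ∫ ρ in Set.Ioc 0 1, g ρ =
        (∫ ρ in Set.Ioc 0 1, f ρ) - ∫ ρ in Set.Ioc (0 : ℝ) 1, κ⁻¹ * ρ ^ e :=
      integral_sub hfi0 hei
    rw [this, integral_const_mul, hpowi e (by rw [he]; linarith), he, div_eq_mul_inv]
    ring
  have hunion : Set.Ioc (0 : ℝ) 1 ∪ Set.Ioi 1 = Set.Ioi 0 :=
    Set.Ioc_union_Ioi_eq_Ioi zero_le_one
  refine ⟨hunion ▸ hfi0.union hfi1, ?_⟩
  rw [← hunion, setIntegral_union (Set.Ioc_disjoint_Ioi le_rfl) measurableSet_Ioi hfi0 hfi1,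
    hmain]
  have hσ2 : σ⁻¹ ≤ 2 := by
    rw [inv_le_comm₀ (by linarith) two_pos]; linarith
  have hκb : 0 ≤ κ⁻¹ * b ^ m := by positivity
  have ham : 0 ≤ a⁻¹ ^ m := by positivity
  calc |(∫ ρ in Set.Ioc 0 1, g ρ) + κ⁻¹ / (σ - n / 2) + (∫ ρ in Set.Ioi 1, f ρ) -
        κ⁻¹ / (σ - n / 2)|
      = |(∫ ρ in Set.Ioc 0 1, g ρ) + ∫ ρ in Set.Ioi 1, f ρ| := by congr 1; ring
    _ ≤ (σ⁻¹ + B) + D * a⁻¹ ^ m := (abs_add_le _ _).trans (add_le_add hI0 hI1)
    _ ≤ (2 + D + D0) * (1 + a⁻¹ ^ m + κ⁻¹ * b ^ m) := by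
        simp only [B]
        nlinarith [mul_nonneg hD hκb, mul_nonneg hD0 ham]

end FLTAgent.LT.RS
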